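import Fermat.Agent.LT.NT.CMJac
import Fermat.Agent.Cheb.DetCyc
import Fermat.Prelude.Def_GaloisRep_ModThreeCyclotomic

set_option autoImplicit false

/-!
# Primes generated by elements congruent to `1` modulo `N`, from the curve `y² = x³ + 1`
-/

namespace Fermat.Agent.LT.NT

open WeierstrassCurve WeierstrassCurve.Affine WeierstrassCurve.Affine.Point
open scoped WeierstrassCurve.Affine
open Fermat.Agent.ECRep

local notation "Qbar" => AlgebraicClosure ℚ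
local notation "Γℚ" => (AlgebraicClosure ℚ ≃ₐ[ℚ] AlgebraicClosure ℚ)

/-- a primitive cube root of unity -/
theorem exists_w : ∃ w : Qbar, IsPrimitiveRoot w 3 ∧ w ^ 2 + w + 1 = 0 := by
  obtain ⟨w, hw⟩ := HasEnoughRootsOfUnity.exists_primitiveRoot Qbar 3
  refine ⟨w, hw, ?_⟩
  have h1 := hw.geom_sum_eq_zero (by norm_num)
  simp only [Finset.sum_range_succ, Finset.sum_range_zero, pow_zero, pow_one, zero_add] at h1
  linear_combination h1

/-- the mod `3` cyclotomic character describes the action on cube roots of unity -/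
theorem char_spec (σ : Γℚ) {w : Qbar} (hw : w ^ 3 = 1) :
    σ w = w ^ ((modThreeCyclotomicChar σ : (ZMod 3)ˣ) : ZMod 3).val := by
  have hw0 : w ≠ 0 := by
    rintro rfl
    norm_num at hw
  have h1 := modularCyclotomicCharacter.spec (L := Qbar)
    (IsAlgClosed.card_rootsOfUnity_eq (AlgebraicClosure ℚ) 3) (σ : Qbar ≃+* Qbar)
    (t := Units.mk0 w hw0) (by
      rw [mem_rootsOfUnity]
      apply Units.ext
      simpa using hw)
  simpa using h1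

theorem fix_w_of_char {σ : Γℚ} (hσ : modThreeCyclotomicChar σ = 1) {w : Qbar} (hw : w ^ 3 = 1) :
    σ w = w := by
  rw [char_spec σ hw, hσ]
  have : ((1 : (ZMod 3)ˣ) : ZMod 3).val = 1 := by decide
  rw [this, pow_one]

theorem char_of_fix_w {σ : Γℚ} {w : Qbar} (hw : IsPrimitiveRoot w 3) (h : σ w = w) :
    modThreeCyclotomicChar σ = 1 := by
  have h1 := char_spec σ hw.pow_eq_one
  rw [h] at h1
  have h2 : w ^ 1 = w ^ ((modThreeCyclotomicChar σ : (ZMod 3)ˣ) : ZMod 3).val := by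
    rw [pow_one]; exact h1
  have h3 := hw.pow_inj (by norm_num) (ZMod.val_lt _) h2
  apply Units.ext
  apply ZMod.val_injective 3
  rw [← h3]
  decide

/-- some automorphism moves the cube roots of unity -/
theorem exists_conj {w : Qbar} (hw : IsPrimitiveRoot w 3) : ∃ c : Γℚ, c w = w ^ 2 := by
  have hw2 : IsPrimitiveRoot (w ^ 2) 3 := hw.pow_of_coprime 2 (by norm_num)
  have h1 : IsConjRoot ℚ w (w ^ 2) := by
    unfold IsConjRoot
    rw [← Polynomial.cyclotomic_eq_minpoly_rat hw (by norm_num),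
      ← Polynomial.cyclotomic_eq_minpoly_rat hw2 (by norm_num)]
  obtain ⟨σ, hσ⟩ := isConjRoot_iff_exists_algEquiv.mp h1
  refine ⟨σ⁻¹, ?_⟩
  have h2 : σ⁻¹ (σ (w ^ 2)) = w ^ 2 := by
    change (σ⁻¹ * σ) (w ^ 2) = w ^ 2
    rw [inv_mul_cancel]; rfl
  rwa [hσ] at h2

/-- divisibility from torsion -/
theorem dvd_of_torsion {E : Type*} [AddCommGroup E]
    (hcard : ∀ n : ℕ, n ≠ 0 → Nat.card {x : E // n • x = 0} = n ^ 2) {n : ℕ} (hn : n ≠ 0)
    {d : ℤ} (h : ∀ x : E, n • x = 0 → d • x = 0) : (n : ℤ) ∣ d := by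
  set g := Nat.gcd n d.natAbs with hg
  have hg0 : g ≠ 0 := Nat.gcd_ne_zero_left hn
  have hmem : ∀ x : E, n • x = 0 → g • x = 0 := by
    intro x hx
    have h1 : ((g : ℕ) : ℤ) = n * Int.gcdA n d + d * Int.gcdB n d := by
      have := Int.gcd_eq_gcd_ab n d
      rw [← this]
      rfl
    rw [← natCast_zsmul, h1, add_smul, mul_comm (n : ℤ), mul_comm d, mul_smul, mul_smul,
      natCast_zsmul, hx, h x hx, smul_zero, smul_zero, add_zero]
  have hfin : Finite {x : E // g • x = 0} := by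
    apply Nat.finite_of_card_ne_zero
    rw [hcard g hg0]
    positivity
  have h2 : n ^ 2 ≤ g ^ 2 := by
    rw [← hcard n hn, ← hcard g hg0]
    exact Nat.card_le_card_of_injective
      (fun x : {x : E // n • x = 0} => (⟨x.1, hmem x.1 x.2⟩ : {x : E // g • x = 0}))
      (fun x y hxy => Subtype.ext (by simpa using hxy))
  have h3 : n ≤ g := le_of_sq_le_sq' h2
  have h4 : g ∣ n := Nat.gcd_dvd_left _ _
  have h5 : g = n := le_antisymm (Nat.le_of_dvd (Nat.pos_of_ne_zero hn) h4) h3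
  rw [Int.natCast_dvd, ← h5]
  exact Nat.gcd_dvd_right _ _
where
  le_of_sq_le_sq' {a b : ℕ} (h : a ^ 2 ≤ b ^ 2) : a ≤ b :=
    (Nat.pow_le_pow_iff_left two_ne_zero).mp h

lemma comb_aux {E : Type*} [AddCommGroup E] (P : E) (a p : ℤ) :
    (2 * (p + 1 - a)) • P = (2 : ℤ) • (P - a • P + p • P) := by
  have : 2 * (p + 1 - a) = 2 * (1 - a + p) := by ring
  rw [this, mul_smul, add_smul, sub_smul, one_smul]

/-- the arithmetic step -/
theorem arith_step {N : ℕ} {p : ℕ} {x y a : ℤ} (h1 : x ^ 2 - x * y + y ^ 2 = p)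
    (h2 : 2 * x - y = a) (h3 : ((6 * N : ℕ) : ℤ) ^ 2 ∣ p + 1 - a) (h4 : ((6 * N : ℕ) : ℤ) ∣ a - 2) :
    (N : ℤ) ∣ x - 1 ∧ (N : ℤ) ∣ y := by
  obtain ⟨s, hs⟩ := h3
  obtain ⟨t, ht⟩ := h4
  have h5 : 3 * y ^ 2 = 4 * (p + 1 - a) - (a - 2) ^ 2 := by
    rw [← h1, ← h2]; ring
  have h6 : ((2 * N : ℕ) : ℤ) ^ 2 ∣ y ^ 2 := by
    refine ⟨3 * (4 * s - t ^ 2), ?_⟩
    have : 3 * y ^ 2 = 3 * ((((2 * N : ℕ) : ℤ)) ^ 2 * (3 * (4 * s - t ^ 2))) := by
      rw [h5, hs, ht]; push_cast; ring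
    linarith
  have h7 : ((2 * N : ℕ) : ℤ) ∣ y := (Int.pow_dvd_pow_iff two_ne_zero).mp h6
  obtain ⟨r, hr⟩ := h7
  refine ⟨⟨3 * t + r, ?_⟩, ⟨2 * r, ?_⟩⟩
  · have : 2 * (x - 1) = 2 * ((N : ℤ) * (3 * t + r)) := by
      push_cast at ht hr
      linear_combination h2 + ht + hr
    linarith
  · rw [hr]; push_cast; ring

/-- the level `n` kernel: trivial on `E0[n]` and on `μ_n` -/
noncomputable def UE (n : ℕ) : Subgroup Γℚ where
  carrier := {σ | (∀ P : PtE, n • P = 0 → σ • P = P) ∧ ∀ z : Qbar, z ^ n = 1 → σ z = z}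
  mul_mem' := by
    rintro a b ⟨ha, ha'⟩ ⟨hb, hb'⟩
    refine ⟨fun P hP => ?_, fun z hz => ?_⟩
    · rw [mul_smul, hb P hP, ha P hP]
    · rw [AlgEquiv.mul_apply, hb' z hz, ha' z hz]
  one_mem' := ⟨fun P _ => one_smul _ P, fun z _ => rfl⟩
  inv_mem' := by
    rintro a ⟨ha, ha'⟩
    refine ⟨fun P hP => ?_, fun z hz => ?_⟩
    · exact inv_smul_eq_iff.mpr (ha P hP).symm
    · have := ha' z hz
      nth_rw 1 [← this]
      change (a⁻¹ * a) z = z
      rw [inv_mul_cancel]; rfl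

lemma mem_UE {n : ℕ} {σ : Γℚ} : σ ∈ UE n ↔
    (∀ P : PtE, n • P = 0 → σ • P = P) ∧ ∀ z : Qbar, z ^ n = 1 → σ z = z := Iff.rfl

lemma nsmul_smul' (n : ℕ) (σ : Γℚ) (P : PtE) : n • (σ • P) = σ • (n • P) :=
  ((galE σ).map_nsmul n P).symm

instance UE_normal (n : ℕ) : (UE n).Normal := by
  refine ⟨fun a ha g => ⟨fun P hP => ?_, fun z hz => ?_⟩⟩
  · rw [mul_smul, mul_smul]
    have h1 : n • (g⁻¹ • P) = 0 := by rw [nsmul_smul', hP]; rfl
    rw [ha.1 _ h1, smul_inv_smul]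
  · have h1 : (g⁻¹ z) ^ n = 1 := by rw [← map_pow, hz, map_one]
    change g (a (g⁻¹ z)) = z
    rw [ha.2 _ h1]
    change (g * g⁻¹) z = z
    rw [mul_inv_cancel]; rfl

theorem UE_isOpen {n : ℕ} (hn : n ≠ 0) : IsOpen (UE n : Set Γℚ) := by
  obtain ⟨L, hL, hL2⟩ := finiteLevel (toRat E0) toRat_E0_Δ n hn
  let S : Set Qbar := {z | z ^ n = 1}
  have hS : S.Finite := by
    have h1 : (Polynomial.X ^ n - Polynomial.C (1 : Qbar)) ≠ 0 :=
      Polynomial.X_pow_sub_C_ne_zero (Nat.pos_of_ne_zero hn) 1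
    refine (Polynomial.rootSet_finite (Polynomial.X ^ n - Polynomial.C (1 : Qbar)) Qbar).subset ?_
    intro z hz
    rw [Polynomial.mem_rootSet]
    refine ⟨h1, ?_⟩
    have : z ^ n = 1 := hz
    simp [this]
  let M : IntermediateField ℚ Qbar := IntermediateField.adjoin ℚ S
  have hM : FiniteDimensional ℚ M := by
    have := hS.to_subtype
    exact IntermediateField.finiteDimensional_adjoin fun x _ => Algebra.IsIntegral.isIntegral x
  have h1 := IntermediateField.fixingSubgroup_isOpen L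
  have h2 := IntermediateField.fixingSubgroup_isOpen M
  have h3 : IsOpen ((L.fixingSubgroup ⊓ M.fixingSubgroup : Subgroup Γℚ) : Set Γℚ) := h1.inter h2
  refine Subgroup.isOpen_mono (H₁ := L.fixingSubgroup ⊓ M.fixingSubgroup) ?_ h3
  intro σ hσ
  have ha := (IntermediateField.mem_fixingSubgroup_iff L σ).mp hσ.1
  have hb := (IntermediateField.mem_fixingSubgroup_iff M σ).mp hσ.2
  refine ⟨fun P hP => ?_, fun z hz => hb z (IntermediateField.subset_adjoin ℚ S hz)⟩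
  have h4 := hL2 σ ha
  have hv : P ∈ Submodule.torsionBy ℤ PtE (n : ℤ) := by
    rw [Submodule.mem_torsionBy_iff, natCast_zsmul]; exact hP
  have h5 := LinearMap.congr_fun h4 ⟨P, hv⟩
  exact congrArg Subtype.val h5

/-- commutators of automorphisms fixing `w` are in `UE n` -/
theorem commutator_mem_UE {n : ℕ} (hn : n ≠ 0) {a b : Γℚ} (ha : modThreeCyclotomicChar a = 1)
    (hb : modThreeCyclotomicChar b = 1) : a * b * a⁻¹ * b⁻¹ ∈ UE n := by
  obtain ⟨w, hw3, hw⟩ := exists_w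
  obtain ⟨c, hc⟩ := exists_conj hw3
  refine ⟨fun P hP => ?_, fun z hz => ?_⟩
  · rw [mul_smul, mul_smul, mul_smul]
    have h1 : n • (a⁻¹ • b⁻¹ • P) = 0 := by
      rw [nsmul_smul', nsmul_smul', hP]; rfl
    rw [comm_tors hw hc (fix_w_of_char ha hw3.pow_eq_one) (fix_w_of_char hb hw3.pow_eq_one)
      (Nat.pos_of_ne_zero hn) h1, smul_inv_smul, smul_inv_smul]
  · have : NeZero n := ⟨hn⟩
    obtain ⟨ζ, hζ⟩ := HasEnoughRootsOfUnity.exists_primitiveRoot Qbar n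
    have key : ∀ σ : Γℚ, ∃ i : ℕ, ∀ z : Qbar, z ^ n = 1 → σ z = z ^ i := by
      intro σ
      have h1 : (σ ζ) ^ n = 1 := by rw [← map_pow, hζ.pow_eq_one, map_one]
      obtain ⟨i, -, hi⟩ := hζ.eq_pow_of_pow_eq_one h1
      refine ⟨i, fun z hz => ?_⟩
      obtain ⟨j, -, rfl⟩ := hζ.eq_pow_of_pow_eq_one hz
      rw [map_pow, ← hi, ← pow_mul, ← pow_mul, mul_comm]
    obtain ⟨i, hi⟩ := key a
    obtain ⟨j, hj⟩ := key b
    have h2 : (a⁻¹ (b⁻¹ z)) ^ n = 1 := by rw [← map_pow, ← map_pow, hz, map_one, map_one]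
    change a (b (a⁻¹ (b⁻¹ z))) = z
    have h3 : a (b (a⁻¹ (b⁻¹ z))) = b (a (a⁻¹ (b⁻¹ z))) := by
      rw [hj _ h2, hi _ h2, map_pow, map_pow, hi _ h2, hj _ h2, ← pow_mul, ← pow_mul, mul_comm]
    rw [h3]
    change b ((a * a⁻¹) (b⁻¹ z)) = z
    rw [mul_inv_cancel]
    change (b * b⁻¹) z = z
    rw [mul_inv_cancel]; rfl

/-- **Frobenius elements in `UE (2 (6 N)²)`**. -/
theorem frob_UE {N : ℕ} (hN : 0 < N) {p : ℕ} (hp : p.Prime) (hpN : ¬ p ∣ 2 * (6 * N) ^ 2)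
    {A : ValuationSubring Qbar} (hA : A.LiesOverPrime p) {φ : Γℚ} (hφ : A.IsFrobeniusAt φ p)
    (hU : φ ∈ UE (2 * (6 * N) ^ 2)) :
    p ≡ 1 [MOD N] ∧ ∃ x y : ℤ, x ^ 2 - x * y + y ^ 2 = p ∧ (N : ℤ) ∣ x - 1 ∧ (N : ℤ) ∣ y := by
  set n := 2 * (6 * N) ^ 2 with hn
  have hn0 : n ≠ 0 := by positivity
  have : NeZero n := ⟨hn0⟩
  have hp2 : p ≠ 2 := by
    rintro rfl
    exact hpN (dvd_mul_right _ _)
  have hp3 : p ≠ 3 := by
    rintro rfl
    exact hpN ⟨2 * 12 * N ^ 2, by rw [hn]; ring⟩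
  -- `p ≡ 1` modulo `n`
  have hpn : n ∣ p - 1 := by
    obtain ⟨ζ, hζ⟩ := HasEnoughRootsOfUnity.exists_primitiveRoot Qbar n
    have h1 := Cheb.frob_rootOfUnity hp hA hφ hpN hζ.pow_eq_one
    rw [hU.2 ζ hζ.pow_eq_one] at h1
    rw [← hζ.pow_eq_one_iff_dvd]
    have hζ0 : ζ ≠ 0 := hζ.ne_zero hn0
    apply mul_left_cancel₀ hζ0
    rw [mul_one, ← pow_succ', Nat.sub_add_cancel hp.one_le]
    exact h1.symm
  -- the point count
  have hgood : E0.IsGoodPrimeFor p := by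
    intro h
    rw [E0_Δ] at h
    have h1 : p ∣ 432 := by
      rw [dvd_neg] at h
      exact_mod_cast h
    have h2 : (432 : ℕ) = 2 ^ 4 * 3 ^ 3 := by norm_num
    rw [h2] at h1
    rcases hp.dvd_mul.mp h1 with h | h
    · exact hp2 ((Nat.prime_dvd_prime_iff_eq hp Nat.prime_two).mp (hp.dvd_of_dvd_pow h))
    · exact hp3 ((Nat.prime_dvd_prime_iff_eq hp Nat.prime_three).mp (hp.dvd_of_dvd_pow h))
  have hd : (n : ℤ) ∣ 2 * (p + 1 - E0.apOfModel p) := by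
    refine dvd_of_torsion (E := PtE) (card_tors (toRat E0) toRat_E0_Δ) hn0 fun P hP => ?_
    have h1 := frob_rel_torsion' E0 hp hA hgood hφ hpN hP
    rw [hU.1 P hP, hU.1 P hP] at h1
    exact (comb_aux P (E0.apOfModel p) p).trans h1
  have h3p : 3 ∣ p - 1 := dvd_trans ⟨2 * 12 * N ^ 2, by rw [hn]; ring⟩ hpn
  obtain ⟨x, y, hxy, ha⟩ := exists_norm_form hp hp2 h3p
  have hnZ : (n : ℤ) = 2 * ((6 * N : ℕ) : ℤ) ^ 2 := by rw [hn]; push_cast; ring
  have h5 : ((6 * N : ℕ) : ℤ) ^ 2 ∣ p + 1 - E0.apOfModel p := by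
    rw [hnZ] at hd
    exact (mul_dvd_mul_iff_left two_ne_zero).mp hd
  have hp1 : (n : ℤ) ∣ (p : ℤ) - 1 := by
    have := Int.natCast_dvd_natCast.mpr hpn
    rwa [Nat.cast_sub hp.one_le, Nat.cast_one] at this
  have h6 : ((6 * N : ℕ) : ℤ) ∣ E0.apOfModel p - 2 := by
    have h7 : ((6 * N : ℕ) : ℤ) ∣ (p : ℤ) - 1 :=
      dvd_trans ⟨2 * ((6 * N : ℕ) : ℤ), by rw [hnZ]; ring⟩ hp1
    have h8 : ((6 * N : ℕ) : ℤ) ∣ p + 1 - E0.apOfModel p :=
      dvd_trans (dvd_pow_self _ two_ne_zero) h5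
    have h9 := dvd_sub h7 h8
    rwa [show (p : ℤ) - 1 - (p + 1 - E0.apOfModel p) = E0.apOfModel p - 2 by ring] at h9
  refine ⟨?_, x, y, hxy, arith_step hxy ha h5 h6⟩
  apply Nat.ModEq.symm
  rw [Nat.modEq_iff_dvd' hp.one_le]
  exact dvd_trans ⟨2 * 36 * N, by rw [hn]; ring⟩ hpn

/-- **The CM level theorem.** -/
theorem exists_cm_level (N : ℕ) (hN : 0 < N) :
    ∃ U : Subgroup Γℚ, U.Normal ∧ IsOpen (U : Set Γℚ) ∧
      (∀ σ ∈ U, modThreeCyclotomicChar σ = 1) ∧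
      (∀ a b, modThreeCyclotomicChar a = 1 → modThreeCyclotomicChar b = 1 →
        a * b * a⁻¹ * b⁻¹ ∈ U) ∧
      ∃ B : ℕ, ∀ p : ℕ, p.Prime → B < p → ∀ A : ValuationSubring (AlgebraicClosure ℚ),
        A.LiesOverPrime p → ∀ φ, A.IsFrobeniusAt φ p → φ ∈ U → p ≡ 1 [MOD N] ∧
          ∃ x y : ℤ, x ^ 2 - x * y + y ^ 2 = p ∧ (N : ℤ) ∣ x - 1 ∧ (N : ℤ) ∣ y := by
  have hn0 : 2 * (6 * N) ^ 2 ≠ 0 := by positivity
  refine ⟨UE (2 * (6 * N) ^ 2), inferInstance, UE_isOpen hn0, fun σ hσ => ?_,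
    fun a b ha hb => commutator_mem_UE hn0 ha hb, 2 * (6 * N) ^ 2, fun p hp hB A hA φ hφ hU =>
      frob_UE hN hp (fun h => absurd (Nat.le_of_dvd (Nat.pos_of_ne_zero hn0) h)
        (not_le.mpr hB)) hA hφ hU⟩
  obtain ⟨w, hw3, -⟩ := exists_w
  refine char_of_fix_w hw3 (hσ.2 w ?_)
  have : 2 * (6 * N) ^ 2 = 3 * (24 * N ^ 2) := by ring
  rw [this, pow_mul, hw3.pow_eq_one, one_pow]

end Fermat.Agent.LT.NT
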