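import Fermat.Agent.ECRep.TateMod

set_option autoImplicit false

/-!
# Abstract commutation of endomorphisms of a torsion group commuting with a cyclic generator
-/

namespace Fermat.Agent.LT.NT

open Fermat.Agent.ECRep

section

variable {E : Type*} [AddCommGroup E] {l : ℕ} [Fact l.Prime]

/-- If `w` is an endomorphism such that some `l`-torsion point `P₀` is independent of `w P₀`,
then every `l ^ n`-torsion point is a combination of `P` and `w P` for a suitable `P`. -/
theorem exists_cyclic (hcard : ∀ n : ℕ, Nat.card {x : E // l ^ n • x = 0} = (l ^ n) ^ 2)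
    (w : E →+ E) {P0 : E} (hP0 : l • P0 = 0)
    (hind : ∀ a b : ℤ, a • P0 + b • w P0 = 0 → (l : ℤ) ∣ a ∧ (l : ℤ) ∣ b) (n : ℕ) :
    ∃ P : E, l ^ n • P = 0 ∧ ∀ y : E, l ^ n • y = 0 → ∃ u v : ℤ, y = u • P + v • w P := by
  obtain ⟨t, ht⟩ := exists_lift hcard (n := 1) (x := P0) (by rwa [pow_one])
  refine ⟨t.1 n, t.torsion n, fun y hy => ?_⟩
  obtain ⟨s, hs⟩ := exists_lift hcard hy
  obtain ⟨c, hc⟩ := coordMap_surjective hcard (p := t) (q := Tate.map w t) (by
    intro a b h
    rw [Tate.map_coe, ht] at h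
    exact hind a b h) s
  refine ⟨((c 0).appr n : ℤ), ((c 1).appr n : ℤ), ?_⟩
  rw [← hs, ← hc, natCast_zsmul, natCast_zsmul]
  rfl

/-- Endomorphisms commuting with `w` commute with each other on the `l ^ n`-torsion. -/
theorem comm_of_comm_omega
    (hcard : ∀ n : ℕ, Nat.card {x : E // l ^ n • x = 0} = (l ^ n) ^ 2)
    (w : E →+ E) {P0 : E} (hP0 : l • P0 = 0)
    (hind : ∀ a b : ℤ, a • P0 + b • w P0 = 0 → (l : ℤ) ∣ a ∧ (l : ℤ) ∣ b)
    (a b : E →+ E) (ha : ∀ x, a (w x) = w (a x)) (hb : ∀ x, b (w x) = w (b x))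
    (n : ℕ) (x : E) (hx : l ^ n • x = 0) : a (b x) = b (a x) := by
  obtain ⟨P, hP, hgen⟩ := exists_cyclic hcard w hP0 hind n
  obtain ⟨u, v, hu⟩ := hgen (a P) (by rw [← map_nsmul, hP, map_zero])
  obtain ⟨u', v', hu'⟩ := hgen (b P) (by rw [← map_nsmul, hP, map_zero])
  have key : a (b P) = b (a P) := by
    rw [hu', hu]
    simp only [map_add, map_zsmul, ha, hb]
    rw [hu, hu']
    simp only [map_add, map_zsmul, smul_add, smul_smul]
    rw [mul_comm u' u, mul_comm u' v, mul_comm v' u, mul_comm v' v]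
    abel
  obtain ⟨s, t, rfl⟩ := hgen x hx
  simp only [map_add, map_zsmul, ha, hb, key]

/-- The gluing over all integers. -/
theorem comm_of_primePow {a b : E →+ E}
    (h : ∀ (l : ℕ), l.Prime → ∀ (n : ℕ) (x : E), l ^ n • x = 0 → a (b x) = b (a x))
    (n : ℕ) (hn : 0 < n) : ∀ x : E, n • x = 0 → a (b x) = b (a x) := by
  induction n using Nat.recOnPosPrimePosCoprime with
  | zero => exact absurd hn (lt_irrefl _)
  | one => intro x hx; rw [one_smul] at hx; rw [hx]; simp
  | prime_pow p n hp _ => exact h p hp n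
  | coprime m n hm hn' hmn ihm ihn =>
    intro x hx
    have hb : (1 : ℤ) = m * m.gcdA n + n * m.gcdB n := by
      rw [← Nat.gcd_eq_gcd_ab, Nat.Coprime.gcd_eq_one hmn, Nat.cast_one]
    have hx' : x = (m * m.gcdA n : ℤ) • x + (n * m.gcdB n : ℤ) • x := by
      rw [← add_smul, ← hb, one_smul]
    have h1 : m • ((n * m.gcdB n : ℤ) • x) = 0 := by
      rw [← natCast_zsmul, smul_smul, ← mul_assoc, mul_comm, mul_smul, ← Nat.cast_mul,
        natCast_zsmul, hx, smul_zero]
    have h2 : n • ((m * m.gcdA n : ℤ) • x) = 0 := by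
      rw [← natCast_zsmul, smul_smul, ← mul_assoc, mul_comm, mul_smul, ← Nat.cast_mul,
        mul_comm n m, natCast_zsmul, hx, smul_zero]
    have h3 := ihm (by omega) _ h1
    have h4 := ihn (by omega) _ h2
    rw [hx']
    simp only [map_add]
    rw [h3, h4]

/-- an order `l` point killed by an integer -/
lemma dvd_of_smul_eq_zero {l : ℕ} (hl : l.Prime) {P : E}
    (hP : l • P = 0) (hP0 : P ≠ 0) {a : ℤ} (ha : a • P = 0) : (l : ℤ) ∣ a := by
  by_contra hcon
  have hco : IsCoprime (l : ℤ) a := by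
    rw [Int.isCoprime_iff_gcd_eq_one]
    exact (Nat.Prime.coprime_iff_not_dvd hl).mpr (fun h => hcon (Int.natCast_dvd.mpr h))
  obtain ⟨u, v, huv⟩ := hco
  apply hP0
  have : (u * l + v * a) • P = 0 := by
    rw [add_smul, mul_smul, mul_smul, ha, natCast_zsmul, hP, smul_zero, smul_zero, add_zero]
  rwa [huv, one_smul] at this

/-- A point independent of its image under `w`, using a conjugation `c` with `c w = w² c`. -/
lemma exists_indep_of_conj {l : ℕ} (hl : l.Prime) (w c : E →+ E) (hwi : Function.Injective w)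
    (hci : Function.Injective c) (hw3 : ∀ P, w (w (w P)) = P) (hcw : ∀ P, c (w P) = w (w (c P)))
    {P : E} (hP : l • P = 0) (hPw : w P ≠ P) :
    ∃ P : E, l • P = 0 ∧ ∀ a b : ℤ, a • P + b • w P = 0 → (l : ℤ) ∣ a ∧ (l : ℤ) ∣ b := by
  have hP0 : P ≠ 0 := by
    rintro rfl
    exact hPw (map_zero w)
  by_cases hcase : ∃ a : ℤ, w P = a • P
  · obtain ⟨a, ha⟩ := hcase
    have h1 : w (w (c P)) = a • (c P) := by
      rw [← hcw, ha, map_zsmul]
    have h2 : w (c P) = (a ^ 2) • (c P) := by
      have h3 := hw3 (w (c P))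
      rw [h1] at h3
      rw [map_zsmul, map_zsmul, h1, smul_smul] at h3
      rw [← h3, pow_two]
    have hcP : l • (c P) = 0 := by
      rw [← map_nsmul, hP, map_zero]
    have hcP0 : c P ≠ 0 := by
      intro h
      apply hP0
      apply hci
      rw [h, map_zero]
    have ha1 : ¬ (l : ℤ) ∣ a ^ 2 - a := by
      intro hd
      rcases (Nat.prime_iff_prime_int.mp hl).dvd_or_dvd
        (show (l : ℤ) ∣ a * (a - 1) by convert hd using 1; ring) with h | h
      · obtain ⟨k, rfl⟩ := h
        apply hP0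
        apply hwi
        rw [ha, map_zero, mul_comm, mul_smul, natCast_zsmul, hP, smul_zero]
      · obtain ⟨k, hk⟩ := h
        apply hPw
        have : a = k * l + 1 := by rw [mul_comm]; linarith
        rw [ha, this, add_smul, one_smul, mul_smul, natCast_zsmul, hP, smul_zero, zero_add]
    have hlp := Nat.prime_iff_prime_int.mp hl
    refine ⟨P + c P, by rw [smul_add, hP, hcP, add_zero], fun u v huv => ?_⟩
    rw [map_add, ha, h2] at huv
    have e1 : (u + v * a) • P + (u + v * a ^ 2) • (c P) = 0 := by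
      rw [← huv]
      simp only [smul_add, add_smul, mul_smul]
      abel
    have e2 : (a * (u + v * a)) • P + (a ^ 2 * (u + v * a ^ 2)) • (c P) = 0 := by
      have := congrArg w e1
      rw [map_add, map_zsmul, map_zsmul, ha, h2, map_zero, smul_smul, smul_smul] at this
      rw [mul_comm a, mul_comm (a ^ 2)]
      exact this
    have e3 : ((a ^ 2 - a) * (u + v * a ^ 2)) • (c P) = 0 := by
      have h5 : ((a ^ 2 - a) * (u + v * a ^ 2)) • (c P) =
          ((a * (u + v * a)) • P + (a ^ 2 * (u + v * a ^ 2)) • (c P)) -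
            a • ((u + v * a) • P + (u + v * a ^ 2) • (c P)) := by
        rw [smul_add, smul_smul, smul_smul, sub_mul, sub_smul]
        abel
      rw [h5, e1, e2, smul_zero, sub_zero]
    have e4 := (hlp.dvd_or_dvd (dvd_of_smul_eq_zero hl hcP hcP0 e3)).resolve_left ha1
    have e5 : (u + v * a) • P = 0 := by
      obtain ⟨k, hk⟩ := e4
      rw [hk, mul_comm (l : ℤ) k, mul_smul _ _ (c P), natCast_zsmul, hcP, smul_zero,
        add_zero] at e1
      exact e1
    have e6 := dvd_of_smul_eq_zero hl hP hP0 e5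
    have e7 : (l : ℤ) ∣ v * (a ^ 2 - a) := by
      have h := dvd_sub e4 e6
      rwa [show u + v * a ^ 2 - (u + v * a) = v * (a ^ 2 - a) by ring] at h
    have e8 := (hlp.dvd_or_dvd e7).resolve_right ha1
    refine ⟨?_, e8⟩
    have h := dvd_sub e6 (e8.mul_right a)
    rwa [add_sub_cancel_right] at h
  · refine ⟨P, hP, fun u v huv => ?_⟩
    have hv : (l : ℤ) ∣ v := by
      by_contra hcon
      apply hcase
      have hco : IsCoprime (l : ℤ) v := by
        rw [Int.isCoprime_iff_gcd_eq_one]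
        exact (Nat.Prime.coprime_iff_not_dvd hl).mpr (fun h => hcon (Int.natCast_dvd.mpr h))
      obtain ⟨s, t, hst⟩ := hco
      have hwP : l • w P = 0 := by rw [← map_nsmul, hP, map_zero]
      refine ⟨-(t * u), ?_⟩
      have h1 : (s * l + t * v) • w P = w P := by rw [hst, one_smul]
      rw [add_smul, mul_smul, natCast_zsmul, hwP, smul_zero, zero_add, mul_smul] at h1
      have h2 : v • w P = -(u • P) := by
        rw [eq_neg_iff_add_eq_zero, add_comm]; exact huv
      rw [← h1, h2, neg_smul, mul_smul, smul_neg]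
    refine ⟨?_, hv⟩
    obtain ⟨k, rfl⟩ := hv
    have hwP : l • w P = 0 := by rw [← map_nsmul, hP, map_zero]
    rw [mul_comm (l : ℤ), mul_smul, natCast_zsmul, hwP, smul_zero, add_zero] at huv
    exact dvd_of_smul_eq_zero hl hP hP0 huv

end

end Fermat.Agent.LT.NT
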