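import Fermat.Agent.LT.NT.CMTors
import Fermat.Agent.Schoof.Manin
import Mathlib.NumberTheory.JacobiSum.Basic

set_option autoImplicit false

/-!
# Point counts of `y² = x³ + 1` and Jacobi sums
-/

open Finset

namespace Fermat.Agent.LT.NT

open WeierstrassCurve Fermat.Agent.Schoof

section

variable {p : ℕ} [Fact p.Prime]

/-- the number of cube roots in terms of a cubic character -/
lemma card_cube_roots (hp3 : 3 ∣ p - 1) {χ : MulChar (ZMod p) ℂ} (hχ : orderOf χ = 3)
    (y : ZMod p) : ((univ.filter fun x : ZMod p => x ^ 3 = y).card : ℂ) = 1 + χ y + χ⁻¹ y := by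
  classical
  have hχ3 : ∀ z : ZMod p, z ≠ 0 → χ z ^ 3 = 1 := by
    intro z hz
    have h1 : χ ^ 3 = 1 := by rw [← hχ]; exact pow_orderOf_eq_one χ
    rw [← MulChar.pow_apply' χ three_ne_zero, h1, MulChar.one_apply (isUnit_iff_ne_zero.mpr hz)]
  have hinv : ∀ z : ZMod p, z ≠ 0 → χ⁻¹ z = χ z ^ 2 := by
    intro z hz
    have h1 : χ⁻¹ z * χ z = 1 := by
      rw [← MulChar.mul_apply, inv_mul_cancel, MulChar.one_apply (isUnit_iff_ne_zero.mpr hz)]
    have h2 := hχ3 z hz
    calc χ⁻¹ z = χ⁻¹ z * (χ z ^ 3) := by rw [h2, mul_one]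
      _ = (χ⁻¹ z * χ z) * χ z ^ 2 := by ring
      _ = χ z ^ 2 := by rw [h1, one_mul]
  by_cases hy : y = 0
  · subst hy
    rw [χ.map_zero, χ⁻¹.map_zero]
    have : (univ.filter fun x : ZMod p => x ^ 3 = 0) = {0} := by
      ext x
      simp
    rw [this]; simp
  by_cases hcube : ∃ x0 : ZMod p, x0 ^ 3 = y
  · obtain ⟨x0, hx0⟩ := hcube
    have hx00 : x0 ≠ 0 := by
      rintro rfl
      apply hy
      rw [← hx0]; simp
    have hχy : χ y = 1 := by rw [← hx0, map_pow, hχ3 x0 hx00]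
    rw [hinv y hy, hχy]
    -- a primitive cube root of unity in `ZMod p`
    have hcard : 3 ∣ Fintype.card (ZMod p)ˣ := by
      rw [ZMod.card_units_eq_totient, Nat.totient_prime (Fact.out : p.Prime)]; exact hp3
    have := Fact.mk Nat.prime_three
    obtain ⟨z, hz⟩ := exists_prime_orderOf_dvd_card 3 hcard
    have hprim : IsPrimitiveRoot (z : ZMod p) 3 := by
      rw [IsPrimitiveRoot.coe_units_iff, ← hz]
      exact IsPrimitiveRoot.orderOf z
    have hc : (univ.filter fun x : ZMod p => x ^ 3 = y) =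
        ⟨Polynomial.nthRoots 3 y, hprim.nthRoots_nodup hy⟩ := by
      ext x
      simp [Polynomial.mem_nthRoots]
    rw [hc, card_mk, hprim.card_nthRoots, if_pos ⟨x0, hx0⟩]
    norm_num
  · have hempty : (univ.filter fun x : ZMod p => x ^ 3 = y) = ∅ := by
      rw [filter_eq_empty_iff]
      intro x _ hx
      exact hcube ⟨x, hx⟩
    rw [hempty, card_empty, Nat.cast_zero, hinv y hy]
    have h1 : χ y ≠ 1 := by
      intro h1
      obtain ⟨g, hg⟩ := IsCyclic.exists_generator (α := (ZMod p)ˣ)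
      obtain ⟨k, hk⟩ := (mem_powers_iff_mem_zpowers.mpr (hg (Units.mk0 y hy)))
      have hk' : (g : ZMod p) ^ k = y := by
        have := congrArg Units.val hk
        simpa using this
      have hg0 : (g : ZMod p) ≠ 0 := g.ne_zero
      have hχg : χ (g : ZMod p) = 1 := by
        have h2 : χ (g : ZMod p) ^ k = 1 := by rw [← map_pow, hk', h1]
        have h3 := hχ3 _ hg0
        have h4 : k = 3 * (k / 3) + k % 3 := (Nat.div_add_mod k 3).symm
        rw [h4, pow_add, pow_mul, h3, one_pow, one_mul] at h2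
        have h5 : k % 3 < 3 := Nat.mod_lt _ (by norm_num)
        interval_cases hr : k % 3
        · exfalso
          apply hcube
          refine ⟨(g : ZMod p) ^ (k / 3), ?_⟩
          rw [← pow_mul, mul_comm, ← hk']
          congr 1
          omega
        · rwa [pow_one] at h2
        · rw [pow_succ, h2, one_mul] at h3; exact h3
      have hone : χ = 1 := by
        ext a
        obtain ⟨m, hm⟩ := (mem_powers_iff_mem_zpowers.mpr (hg a))
        have hm' : (g : ZMod p) ^ m = a := by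
          have := congrArg Units.val hm
          simpa using this
        rw [← hm', map_pow, hχg, one_pow, hm', MulChar.one_apply_coe]
      rw [hone, orderOf_one] at hχ
      omega
    have h2 : (χ y - 1) * (1 + χ y + χ y ^ 2) = 0 := by
      linear_combination hχ3 y hy
    exact ((mul_eq_zero.mp h2).resolve_left (sub_ne_zero.mpr h1)).symm

/-- the quadratic character with complex values -/
noncomputable def qc (p : ℕ) [Fact p.Prime] : MulChar (ZMod p) ℂ :=
  (quadraticChar (ZMod p)).ringHomComp (Int.castRingHom ℂ)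

lemma qc_apply (x : ZMod p) : qc p x = ((quadraticChar (ZMod p) x : ℤ) : ℂ) := rfl

lemma qc_ne_one (hp2 : p ≠ 2) : qc p ≠ 1 := by
  rw [qc, MulChar.ringHomComp_ne_one_iff (RingHom.injective_int _)]
  exact quadraticChar_ne_one (by rwa [ZMod.ringChar_zmod_n])

lemma qc_inv : (qc p)⁻¹ = qc p := by
  have : (qc p).IsQuadratic := MulChar.IsQuadratic.comp (quadraticChar_isQuadratic (F := ZMod p)) _
  exact this.inv

/-- the cubic sum in terms of Jacobi sums -/
lemma sum_cubic (hp2 : p ≠ 2) (hp3 : 3 ∣ p - 1) {χ : MulChar (ZMod p) ℂ} (hχ : orderOf χ = 3) :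
    ∑ x : ZMod p, qc p (x ^ 3 + 1) = jacobiSum χ (qc p) + jacobiSum χ⁻¹ (qc p) := by
  classical
  have e1 : ∑ x : ZMod p, qc p (x ^ 3 + 1) =
      ∑ y : ZMod p, qc p (y + 1) * (1 + χ y + χ⁻¹ y) := by
    rw [← Finset.sum_fiberwise (s := univ) (g := fun x : ZMod p => x ^ 3)]
    refine Finset.sum_congr rfl fun y _ => ?_
    rw [← card_cube_roots hp3 hχ y]
    rw [Finset.sum_congr rfl (g := fun _ => qc p (y + 1))]
    · rw [Finset.sum_const, nsmul_eq_mul, mul_comm]
    · intro x hx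
      rw [(mem_filter.mp hx).2]
  rw [e1]
  have e2 : ∑ y : ZMod p, qc p (y + 1) = 0 := by
    rw [← MulChar.sum_eq_zero_of_ne_one (qc_ne_one hp2)]
    exact Fintype.sum_equiv (Equiv.addRight (1 : ZMod p)) _ _ (fun y => rfl)
  have e3 : ∀ ψ : MulChar (ZMod p) ℂ, ψ (-1) = 1 →
      ∑ y : ZMod p, qc p (y + 1) * ψ y = jacobiSum ψ (qc p) := by
    intro ψ hψ
    rw [jacobiSum]
    refine Fintype.sum_equiv (Equiv.neg (ZMod p)) _ _ fun y => ?_
    have : ψ (-y) = ψ y := by rw [neg_eq_neg_one_mul, map_mul, hψ, one_mul]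
    rw [Equiv.neg_apply, this, mul_comm]
    congr 2
    ring
  have h3 : χ ^ 3 = 1 := by rw [← hχ]; exact pow_orderOf_eq_one χ
  have hm1 : χ (-1) = 1 := MulChar.val_neg_one_eq_one_of_odd_order (by decide : Odd 3) h3
  have hm2 : χ⁻¹ (-1) = 1 := MulChar.val_neg_one_eq_one_of_odd_order (by decide : Odd 3)
    (by rw [inv_pow, h3, inv_one])
  rw [← e3 χ hm1, ← e3 χ⁻¹ hm2, ← Finset.sum_add_distrib]
  have e4 : ∀ y : ZMod p, qc p (y + 1) * (1 + χ y + χ⁻¹ y) =
      qc p (y + 1) + (qc p (y + 1) * χ y + qc p (y + 1) * χ⁻¹ y) := fun y => by ring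
  simp_rw [e4]
  rw [Finset.sum_add_distrib, e2, zero_add]

end

/-- elements of `ℤ[ω]` -/
lemma exists_coords {w : ℂ} (hw : w ^ 2 + w + 1 = 0) {z : ℂ} (hz : z ∈ Algebra.adjoin ℤ {w}) :
    ∃ u v : ℤ, z = u + v * w := by
  induction hz using Algebra.adjoin_induction with
  | mem x hx =>
    rw [Set.mem_singleton_iff] at hx
    exact ⟨0, 1, by rw [hx]; simp⟩
  | algebraMap r => exact ⟨r, 0, by simp⟩
  | add x y _ _ hx hy =>
    obtain ⟨u, v, rfl⟩ := hx
    obtain ⟨u', v', rfl⟩ := hy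
    exact ⟨u + u', v + v', by push_cast; ring⟩
  | mul x y _ _ hx hy =>
    obtain ⟨u, v, rfl⟩ := hx
    obtain ⟨u', v', rfl⟩ := hy
    refine ⟨u * u' - v * v', u * v' + v * u' - v * v', ?_⟩
    push_cast
    linear_combination v * v' * hw

lemma apOfModel_E0 {p : ℕ} [Fact p.Prime] (hp2 : p ≠ 2) (hp3 : p ≠ 3) :
    E0.apOfModel p = - ∑ x : ZMod p, quadraticChar (ZMod p) (x ^ 3 + 1) := by
  classical
  have hp := (Fact.out : p.Prime)
  have hred : E0.reductionMod p = cur 0 0 1 := by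
    simp [reductionMod, E0, cur, WeierstrassCurve.map]
  have h432 : ((432 : ℕ) : ZMod p) ≠ 0 := by
    rw [Ne, ZMod.natCast_eq_zero_iff]
    intro h
    have h1 : (432 : ℕ) = 2 ^ 4 * 3 ^ 3 := by norm_num
    rw [h1] at h
    rcases hp.dvd_mul.mp h with h | h
    · exact hp2 ((Nat.prime_dvd_prime_iff_eq hp Nat.prime_two).mp (hp.dvd_of_dvd_pow h))
    · exact hp3 ((Nat.prime_dvd_prime_iff_eq hp Nat.prime_three).mp (hp.dvd_of_dvd_pow h))
  have hell : (cur (0 : ZMod p) 0 1).IsElliptic := by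
    rw [WeierstrassCurve.isElliptic_iff, isUnit_iff_ne_zero]
    have h1 : (cur (0 : ZMod p) 0 1).Δ = -((432 : ℕ) : ZMod p) := by
      simp only [cur, WeierstrassCurve.Δ, WeierstrassCurve.b₂, WeierstrassCurve.b₄,
        WeierstrassCurve.b₆, WeierstrassCurve.b₈]
      push_cast
      ring
    rw [h1]
    exact neg_ne_zero.mpr h432
  have hcard := card_points (0 : ZMod p) 0 1 (by rwa [ZMod.ringChar_zmod_n])
  rw [WeierstrassCurve.apOfModel, WeierstrassCurve.traceOfFrobenius, WeierstrassCurve.card, hred,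
    hcard, Finset.sum_add_distrib]
  have h2 : ∑ x : ZMod p, (1 : ℤ) = p := by
    rw [Finset.sum_const, Finset.card_univ, ZMod.card, nsmul_eq_mul, mul_one]
  rw [h2, Nat.card_eq_fintype_card, ZMod.card]
  have h3 : ∀ x : ZMod p, (cub (0 : ZMod p) 0 1).eval x = x ^ 3 + 1 := by
    intro x
    simp [cub]
  simp_rw [h3]
  ring

/-- **The trace of Frobenius of `E0` and the norm form.** -/
theorem exists_norm_form {p : ℕ} (hp : p.Prime) (hp2 : p ≠ 2) (hp3 : 3 ∣ p - 1) :
    ∃ x y : ℤ, x ^ 2 - x * y + y ^ 2 = p ∧ 2 * x - y = E0.apOfModel p := by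
  have := Fact.mk hp
  classical
  let w : ℂ := Complex.exp (2 * Real.pi * Complex.I / 3)
  have hprim : IsPrimitiveRoot w 3 := Complex.isPrimitiveRoot_exp 3 (by norm_num)
  have hw : w ^ 2 + w + 1 = 0 := by
    have h1 := hprim.geom_sum_eq_zero (by norm_num)
    simp only [Finset.sum_range_succ, Finset.sum_range_zero, pow_zero, pow_one, zero_add] at h1
    linear_combination h1
  have hw3 := hprim.pow_eq_one
  have hstar : star w = w ^ 2 := by
    have h1 : ‖w‖ = 1 := Complex.norm_eq_one_of_pow_eq_one hw3 (by norm_num)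
    have h2 : w * star w = 1 := by
      rw [Complex.star_def, Complex.mul_conj, Complex.normSq_eq_norm_sq, h1]; norm_num
    calc star w = w ^ 3 * star w := by rw [hw3, one_mul]
      _ = w ^ 2 * (w * star w) := by ring
      _ = w ^ 2 := by rw [h2, mul_one]
  obtain ⟨χ, hχ⟩ := MulChar.exists_mulChar_orderOf (ZMod p) (n := 3)
    (by rw [ZMod.card]; exact hp3) hprim
  have hχ3 : χ ^ 3 = 1 := by rw [← hχ]; exact pow_orderOf_eq_one χ
  have hχ1 : χ ≠ 1 := by
    rintro rfl
    rw [orderOf_one] at hχ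
    omega
  have hq2 : qc p ^ 2 = 1 := by
    rw [pow_two]
    nth_rw 1 [← qc_inv]
    exact inv_mul_cancel _
  have hχq : χ * qc p ≠ 1 := by
    intro h
    have h1 : (χ * qc p) ^ 2 = 1 := by rw [h, one_pow]
    rw [mul_pow, hq2, mul_one] at h1
    apply hχ1
    have h2 : χ ^ 3 = χ ^ 2 * χ := pow_succ χ 2
    rw [hχ3, h1, one_mul] at h2
    exact h2.symm
  have hJ : ∃ u v : ℤ, jacobiSum χ (qc p) = u + v * w := by
    apply exists_coords hw
    refine Subalgebra.sum_mem _ fun x _ => Subalgebra.mul_mem _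
      (MulChar.apply_mem_algebraAdjoin_of_pow_eq_one hχ3 hprim x) ?_
    rw [qc_apply]
    exact intCast_mem _ _
  obtain ⟨u, v, huv⟩ := hJ
  have hJ' : jacobiSum χ⁻¹ (qc p) = u + v * w ^ 2 := by
    have h1 : jacobiSum χ⁻¹ (qc p) = star (jacobiSum χ (qc p)) := by
      rw [jacobiSum, jacobiSum, star_sum]
      refine Finset.sum_congr rfl fun x _ => ?_
      rw [star_mul', MulChar.star_apply', MulChar.star_apply', qc_inv]
    rw [h1, huv, star_add, star_mul', hstar]
    simp
  have hprod : jacobiSum χ (qc p) * jacobiSum χ⁻¹ (qc p) = p := by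
    have h1 := jacobiSum_mul_jacobiSum_inv (F := ZMod p) (F' := ℂ)
      (by rw [ringChar.eq_zero, ZMod.ringChar_zmod_n]; exact hp.ne_zero.symm) hχ1 (qc_ne_one hp2) hχq
    rw [qc_inv, ZMod.card] at h1
    exact h1
  have hsum := sum_cubic hp2 hp3 hχ
  have hap : (E0.apOfModel p : ℂ) = - ∑ x : ZMod p, qc p (x ^ 3 + 1) := by
    rw [apOfModel_E0 hp2 (by rintro rfl; norm_num at hp3)]
    push_cast
    rfl
  refine ⟨-u, -v, ?_, ?_⟩
  · have h1 : ((u ^ 2 - u * v + v ^ 2 : ℤ) : ℂ) = ((p : ℤ) : ℂ) := by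
      rw [huv, hJ'] at hprod
      push_cast
      rw [← hprod]
      linear_combination (-v * u - v ^ 2 * (w - 1)) * hw
    have h2 := Int.cast_injective h1
    linarith
  · rw [hsum, huv, hJ'] at hap
    have h1 : ((E0.apOfModel p : ℤ) : ℂ) = ((v - 2 * u : ℤ) : ℂ) := by
      rw [hap]
      push_cast
      linear_combination -v * hw
    have h2 := Int.cast_injective h1
    linarith

end Fermat.Agent.LT.NT
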