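import Fermat.Agent.LT.NT.CMAbs
import Fermat.Agent.ECRep.FrobAll
import Fermat.Agent.ECRep.VarChange

set_option autoImplicit false

/-!
# The torsion of `y² = x³ + 1`
-/

namespace Fermat.Agent.LT.NT

open WeierstrassCurve WeierstrassCurve.Affine WeierstrassCurve.Affine.Point
open scoped WeierstrassCurve.Affine
open Fermat.Agent.ECRep

local notation "Qbar" => AlgebraicClosure ℚ
local notation "Γℚ" => (AlgebraicClosure ℚ ≃ₐ[ℚ] AlgebraicClosure ℚ)

/-- the curve `y² = x³ + 1` -/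
def E0 : WeierstrassCurve ℤ := ⟨0, 0, 0, 0, 1⟩

lemma E0_Δ : E0.Δ = -432 := by
  simp [E0, WeierstrassCurve.Δ, WeierstrassCurve.b₂, WeierstrassCurve.b₄, WeierstrassCurve.b₆,
    WeierstrassCurve.b₈]

lemma E0_Δ_ne_zero : E0.Δ ≠ 0 := by rw [E0_Δ]; norm_num

lemma toRat_E0_Δ : (toRat E0).Δ ≠ 0 := toRat_Δ_ne_zero E0_Δ_ne_zero

/-- the points of `E0` over the algebraic closure -/
abbrev PtE : Type := ((toRat E0)⁄Qbar).Point

lemma isVC_w {w : Qbar} (hw : w ^ 2 + w + 1 = 0) :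
    IsVC (w ^ 2) 0 0 0 ((toRat E0)⁄Qbar) ((toRat E0)⁄Qbar) := by
  have h3 : w ^ 3 = 1 := by linear_combination (w - 1) * hw
  constructor
  · simp [E0]
  · simp [E0]
  · simp [E0]
  · simp [E0]
  · have h6 : ((toRat E0)⁄Qbar).a₆ = 1 := by simp [E0]
    rw [h6]
    linear_combination (w ^ 9 + w ^ 6 + w ^ 3 + 1) * h3

lemma w_ne_zero {w : Qbar} (hw : w ^ 2 + w + 1 = 0) : w ^ 2 ≠ 0 := by
  intro h
  have h0 : w = 0 := pow_eq_zero_iff (two_ne_zero) |>.mp h
  rw [h0] at hw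
  norm_num at hw

/-- multiplication by `w` on `E0` -/
noncomputable def wE {w : Qbar} (hw : w ^ 2 + w + 1 = 0) : PtE →+ PtE :=
  vcHom (isVC_w hw) (w_ne_zero hw)

lemma wE_injective {w : Qbar} (hw : w ^ 2 + w + 1 = 0) : Function.Injective (wE hw) :=
  vcFun_injective (isVC_w hw) (w_ne_zero hw)

lemma wE_zero {w : Qbar} (hw : w ^ 2 + w + 1 = 0) : wE hw 0 = 0 := rfl

lemma wE_some {w : Qbar} (hw : w ^ 2 + w + 1 = 0) {x y : Qbar}
    (h : ((toRat E0)⁄Qbar).Nonsingular x y) :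
    ∃ h', wE hw (.some x y h) = .some (w * x) y h' := by
  have h3 : w ^ 3 = 1 := by linear_combination (w - 1) * hw
  have e1 : (w ^ 2) ^ 2 * x + 0 = w * x := by linear_combination w * x * h3
  have e2 : (w ^ 2) ^ 3 * y + (w ^ 2) ^ 2 * 0 * x + 0 = y := by
    linear_combination (w ^ 3 + 1) * y * h3
  have h2 := vcFun_some (isVC_w hw) (w_ne_zero hw) h
  have h4 := ((isVC_w hw).nonsingular_iff' (w_ne_zero hw) x y).mp h
  rw [e1, e2] at h4
  refine ⟨h4, ?_⟩
  change vcFun (isVC_w hw) (w_ne_zero hw) (.some x y h) = _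
  rw [h2, Point.some.injEq]
  exact ⟨e1, e2⟩

/-- the Galois action as an additive map -/
noncomputable def galE (σ : Γℚ) : PtE →+ PtE := DistribSMul.toAddMonoidHom PtE σ

lemma galE_apply (σ : Γℚ) (P : PtE) : galE σ P = σ • P := rfl

lemma smul_some (σ : Γℚ) {x y : Qbar} (h : ((toRat E0)⁄Qbar).Nonsingular x y) :
    ∃ h', σ • (Point.some x y h : PtE) = .some (σ x) (σ y) h' :=
  ⟨_, rfl⟩

/-- automorphisms fixing `w` commute with `w` -/
lemma smul_wE {w : Qbar} (hw : w ^ 2 + w + 1 = 0) {σ : Γℚ} (hσ : σ w = w) (P : PtE) :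
    σ • wE hw P = wE hw (σ • P) := by
  match P with
  | 0 => rfl
  | .some x y h =>
    obtain ⟨h1, e1⟩ := wE_some hw h
    obtain ⟨h2, e2⟩ := smul_some σ h1
    obtain ⟨h3, e3⟩ := smul_some σ h
    obtain ⟨h4, e4⟩ := wE_some hw h3
    rw [e1, e2, e3, e4, Point.some.injEq]
    exact ⟨by rw [map_mul, hσ], rfl⟩

/-- automorphisms not fixing `w` conjugate it -/
lemma smul_wE' {w : Qbar} (hw : w ^ 2 + w + 1 = 0) {σ : Γℚ} (hσ : σ w = w ^ 2) (P : PtE) :
    σ • wE hw P = wE hw (wE hw (σ • P)) := by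
  match P with
  | 0 => rfl
  | .some x y h =>
    obtain ⟨h1, e1⟩ := wE_some hw h
    obtain ⟨h2, e2⟩ := smul_some σ h1
    obtain ⟨h3, e3⟩ := smul_some σ h
    obtain ⟨h4, e4⟩ := wE_some hw h3
    obtain ⟨h5, e5⟩ := wE_some hw h4
    rw [e1, e2, e3, e4, e5, Point.some.injEq]
    exact ⟨by rw [map_mul, hσ]; ring, rfl⟩

/-- `w³ = 1` on `E0` -/
lemma wE_cube {w : Qbar} (hw : w ^ 2 + w + 1 = 0) (P : PtE) :
    wE hw (wE hw (wE hw P)) = P := by
  have h3 : w ^ 3 = 1 := by linear_combination (w - 1) * hw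
  match P with
  | 0 => rfl
  | .some x y h =>
    obtain ⟨h1, e1⟩ := wE_some hw h
    obtain ⟨h2, e2⟩ := wE_some hw h1
    obtain ⟨h3', e3⟩ := wE_some hw h2
    rw [e1, e2, e3, Point.some.injEq]
    exact ⟨by linear_combination x * h3, rfl⟩

/-- a coordinate function used for counting fixed points -/
noncomputable def yco : PtE → Qbar
  | 0 => 0
  | .some _ y _ => y

lemma equation_E0 {x y : Qbar} (h : ((toRat E0)⁄Qbar).Nonsingular x y) : y ^ 2 = x ^ 3 + 1 := by
  have h1 := h.1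
  rw [Affine.equation_iff] at h1
  simpa [E0] using h1

lemma fixed_aux {w : Qbar} (hw : w ^ 2 + w + 1 = 0) {x y : Qbar}
    (h : ((toRat E0)⁄Qbar).Nonsingular x y) (hP : wE hw (.some x y h) = .some x y h) :
    x = 0 ∧ (y = 1 ∨ y = -1) := by
  obtain ⟨h1, e1⟩ := wE_some hw h
  rw [e1, Point.some.injEq] at hP
  have hw1 : w ≠ 1 := by
    rintro rfl
    norm_num at hw
  have hx : x = 0 := by
    have : (w - 1) * x = 0 := by linear_combination hP.1
    exact (mul_eq_zero.mp this).resolve_left (sub_ne_zero.mpr hw1)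
  refine ⟨hx, ?_⟩
  have h2 := equation_E0 h
  rw [hx] at h2
  have h3 : (y - 1) * (y + 1) = 0 := by linear_combination h2
  rcases mul_eq_zero.mp h3 with h4 | h4
  · left; linear_combination h4
  · right; linear_combination h4

/-- some point of order `l` is not fixed by `w` -/
lemma exists_not_fixed {w : Qbar} (hw : w ^ 2 + w + 1 = 0) {l : ℕ} (hl : l.Prime) :
    ∃ P : PtE, l • P = 0 ∧ wE hw P ≠ P := by
  by_contra hcon
  push Not at hcon
  have hcard := card_tors (toRat E0) toRat_E0_Δ l hl.ne_zero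
  classical
  let S : Finset Qbar := {0, 1, -1}
  have hyco : ∀ P : PtE, wE hw P = P → yco P ∈ S := by
    intro P hP
    match P with
    | 0 => simp [S, yco]
    | .some x y h =>
      rcases (fixed_aux hw h hP).2 with h1 | h1
      · simp [S, yco, h1]
      · simp [S, yco, h1]
  let f : {x : PtE // l • x = 0} → S := fun P => ⟨yco P.1, hyco P.1 (hcon P.1 P.2)⟩
  have hf : Function.Injective f := by
    rintro ⟨P, hP⟩ ⟨Q, hQ⟩ hPQ
    have h1 : yco P = yco Q := congrArg Subtype.val hPQ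
    have hP' := hcon P hP
    have hQ' := hcon Q hQ
    apply Subtype.ext
    change P = Q
    match P, Q with
    | 0, 0 => rfl
    | 0, .some x y h =>
      exfalso
      rcases (fixed_aux hw h hQ').2 with h2 | h2 <;> simp [yco, h2] at h1
    | .some x y h, 0 =>
      exfalso
      rcases (fixed_aux hw h hP').2 with h2 | h2 <;> simp [yco, h2] at h1
    | .some x y h, .some x' y' h' =>
      have e1 := (fixed_aux hw h hP').1
      have e2 := (fixed_aux hw h' hQ').1
      rw [Point.some.injEq]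
      exact ⟨by rw [e1, e2], h1⟩
  have h1 := Nat.card_le_card_of_injective f hf
  have h2 : Nat.card S ≤ 3 := by
    rw [Nat.card_eq_fintype_card, Fintype.card_coe]
    exact Finset.card_le_three
  have h3 : 4 ≤ l ^ 2 := by nlinarith [hl.two_le]
  have h4 : Nat.card {x : PtE // l • x = 0} = l ^ 2 := hcard
  omega

/-- complex conjugation, or any automorphism moving `w` -/
lemma exists_indep {w : Qbar} (hw : w ^ 2 + w + 1 = 0) {c : Γℚ} (hc : c w = w ^ 2)
    {l : ℕ} (hl : l.Prime) :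
    ∃ P : PtE, l • P = 0 ∧ ∀ a b : ℤ, a • P + b • wE hw P = 0 → (l : ℤ) ∣ a ∧ (l : ℤ) ∣ b := by
  obtain ⟨P, hP, hPw⟩ := exists_not_fixed hw hl
  refine exists_indep_of_conj hl (wE hw) (galE c) (wE_injective hw) ?_ (wE_cube hw)
    (fun Q => smul_wE' hw hc Q) hP hPw
  intro Q R hQR
  have h1 : c⁻¹ • (c • Q) = c⁻¹ • (c • R) := congrArg (fun T => c⁻¹ • T) hQR
  rwa [inv_smul_smul, inv_smul_smul] at h1

/-- **Automorphisms fixing `w` commute on the torsion of `E0`.** -/
theorem comm_tors {w : Qbar} (hw : w ^ 2 + w + 1 = 0) {c : Γℚ} (hc : c w = w ^ 2)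
    {a b : Γℚ} (ha : a w = w) (hb : b w = w) {n : ℕ} (hn : 0 < n) {P : PtE} (hP : n • P = 0) :
    a • b • P = b • a • P := by
  refine comm_of_primePow (a := galE a) (b := galE b) (fun l hl m x hx => ?_) n hn P hP
  have := Fact.mk hl
  obtain ⟨P0, hP0, hind⟩ := exists_indep hw hc hl
  exact comm_of_comm_omega (hcard_of_Δ toRat_E0_Δ) (wE hw) hP0 hind (galE a) (galE b)
    (fun x => smul_wE hw ha x) (fun x => smul_wE hw hb x) m x hx

end Fermat.Agent.LT.NT
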