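import Fermat.Agent.LT.NT.QChar
import Fermat.Agent.LT.Psi.QD

set_option autoImplicit false

/-!
# The quaternionic data attached to `ρ : Γℚ → GL₂(𝔽₃)`
-/

noncomputable section

namespace Fermat.Agent.LT.NT

open Matrix Fermat.Agent.LTEnd
open scoped MatrixGroups

local notation "Qbar" => AlgebraicClosure ℚ
local notation "Γℚ" => (AlgebraicClosure ℚ ≃ₐ[ℚ] AlgebraicClosure ℚ)
local notation "G3" => GL (Fin 2) (ZMod 3)

variable {ρ : Γℚ →* G3} (hρ : Continuous ρ) (hs : Function.Surjective ρ)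

include hρ

theorem mem_fixing_iff (H : Subgroup G3) {g : Γℚ} : g ∈ (fixF ρ H).fixingSubgroup ↔ ρ g ∈ H := by
  rw [fixingSubgroup_fixF hρ]; rfl

theorem rho_mem_Q8 (g : (EF ρ).fixingSubgroup) : ρ g ∈ Q8 := (mem_fixing_iff hρ Q8).1 g.2

/-- **The quaternionic data of `ρ`**, for `u, u'` of order four generating `Q₈`. -/
def qdat (u u' : G3) [Ord4 u] [Ord4 u'] (huu : u' ∉ Subgroup.zpowers u) :
    Psi.QDat (EF ρ) G3 where
  r := ρ.comp (EF ρ).fixingSubgroup.subtype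
  z := -1
  z_ne := neg_one_ne_one
  d g := qch u (ρ g)
  a g := qch u' (ρ g)
  d_mul g h := by
    rw [Subgroup.coe_mul, map_mul, qch_mul u (rho_mem_Q8 hρ g) (rho_mem_Q8 hρ h)]
  a_mul g h := by
    rw [Subgroup.coe_mul, map_mul, qch_mul u' (rho_mem_Q8 hρ g) (rho_mem_Q8 hρ h)]
  F := MF ρ
  fin := finiteDimensional_fixF hρ ⊥
  lev g hg := (mem_fixing_iff hρ ⊥).1 hg
  surj s t := by
    obtain ⟨g, hg, h1, h2⟩ : ∃ g ∈ Q8, qch u g = s ∧ qch u' g = t := by
      have hu : u ∈ Q8 := Ord4.mem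
      have hu' : u' ∈ Q8 := Ord4.mem
      have huv := notMem_symm u u' huu
      have e1 : qch u u = 0 := (qch_eq_zero_iff _ _).2 (Subgroup.mem_zpowers u)
      have e2 : qch u' u = 1 := (qch_eq_one_iff _ _).2 huv
      have e3 : qch u u' = 1 := (qch_eq_one_iff _ _).2 huu
      have e4 : qch u' u' = 0 := (qch_eq_zero_iff _ _).2 (Subgroup.mem_zpowers u')
      have key : ∀ a : ZMod 2, a = 0 ∨ a = 1 := by decide
      rcases key s with rfl | rfl <;> rcases key t with rfl | rfl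
      · exact ⟨1, one_mem _, (qch_eq_zero_iff _ _).2 (one_mem _),
          (qch_eq_zero_iff _ _).2 (one_mem _)⟩
      · exact ⟨u, hu, e1, e2⟩
      · exact ⟨u', hu', e3, e4⟩
      · exact ⟨u * u', mul_mem hu hu', by rw [qch_mul u hu hu', e1, e3, zero_add],
          by rw [qch_mul u' hu hu', e2, e4, add_zero]⟩
    obtain ⟨τ, rfl⟩ := hs g
    exact ⟨⟨τ, (mem_fixing_iff hρ Q8).2 hg⟩, h1, h2⟩
  ker g h1 h2 := by
    rw [qch_eq_zero_iff] at h1 h2
    exact inter_zpowers u u' huu h1 h2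
  sq g h := by
    change ρ g * ρ g = -1
    rw [← pow_two]
    refine sq_eq_neg_one (rho_mem_Q8 hρ g) (fun h1 => h ?_) (fun h1 => h ?_)
    · rw [h1]
      exact ⟨(qch_eq_zero_iff _ _).2 (one_mem _), (qch_eq_zero_iff _ _).2 (one_mem _)⟩
    · rw [h1]
      exact ⟨(qch_eq_zero_iff _ _).2 (neg_one_mem_zpowers u),
        (qch_eq_zero_iff _ _).2 (neg_one_mem_zpowers u')⟩

section
variable (u u' : G3) [Ord4 u] [Ord4 u'] (huu : u' ∉ Subgroup.zpowers u)

theorem qdat_r (g : (EF ρ).fixingSubgroup) : (qdat hρ hs u u' huu).r g = ρ g := rfl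

theorem qdat_z : (qdat hρ hs u u' huu).z = -1 := rfl

theorem qdat_d (g : (EF ρ).fixingSubgroup) : (qdat hρ hs u u' huu).d g = qch u (ρ g) := rfl

theorem qdat_a (g : (EF ρ).fixingSubgroup) : (qdat hρ hs u u' huu).a g = qch u' (ρ g) := rfl

/-- `LF u ρ` is the field cut out by `d` -/
theorem mem_LF_fixing_iff (g : (EF ρ).fixingSubgroup) :
    (g : Γℚ) ∈ (LF u ρ).fixingSubgroup ↔ (qdat hρ hs u u' huu).d g = 0 := by
  rw [mem_fixing_iff hρ, qdat_d, qch_eq_zero_iff]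

/-- `BF ρ` is the field cut out by `d` and `a` -/
theorem mem_BF_fixing_iff (g : (EF ρ).fixingSubgroup) :
    (g : Γℚ) ∈ (BF ρ).fixingSubgroup ↔
      (qdat hρ hs u u' huu).d g = 0 ∧ (qdat hρ hs u u' huu).a g = 0 := by
  rw [mem_fixing_iff hρ, qdat_d, qdat_a, qch_eq_zero_iff, qch_eq_zero_iff]
  constructor
  · intro h
    exact ⟨Ord4.Z2_le u h, Ord4.Z2_le u' h⟩
  · rintro ⟨h1, h2⟩
    rcases inter_zpowers u u' huu h1 h2 with h | h
    · rw [h]; exact one_mem _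
    · rw [h]; exact Subgroup.mem_zpowers _

end

end Fermat.Agent.LT.NT
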