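import Fermat.Agent.LT.NT.FrobV
import Fermat.Agent.LT.NT.QDatI
import Fermat.Agent.CFT.KumNorm
import Fermat.Agent.CFT.Loc.Dict

set_option autoImplicit false
set_option linter.unusedSectionVars false
set_option linter.style.haveILetI false

/-!
# Decomposition groups at unramified places
-/

open NumberField IsDedekindDomain
open scoped Pointwise

namespace Fermat.Agent.LT.NT

open Fermat.Agent.Frob

local notation "Qbar" => AlgebraicClosure ℚ
local notation "Γℚ" => (AlgebraicClosure ℚ ≃ₐ[ℚ] AlgebraicClosure ℚ)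

section

variable {G : Type*} [Group G] {ρ : Γℚ →* G}
variable {F : Type*} [Field F] [NumberField F] [Algebra F Qbar]
variable {F' : Type*} [Field F'] [NumberField F'] [Algebra F' Qbar] [Algebra F F']
  [IsScalarTower F F' Qbar] [IsGalois F F']

/-- **The decomposition group is generated by Frobenius at unramified places.** -/
theorem exists_pow_of_dec {H : Subgroup G} (hH : ∀ σ ∈ GF F, σ ∈ GF F' ↔ ρ σ ∈ H)
    {v : HeightOneSpectrum (𝓞 F)} (hun : UnrAt ρ (resChar v)) {A : ValuationSubring Qbar}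
    {φ : Γℚ} (h : IsFrobV F v A φ) {g : Γℚ} (hg : g ∈ GF F)
    (hgA : g ∈ A.decompositionSubgroup ℚ) : ∃ n : ℕ, ρ g * (ρ φ ^ n)⁻¹ ∈ H := by
  have hAp := liesOverPrime_of_below h.below
  let w : HeightOneSpectrum (𝓞 F') := belowV F' A (resChar_prime v) hAp
  have hw : below (𝓞 F') A = w.asIdeal := rfl
  haveI hlo : w.asIdeal.LiesOver v.asIdeal := liesOver_of_below h.below hw
  have hunw : UnrAt ρ (resChar w) := by
    rw [resChar_eq_of_below hw (resChar_prime v) hAp]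
    exact hun
  have hI := inertia_eq_bot (F := F) (F' := F') hH hunw
  -- restriction to `F'`
  have hres : ∀ g : Γℚ, g ∈ GF F → ∃ s : Gal(F'/F), ∀ x : F',
      algebraMap F' Qbar (s x) = g (algebraMap F' Qbar x) := by
    intro g hg
    let g' : Qbar ≃ₐ[F] Qbar := AlgEquiv.ofRingEquiv (f := (g : Qbar ≃+* Qbar)) (fun x => hg x)
    exact ⟨g'.restrictNormal F', fun x => AlgEquiv.restrictNormal_commutes g' F' x⟩
  obtain ⟨s, hs⟩ := hres g hg
  obtain ⟨t, ht⟩ := hres φ h.fix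
  have hsO : ∀ x : 𝓞 F', algebraMap (𝓞 F') Qbar (s • x) = g (algebraMap (𝓞 F') Qbar x) :=
    fun x => hs x
  have htO : ∀ x : 𝓞 F', algebraMap (𝓞 F') Qbar (t • x) = φ (algebraMap (𝓞 F') Qbar x) :=
    fun x => ht x
  have hdec : ∀ g : Γℚ, g ∈ A.decompositionSubgroup ℚ → ∀ x : Qbar,
      x ∈ A.nonunits → g x ∈ A.nonunits := by
    intro g hg x hx
    exact (apply_mem_nonunits_iff hg).2 hx
  have hmemw : ∀ x : 𝓞 F', x ∈ w.asIdeal ↔ algebraMap (𝓞 F') Qbar x ∈ A.nonunits := by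
    intro x
    rw [← hw, mem_below]
  have hstab : s ∈ MulAction.stabilizer Gal(F'/F) w.asIdeal := by
    rw [MulAction.mem_stabilizer_iff]
    ext x
    rw [Ideal.mem_pointwise_smul_iff_inv_smul_mem, hmemw, hmemw]
    have h1 : algebraMap (𝓞 F') Qbar x = g (algebraMap (𝓞 F') Qbar (s⁻¹ • x)) := by
      rw [← hsO, smul_inv_smul]
    constructor
    · intro h2
      rw [h1]
      exact hdec g hgA _ h2
    · intro h2
      have h3 := hdec g⁻¹ (inv_mem hgA) _ h2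
      rw [h1] at h3
      have h4 : g⁻¹ (g (algebraMap (𝓞 F') Qbar (s⁻¹ • x))) = algebraMap (𝓞 F') Qbar (s⁻¹ • x) :=
        AlgEquiv.symm_apply_apply g _
      rwa [h4] at h3
  -- the residue fields
  have := w.isMaximal
  have hvmax := v.isMaximal
  haveI : w.asIdeal.LiesOver (w.asIdeal.under (𝓞 F)) := ⟨rfl⟩
  have hund : w.asIdeal.under (𝓞 F) = v.asIdeal := hlo.over.symm
  have hmax2 : (w.asIdeal.under (𝓞 F)).IsMaximal := by rw [hund]; exact hvmax
  haveI hfin : Finite (𝓞 F' ⧸ w.asIdeal) := Ideal.finiteQuotientOfFreeOfNeBot _ w.ne_bot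
  haveI hfin2 : Finite (𝓞 F ⧸ w.asIdeal.under (𝓞 F)) := by
    rw [hund]; exact Ideal.finiteQuotientOfFreeOfNeBot _ v.ne_bot
  letI : Field (𝓞 F' ⧸ w.asIdeal) := Ideal.Quotient.field w.asIdeal
  letI : Field (𝓞 F ⧸ w.asIdeal.under (𝓞 F)) := Ideal.Quotient.field _
  haveI : Fintype (𝓞 F ⧸ w.asIdeal.under (𝓞 F)) := Fintype.ofFinite _
  have hq : Fintype.card (𝓞 F ⧸ w.asIdeal.under (𝓞 F)) = Ideal.absNorm v.asIdeal := by
    rw [← Nat.card_eq_fintype_card, ← hund]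
    rfl
  let ψ : (𝓞 F' ⧸ w.asIdeal) ≃ₐ[𝓞 F ⧸ w.asIdeal.under (𝓞 F)] (𝓞 F' ⧸ w.asIdeal) :=
    Ideal.Quotient.stabilizerHom w.asIdeal (w.asIdeal.under (𝓞 F)) Gal(F'/F) ⟨s, hstab⟩
  have hψ : ∀ x : 𝓞 F', ψ (Ideal.Quotient.mk w.asIdeal x) = Ideal.Quotient.mk w.asIdeal (s • x) :=
    fun x => rfl
  obtain ⟨n, hn⟩ := (FiniteField.bijective_frobeniusAlgEquivOfAlgebraic_pow
    (𝓞 F ⧸ w.asIdeal.under (𝓞 F)) (𝓞 F' ⧸ w.asIdeal)).2 ψ
  refine ⟨n.1, ?_⟩
  have hgx : ∀ x : 𝓞 F', s • x - x ^ (Ideal.absNorm v.asIdeal ^ n.1) ∈ w.asIdeal := by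
    intro x
    rw [← Ideal.Quotient.eq, ← hψ x, ← hn, map_pow]
    simp only [AlgEquiv.coe_pow, FiniteField.coe_frobeniusAlgEquivOfAlgebraic_iterate, hq]
  have hF' := isFrobeniusAt_pow h.frob n.1
  rw [isFrobeniusAt_iff] at hF'
  have htx : ∀ x : 𝓞 F', t ^ n.1 • x - x ^ (Ideal.absNorm v.asIdeal ^ n.1) ∈ w.asIdeal := by
    intro x
    rw [hmemw, map_sub, map_pow]
    have h1 : ∀ m : ℕ, ∀ x : 𝓞 F', algebraMap (𝓞 F') Qbar (t ^ m • x) =
        (φ ^ m) (algebraMap (𝓞 F') Qbar x) := by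
      intro m
      induction m with
      | zero => intro x; rw [pow_zero, pow_zero, one_smul]; rfl
      | succ m ih =>
        intro x
        rw [pow_succ, pow_succ, mul_smul, ih, htO, AlgEquiv.mul_apply]
    rw [h1]
    exact hF'.2 _ (mem_of_isIntegral A ((Algebra.IsIntegral.isIntegral (R := ℤ) x).map
        ((algebraMap (𝓞 F') Qbar).toIntAlgHom)))
  have hmem : s * (t ^ n.1)⁻¹ ∈ w.asIdeal.inertia Gal(F'/F) := by
    intro x
    have h1 := hgx ((t ^ n.1)⁻¹ • x)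
    have h2 := htx ((t ^ n.1)⁻¹ • x)
    rw [smul_inv_smul] at h2
    have h3 : (s * (t ^ n.1)⁻¹) • x - x = (s • (t ^ n.1)⁻¹ • x -
        ((t ^ n.1)⁻¹ • x) ^ Ideal.absNorm v.asIdeal ^ n.1)
      - (x - ((t ^ n.1)⁻¹ • x) ^ Ideal.absNorm v.asIdeal ^ n.1) := by rw [mul_smul]; ring
    exact h3 ▸ w.asIdeal.sub_mem h1 h2
  rw [hI, Subgroup.mem_bot, mul_inv_eq_one] at hmem
  -- back to `ρ`
  have hfixn : φ ^ n.1 ∈ GF F := pow_mem h.fix _
  have h5 : g * (φ ^ n.1)⁻¹ ∈ GF F' := by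
    intro x
    have h6 : ∀ m : ℕ, ∀ x : F', algebraMap F' Qbar ((t ^ m) x) =
        (φ ^ m) (algebraMap F' Qbar x) := by
      intro m
      induction m with
      | zero => intro x; rw [pow_zero, pow_zero]; rfl
      | succ m ih =>
        intro x
        rw [pow_succ, pow_succ, AlgEquiv.mul_apply, ih, ht, AlgEquiv.mul_apply]
    obtain ⟨y, rfl⟩ := (t ^ n.1).surjective x
    rw [h6, AlgEquiv.mul_apply]
    have h7 : (φ ^ n.1)⁻¹ ((φ ^ n.1) (algebraMap F' Qbar y)) = algebraMap F' Qbar y :=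
      AlgEquiv.symm_apply_apply _ _
    rw [h7, ← hs, hmem, h6]
  have h8 := (hH _ (mul_mem hg (inv_mem hfixn))).1 h5
  rwa [map_mul, map_inv, map_pow] at h8

end

section

variable {G : Type*} [Group G] {ρ : Γℚ →* G}

theorem mem_GF_iff_fixing {F : IntermediateField ℚ Qbar} [NumberField F] {g : Γℚ} :
    g ∈ GF F ↔ g ∈ F.fixingSubgroup := by
  rw [IntermediateField.mem_fixingSubgroup_iff]
  exact ⟨fun h x hx => h ⟨x, hx⟩, fun h x => h x x.2⟩

variable {F : IntermediateField ℚ Qbar} [FiniteDimensional ℚ F]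

theorem frob_mem_UA {v : HeightOneSpectrum (𝓞 F)} {A : ValuationSubring Qbar}
    {φ : Γℚ} (h : IsFrobV F v A φ) : φ ∈ Fermat.Agent.CFT.Loc.UA A F := by
  refine ⟨?_, mem_GF_iff_fixing.1 h.fix⟩
  have := h.frob
  rw [isFrobeniusAt_iff] at this
  exact this.1

/-- (D4) -/
theorem eq_placeBelow {v : HeightOneSpectrum (𝓞 F)} {A : ValuationSubring Qbar}
    (h : below (𝓞 F) A = v.asIdeal) :
    v = Fermat.Agent.CFT.placeBelow F A (resChar_prime v) (liesOverPrime_of_below h) :=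
  HeightOneSpectrum.ext h.symm

end

section rho

open Matrix Fermat.Agent.LTEnd
open scoped MatrixGroups

local notation "G3" => GL (Fin 2) (ZMod 3)

variable {ρ : Γℚ →* G3} (hρ : Continuous ρ)

include hρ

/-- (D3) -/
theorem rho_eq_one_of_MF {g : Γℚ} (hg : g ∈ (MF ρ).fixingSubgroup) : ρ g = 1 :=
  (mem_fixing_iff hρ ⊥).1 hg

/-- almost all primes are unramified -/
theorem exists_unr_rho : ∃ D : ℕ, D ≠ 0 ∧ ∀ p : ℕ, p.Prime → ¬ p ∣ D → UnrAt ρ p := by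
  refine exists_unr ρ ⟨MF ρ, finiteDimensional_fixF hρ ⊥, fun σ hσ => ?_⟩
  exact mem_of_fix hρ (H := ⊥) hσ

/-- (D2) -/
theorem finite_not_unr {F : IntermediateField ℚ Qbar} [FiniteDimensional ℚ F] :
    {v : HeightOneSpectrum (𝓞 F) | ¬ UnrAt ρ (resChar v)}.Finite := by
  obtain ⟨D, hD, h⟩ := exists_unr_rho hρ
  refine (Fermat.Agent.CFT.finite_Tp (L := F) hD).subset fun v hv => ?_
  by_contra h1
  apply hv
  refine h _ (resChar_prime v) fun h2 => h1 ?_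
  exact (natCast_mem_iff v D).2 h2

/-- (D1) the decomposition group is generated by a Frobenius element, modulo the kernel of `ρ` -/
theorem exists_pow_of_unr (H : Subgroup G3) [NumberField (fixF ρ H)]
    {v : HeightOneSpectrum (𝓞 (fixF ρ H))}
    (hun : UnrAt ρ (resChar v)) {A : ValuationSubring Qbar} {φ : Γℚ}
    (h : IsFrobV (fixF ρ H) v A φ) {g : Γℚ} (hg : g ∈ GF (fixF ρ H))
    (hgA : g ∈ A.decompositionSubgroup ℚ) : ∃ n : ℕ, ρ g = ρ φ ^ n := by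
  letI := algF ρ (bot_le : ⊥ ≤ H)
  have := numberField_fixF hρ ⊥
  have := tower_algF_Qbar (ρ := ρ) (bot_le : ⊥ ≤ H)
  have := isGalois_rel hρ (bot_le : ⊥ ≤ H) nrm_bot
  obtain ⟨n, hn⟩ := exists_pow_of_dec (F := fixF ρ H) (F' := fixF ρ ⊥) (H := ⊥)
    (fun σ hσ => by rw [mem_GF_iff_fixing, mem_fixing_iff hρ]) hun h hg hgA
  rw [Subgroup.mem_bot, mul_inv_eq_one] at hn
  exact ⟨n, hn⟩

theorem mem_zpowers_of_mem_UA (H : Subgroup G3) [FiniteDimensional ℚ (fixF ρ H)]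
    {v : HeightOneSpectrum (𝓞 (fixF ρ H))}
    (hun : UnrAt ρ (resChar v)) {A : ValuationSubring Qbar} {φ : Γℚ}
    (h : IsFrobV (fixF ρ H) v A φ) {g : Γℚ} (hg : g ∈ Fermat.Agent.CFT.Loc.UA A (fixF ρ H)) :
    ρ g ∈ Subgroup.zpowers (ρ φ) := by
  obtain ⟨n, hn⟩ := exists_pow_of_unr hρ H hun h (mem_GF_iff_fixing.2 hg.2) hg.1
  rw [hn]
  exact Subgroup.npow_mem_zpowers _ _

end rho

end Fermat.Agent.LT.NT
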