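import Fermat.Agent.LT.NT.CM
import Fermat.Agent.LTEnd.Norm
import Mathlib.LinearAlgebra.Matrix.GeneralLinearGroup.Card

set_option autoImplicit false
set_option linter.unusedVariables false

/-!
# The fixed fields attached to `ρ : Γℚ → GL₂(𝔽₃)`

`fixF ρ H` is the fixed field of `ρ⁻¹(H)`, for a subgroup `H` of `GL₂(𝔽₃)`.
-/

noncomputable section

namespace Fermat.Agent.LT.NT

open Matrix Fermat.Agent.LTEnd NumberField Module
open scoped MatrixGroups

local notation "Qbar" => AlgebraicClosure ℚ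
local notation "Γℚ" => (AlgebraicClosure ℚ ≃ₐ[ℚ] AlgebraicClosure ℚ)
local notation "G3" => GL (Fin 2) (ZMod 3)
local notation "M3" => Matrix (Fin 2) (Fin 2) (ZMod 3)

section General

variable (ρ : Γℚ →* G3)

/-- the fixed field of `ρ⁻¹(H)` -/
def fixF (H : Subgroup G3) : IntermediateField ℚ Qbar :=
  IntermediateField.fixedField (H.comap ρ)

variable {ρ} {H H' H'' : Subgroup G3}

theorem mem_fixF {x : Qbar} : x ∈ fixF ρ H ↔ ∀ τ : Γℚ, ρ τ ∈ H → τ x = x := by
  rw [fixF, IntermediateField.mem_fixedField_iff]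
  exact Iff.rfl

theorem fixF_anti (h : H ≤ H') : fixF ρ H' ≤ fixF ρ H :=
  fun _ hx => mem_fixF.2 fun τ hτ => mem_fixF.1 hx τ (h hτ)

theorem isOpen_comapF (hρ : Continuous ρ) (H : Subgroup G3) :
    IsOpen ((H.comap ρ : Subgroup Γℚ) : Set Γℚ) :=
  (isOpen_discrete (H : Set G3)).preimage hρ

theorem fixingSubgroup_fixF (hρ : Continuous ρ) (H : Subgroup G3) :
    (fixF ρ H).fixingSubgroup = H.comap ρ := by
  have h : IsClosed ((H.comap ρ : Subgroup Γℚ) : Set Γℚ) :=
    (isClosed_discrete (H : Set G3)).preimage hρ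
  exact InfiniteGalois.fixingSubgroup_fixedField (⟨H.comap ρ, h⟩ : ClosedSubgroup Γℚ)

theorem mem_of_fix (hρ : Continuous ρ) {τ : Γℚ} (h : ∀ x ∈ fixF ρ H, τ x = x) : ρ τ ∈ H := by
  have h1 : τ ∈ (fixF ρ H).fixingSubgroup := by
    rw [IntermediateField.mem_fixingSubgroup_iff]
    exact h
  rw [fixingSubgroup_fixF hρ] at h1
  exact h1

theorem finiteDimensional_fixF (hρ : Continuous ρ) (H : Subgroup G3) :
    FiniteDimensional ℚ (fixF ρ H) := by
  apply (InfiniteGalois.isOpen_iff_finite (fixF ρ H)).1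
  rw [fixingSubgroup_fixF hρ]
  exact isOpen_comapF hρ H

theorem numberField_fixF (hρ : Continuous ρ) (H : Subgroup G3) : NumberField (fixF ρ H) :=
  have := finiteDimensional_fixF hρ H
  { to_charZero := inferInstance
    to_finiteDimensional := inferInstance }

theorem isGalois_fixF (hρ : Continuous ρ) (H : Subgroup G3) [H.Normal] :
    IsGalois ℚ (fixF ρ H) := by
  apply (InfiniteGalois.normal_iff_isGalois (fixF ρ H)).1
  rw [fixingSubgroup_fixF hρ]
  exact inferInstance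

theorem finrank_fixF (hρ : Continuous ρ) (hs : Function.Surjective ρ) (H : Subgroup G3) :
    finrank ℚ (fixF ρ H) = H.index := by
  rw [IntermediateField.finrank_eq_fixingSubgroup_index, fixingSubgroup_fixF hρ,
    Subgroup.index_comap_of_surjective H hs]

variable (ρ) in
/-- the inclusion of the fixed fields, as an algebra structure -/
@[reducible] def algF (h : H ≤ H') : Algebra (fixF ρ H') (fixF ρ H) :=
  (IntermediateField.inclusion (fixF_anti (ρ := ρ) h)).toRingHom.toAlgebra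

theorem algF_coe (h : H ≤ H') (x : fixF ρ H') :
    letI := algF ρ h
    ((algebraMap (fixF ρ H') (fixF ρ H) x : fixF ρ H) : Qbar) = x := rfl

theorem tower_algF (h : H ≤ H') : letI := algF ρ h
    IsScalarTower ℚ (fixF ρ H') (fixF ρ H) :=
  let _ := algF ρ h
  IsScalarTower.of_algebraMap_eq fun _ => rfl

theorem tower_algF_Qbar (h : H ≤ H') : letI := algF ρ h
    IsScalarTower (fixF ρ H') (fixF ρ H) Qbar :=
  let _ := algF ρ h
  IsScalarTower.of_algebraMap_eq fun _ => rfl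

theorem tower_algF3 (h : H ≤ H') (h' : H' ≤ H'') : letI := algF ρ h
    letI := algF ρ h'; letI := algF ρ (h.trans h')
    IsScalarTower (fixF ρ H'') (fixF ρ H') (fixF ρ H) :=
  let _ := algF ρ h
  letI := algF ρ h'; letI := algF ρ (h.trans h')
  IsScalarTower.of_algebraMap_eq fun _ => rfl

/-- `H` is stable under conjugation by `H'` -/
def Nrm (H H' : Subgroup G3) : Prop := ∀ g ∈ H', ∀ x ∈ H, g * x * g⁻¹ ∈ H

theorem nrm_of_normal [hn : H.Normal] : Nrm H H' := fun g _ x hx => hn.conj_mem x hx g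

/-- stability under `ρ⁻¹(H')` -/
theorem apply_mem_fixF (hn : Nrm H H') {τ : Γℚ} (hτ : ρ τ ∈ H') {x : Qbar} (hx : x ∈ fixF ρ H) :
    τ x ∈ fixF ρ H := by
  rw [mem_fixF]
  intro μ hμ
  have h1 : ρ (τ⁻¹ * μ * τ) ∈ H := by
    rw [map_mul, map_mul, map_inv]
    have := hn (ρ τ)⁻¹ (H'.inv_mem hτ) _ hμ
    rwa [inv_inv] at this
  have h2 := mem_fixF.1 hx _ h1
  have h3 : τ ((τ⁻¹ * μ * τ) x) = μ (τ x) := by
    rw [AlgEquiv.mul_apply, AlgEquiv.mul_apply]
    exact AlgEquiv.apply_symm_apply τ _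
  rw [← h3, h2]

/-- the restriction of `τ ∈ ρ⁻¹(H')` to the fixed field of `ρ⁻¹(H)`, over that of `ρ⁻¹(H')` -/
def relF (h : H ≤ H') (hn : Nrm H H') (τ : Γℚ) (hτ : ρ τ ∈ H') :
    letI := algF ρ h
    fixF ρ H ≃ₐ[fixF ρ H'] fixF ρ H :=
  letI := algF ρ h
  { toFun := fun x => ⟨τ x, apply_mem_fixF hn hτ x.2⟩
    invFun := fun x => ⟨τ.symm x, apply_mem_fixF (τ := τ⁻¹) hn
      (by rw [map_inv]; exact H'.inv_mem hτ) x.2⟩
    left_inv := fun x => Subtype.ext (τ.symm_apply_apply _)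
    right_inv := fun x => Subtype.ext (τ.apply_symm_apply _)
    map_mul' := fun x y => Subtype.ext (map_mul τ _ _)
    map_add' := fun x y => Subtype.ext (map_add τ _ _)
    commutes' := fun x => Subtype.ext (mem_fixF.1 x.2 τ hτ) }

theorem relF_coe (h : H ≤ H') (hn : Nrm H H') (τ : Γℚ) (hτ : ρ τ ∈ H') (x : fixF ρ H) :
    ((relF h hn τ hτ x : fixF ρ H) : Qbar) = τ x := rfl

theorem relF_eq_one_iff (hρ : Continuous ρ) (h : H ≤ H') (hn : Nrm H H') {τ : Γℚ}
    (hτ : ρ τ ∈ H') : letI := algF ρ h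
    relF h hn τ hτ = 1 ↔ ρ τ ∈ H := by
  let _ := algF ρ h
  constructor
  · intro h1
    refine mem_of_fix hρ fun x hx => ?_
    exact congrArg Subtype.val (DFunLike.congr_fun h1 (⟨x, hx⟩ : fixF ρ H))
  · intro h1
    ext x
    exact mem_fixF.1 x.2 τ h1

theorem relF_mul (h : H ≤ H') (hn : Nrm H H') {τ τ' : Γℚ} (hτ : ρ τ ∈ H') (hτ' : ρ τ' ∈ H') :
    letI := algF ρ h
    relF h hn (τ * τ') (by rw [map_mul]; exact H'.mul_mem hτ hτ') =
      relF h hn τ hτ * relF h hn τ' hτ' := rfl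

theorem relF_surjective (hρ : Continuous ρ) (h : H ≤ H') (hn : Nrm H H') :
    letI := algF ρ h
    ∀ θ : fixF ρ H ≃ₐ[fixF ρ H'] fixF ρ H, ∃ (τ : Γℚ) (hτ : ρ τ ∈ H'), relF h hn τ hτ = θ := by
  let _ := algF ρ h
  intro θ
  have := tower_algF (ρ := ρ) h
  let τ : Γℚ := (θ.restrictScalars ℚ).liftNormal Qbar
  have h1 : ∀ x : fixF ρ H, τ (x : Qbar) = (θ x : Qbar) := fun x =>
    AlgEquiv.liftNormal_commutes (θ.restrictScalars ℚ) Qbar x
  have h2 : ρ τ ∈ H' := by
    refine mem_of_fix hρ fun x hx => ?_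
    have h3 := h1 (algebraMap (fixF ρ H') (fixF ρ H) ⟨x, hx⟩)
    rw [θ.commutes] at h3
    exact h3
  refine ⟨τ, h2, ?_⟩
  ext x
  exact h1 x

theorem finiteDimensional_rel (hρ : Continuous ρ) (h : H ≤ H') : letI := algF ρ h
    FiniteDimensional (fixF ρ H') (fixF ρ H) := by
  let _ := algF ρ h
  have := tower_algF (ρ := ρ) h
  have := finiteDimensional_fixF hρ H
  exact FiniteDimensional.right ℚ (fixF ρ H') (fixF ρ H)

theorem isGalois_rel (hρ : Continuous ρ) (h : H ≤ H') (hn : Nrm H H') : letI := algF ρ h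
    IsGalois (fixF ρ H') (fixF ρ H) := by
  let _ := algF ρ h
  have := finiteDimensional_rel hρ h
  apply IsGalois.of_fixedField_eq_bot
  rw [eq_bot_iff]
  intro x hx
  rw [IntermediateField.mem_fixedField_iff] at hx
  rw [IntermediateField.mem_bot]
  refine ⟨⟨(x : Qbar), mem_fixF.2 fun τ hτ => ?_⟩, Subtype.ext rfl⟩
  exact congrArg Subtype.val (hx (relF h hn τ hτ) (Subgroup.mem_top _))

theorem card_G3 : Nat.card G3 = 48 := by
  have : Fact (Nat.Prime 3) := ⟨Nat.prime_three⟩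
  rw [Matrix.card_GL_field, Fin.prod_univ_two, ZMod.card]
  norm_num

theorem finrank_rel (hρ : Continuous ρ) (hs : Function.Surjective ρ) (h : H ≤ H') :
    letI := algF ρ h
    finrank (fixF ρ H') (fixF ρ H) * Nat.card H = Nat.card H' := by
  let _ := algF ρ h
  have := tower_algF (ρ := ρ) h
  have := finiteDimensional_fixF hρ H'
  have := finiteDimensional_rel hρ h
  have h1 := finrank_mul_finrank ℚ (fixF ρ H') (fixF ρ H)
  rw [finrank_fixF hρ hs, finrank_fixF hρ hs] at h1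
  have h2 := H.index_mul_card
  have h3 := H'.index_mul_card
  have h4 : 0 < H'.index := Nat.pos_of_ne_zero Subgroup.FiniteIndex.index_ne_zero
  apply Nat.eq_of_mul_eq_mul_left h4
  rw [h3, ← mul_assoc, h1, h2]

end General

end Fermat.Agent.LT.NT
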