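import Fermat.Agent.Frob.Places
import Mathlib.RingTheory.Ideal.Int

set_option autoImplicit false
set_option linter.unusedSectionVars false
set_option linter.style.haveILetI false

/-!
# Frobenius elements at the primes of a number field inside the algebraic closure of `ℚ`

`F` a number field with an embedding `[Algebra F Qbar]`; a Frobenius element at
`v : HeightOneSpectrum (𝓞 F)` with respect to a place `A` of `Qbar` above `v` is an automorphism
`φ` of `Qbar` fixing `F`, stabilising `A` and acting on the residue field by `x ↦ x ^ (N v)`.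
-/

open NumberField IsDedekindDomain
open scoped Pointwise

namespace Fermat.Agent.LT.NT

open Fermat.Agent.Frob

local notation "Qbar" => AlgebraicClosure ℚ
local notation "Γℚ" => (AlgebraicClosure ℚ ≃ₐ[ℚ] AlgebraicClosure ℚ)

section pow

variable {L : Type*} [Field L] {K : Type*} [Field K] [Algebra K L]

/-- powers of Frobenius elements -/
theorem isFrobeniusAt_pow {A : ValuationSubring L} {φ : L ≃ₐ[K] L} {q : ℕ}
    (h : A.IsFrobeniusAt φ q) (n : ℕ) : A.IsFrobeniusAt (φ ^ n) (q ^ n) := by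
  rw [isFrobeniusAt_iff] at h ⊢
  obtain ⟨h1, h2⟩ := h
  refine ⟨pow_mem h1 n, ?_⟩
  induction n with
  | zero => intro x _; simp
  | succ n ih =>
    intro x hx
    have hφ : φ x ∈ A := (apply_mem_iff h1).2 hx
    have e1 := ih _ hφ
    have e2 := h2 x hx
    have e3 : (φ x) ^ q ^ n - (x ^ q) ^ q ^ n ∈ A.nonunits := by
      obtain ⟨c, hc⟩ := sub_dvd_pow_sub_pow (⟨φ x, hφ⟩ : A) (⟨x, hx⟩ ^ q) (q ^ n)
      have hc' := congrArg (Subtype.val : A → L) hc
      simp only [AddSubgroupClass.coe_sub, SubmonoidClass.coe_pow, MulMemClass.coe_mul] at hc'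
      rw [hc', ValuationSubring.mem_nonunits_iff, map_mul]
      rw [ValuationSubring.mem_nonunits_iff] at e2
      exact lt_of_le_of_lt (mul_le_of_le_one_right' ((A.valuation_le_one_iff _).2 c.2)) e2
    have e4 : (φ ^ (n + 1)) x - x ^ q ^ (n + 1) =
        ((φ ^ n) (φ x) - (φ x) ^ q ^ n) + ((φ x) ^ q ^ n - (x ^ q) ^ q ^ n) := by
      rw [pow_succ φ, AlgEquiv.mul_apply, ← pow_mul, pow_succ' q]; ring
    rw [e4]
    rw [ValuationSubring.mem_nonunits_iff] at e1 e3 ⊢
    exact lt_of_le_of_lt (Valuation.map_add _ _ _) (max_lt e1 e3)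

/-- conjugates of Frobenius elements -/
theorem isFrobeniusAt_conj {A : ValuationSubring L} {φ : L ≃ₐ[K] L} {q : ℕ}
    (h : A.IsFrobeniusAt φ q) (τ : L ≃ₐ[K] L) : (τ • A).IsFrobeniusAt (τ * φ * τ⁻¹) q := by
  rw [isFrobeniusAt_smul_iff]
  have : τ⁻¹ * (τ * φ * τ⁻¹) * τ = φ := by group
  rwa [this]

end pow

section def_

variable (F : Type*) [Field F] [NumberField F] [Algebra F Qbar]

/-- the automorphisms fixing `F` -/
def GF : Subgroup Γℚ where
  carrier := {σ | ∀ x : F, σ (algebraMap F Qbar x) = algebraMap F Qbar x}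
  mul_mem' := by
    intro a b ha hb x
    rw [AlgEquiv.mul_apply, hb x, ha x]
  one_mem' := fun _ => rfl
  inv_mem' := by
    intro a ha x
    have h1 : a⁻¹ (a (algebraMap F Qbar x)) = algebraMap F Qbar x := by
      change (a⁻¹ * a) _ = _
      rw [inv_mul_cancel]; rfl
    rwa [ha x] at h1

variable {F} in
lemma mem_GF {σ : Γℚ} : σ ∈ GF F ↔ ∀ x : F, σ (algebraMap F Qbar x) = algebraMap F Qbar x :=
  Iff.rfl

/-- Frobenius elements at `v` with respect to the place `A` -/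
structure IsFrobV (v : HeightOneSpectrum (𝓞 F)) (A : ValuationSubring Qbar) (φ : Γℚ) : Prop where
  fix : φ ∈ GF F
  below : below (𝓞 F) A = v.asIdeal
  frob : A.IsFrobeniusAt φ (Ideal.absNorm v.asIdeal)

variable {F}

/-- the rational prime below `v` -/
noncomputable def resChar (v : HeightOneSpectrum (𝓞 F)) : ℕ :=
  Ideal.absNorm (Ideal.under ℤ v.asIdeal)

lemma resChar_prime (v : HeightOneSpectrum (𝓞 F)) : (resChar v).Prime := by
  have : NeZero v.asIdeal := ⟨v.ne_bot⟩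
  exact Nat.absNorm_under_prime v.asIdeal

lemma resChar_mem (v : HeightOneSpectrum (𝓞 F)) : (resChar v : 𝓞 F) ∈ v.asIdeal :=
  Int.absNorm_under_mem v.asIdeal

lemma natCast_mem_iff (v : HeightOneSpectrum (𝓞 F)) (n : ℕ) :
    (n : 𝓞 F) ∈ v.asIdeal ↔ resChar v ∣ n := by
  have h := Int.cast_mem_ideal_iff (R := 𝓞 F) (I := v.asIdeal) (d := (n : ℤ))
  rw [Int.cast_natCast] at h
  rw [h, resChar]
  exact Int.natCast_dvd_natCast

lemma resChar_eq {v : HeightOneSpectrum (𝓞 F)} {p : ℕ} (hp : p.Prime)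
    (h : (p : 𝓞 F) ∈ v.asIdeal) : resChar v = p :=
  (Nat.prime_dvd_prime_iff_eq (resChar_prime v) hp).mp ((natCast_mem_iff v p).mp h)

lemma liesOverPrime_of_below {v : HeightOneSpectrum (𝓞 F)} {A : ValuationSubring Qbar}
    (h : below (𝓞 F) A = v.asIdeal) : A.LiesOverPrime (resChar v) :=
  liesOverPrime_of_mem_below (R := 𝓞 F) (by rw [h]; exact resChar_mem v)

lemma resChar_eq_of_below {v : HeightOneSpectrum (𝓞 F)} {A : ValuationSubring Qbar}
    (h : below (𝓞 F) A = v.asIdeal) {p : ℕ} (hp : p.Prime) (hA : A.LiesOverPrime p) :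
    resChar v = p :=
  resChar_eq hp (by rw [← h]; exact natCast_mem_below hA)

/-- the prime below a place, as an element of the height one spectrum -/
noncomputable def belowV (F : Type*) [Field F] [NumberField F] [Algebra F Qbar]
    (A : ValuationSubring Qbar) {p : ℕ} (hp : p.Prime) (hA : A.LiesOverPrime p) :
    HeightOneSpectrum (𝓞 F) where
  asIdeal := below (𝓞 F) A
  isPrime := inferInstance
  ne_bot := by
    intro h
    have h1 := natCast_mem_below (R := 𝓞 F) hA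
    rw [h, Ideal.mem_bot] at h1
    exact hp.ne_zero (by exact_mod_cast h1)

/-- the norm is a power of the residue characteristic -/
lemma exists_absNorm_eq (v : HeightOneSpectrum (𝓞 F)) :
    ∃ f : ℕ, 0 < f ∧ Ideal.absNorm v.asIdeal = resChar v ^ f := by
  have := v.isMaximal
  have hfin : Finite (𝓞 F ⧸ v.asIdeal) := Ideal.finiteQuotientOfFreeOfNeBot _ v.ne_bot
  letI : Field (𝓞 F ⧸ v.asIdeal) := Ideal.Quotient.field v.asIdeal
  have : Fintype (𝓞 F ⧸ v.asIdeal) := Fintype.ofFinite _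
  have hchar : CharP (𝓞 F ⧸ v.asIdeal) (resChar v) := by
    refine ⟨fun n => ?_⟩
    rw [← map_natCast (Ideal.Quotient.mk v.asIdeal), Ideal.Quotient.eq_zero_iff_mem]
    exact natCast_mem_iff v n
  obtain ⟨n, hn, h⟩ := FiniteField.card (𝓞 F ⧸ v.asIdeal) (resChar v)
  refine ⟨n, n.2, ?_⟩
  rw [Ideal.absNorm_apply, Submodule.cardQuot_apply, Nat.card_eq_fintype_card]
  exact h

end def_

section existence

variable {F : Type*} [Field F] [NumberField F] [Algebra F Qbar]

instance instTowerFQbar : IsScalarTower ℚ F Qbar :=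
  IsScalarTower.of_algebraMap_eq' (Subsingleton.elim _ _)

instance instGaloisFQbar : IsGalois F Qbar := IsGalois.tower_top_of_isGalois ℚ F Qbar

/-- **Existence of Frobenius elements.** -/
theorem exists_isFrobV {v : HeightOneSpectrum (𝓞 F)} {A : ValuationSubring Qbar}
    (h : below (𝓞 F) A = v.asIdeal) : ∃ φ, IsFrobV F v A φ := by
  set ℓ := resChar v with hℓdef
  have hℓ : ℓ.Prime := resChar_prime v
  have hA : A.LiesOverPrime ℓ := liesOverPrime_of_below h
  obtain ⟨f, hf, hq⟩ := exists_absNorm_eq v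
  rw [← hℓdef] at hq
  obtain ⟨φ0, hφ0⟩ := exists_isFrobeniusAt A hℓ hA
  have hφ := isFrobeniusAt_pow hφ0 f
  rw [← hq] at hφ
  set q := Ideal.absNorm v.asIdeal with hqdef
  set ψ := φ0 ^ f with hψ
  rw [isFrobeniusAt_iff] at hφ
  haveI : Fact ℓ.Prime := ⟨hℓ⟩
  haveI hmax : (below (𝓞 Qbar) A).IsMaximal := below_isMaximal (𝓞 Qbar) hℓ hA
  haveI : CharP (𝓞 Qbar ⧸ below (𝓞 Qbar) A) ℓ := by
    refine (CharP.charP_iff_prime_eq_zero hℓ).2 ?_
    rw [← map_natCast (Ideal.Quotient.mk (below (𝓞 Qbar) A)), Ideal.Quotient.eq_zero_iff_mem]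
    exact natCast_mem_below hA
  haveI : ExpChar (𝓞 Qbar ⧸ below (𝓞 Qbar) A) ℓ := ExpChar.prime hℓ
  -- the action of `ψ` on the residue ring is the `q`-power map
  have hψint : ∀ x : 𝓞 Qbar, ψ • x - x ^ q ∈ below (𝓞 Qbar) A := by
    intro x
    rw [mem_below]
    exact hφ.2 _ (mem_of_isIntegral A x.2)
  have hsurj : ∀ y : 𝓞 Qbar ⧸ below (𝓞 Qbar) A, ∃ x, x ^ q = y := by
    intro y
    obtain ⟨b, rfl⟩ := Ideal.Quotient.mk_surjective y
    refine ⟨Ideal.Quotient.mk _ (ψ⁻¹ • b), ?_⟩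
    rw [← map_pow, eq_comm, Ideal.Quotient.eq]
    have := hψint (ψ⁻¹ • b)
    rwa [smul_inv_smul] at this
  have hcardF : ∀ a : 𝓞 F ⧸ below (𝓞 F) A, a ^ q = a := by
    haveI := v.isMaximal
    have hmaxF : (below (𝓞 F) A).IsMaximal := by rw [h]; exact v.isMaximal
    haveI hfin : Finite (𝓞 F ⧸ below (𝓞 F) A) := by
      rw [h]; exact Ideal.finiteQuotientOfFreeOfNeBot _ v.ne_bot
    letI : Field (𝓞 F ⧸ below (𝓞 F) A) := Ideal.Quotient.field _
    haveI : Fintype (𝓞 F ⧸ below (𝓞 F) A) := Fintype.ofFinite _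
    intro a
    have h1 : Fintype.card (𝓞 F ⧸ below (𝓞 F) A) = q := by
      rw [hqdef, ← h, Ideal.absNorm_apply, Submodule.cardQuot_apply, Nat.card_eq_fintype_card]
    rw [← h1]
    exact FiniteField.pow_card a
  let e : (𝓞 Qbar ⧸ below (𝓞 Qbar) A) →ₐ[𝓞 F ⧸ below (𝓞 F) A] (𝓞 Qbar ⧸ below (𝓞 Qbar) A) :=
    { iterateFrobenius (𝓞 Qbar ⧸ below (𝓞 Qbar) A) ℓ f with
      commutes' := fun r => by
        change iterateFrobenius (𝓞 Qbar ⧸ below (𝓞 Qbar) A) ℓ f (algebraMap _ _ r) = _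
        rw [iterateFrobenius_def, ← hq, ← map_pow, hcardF] }
  have he : ∀ x, e x = x ^ q := fun x => by
    change iterateFrobenius (𝓞 Qbar ⧸ below (𝓞 Qbar) A) ℓ f x = _
    rw [iterateFrobenius_def, ← hq]
  letI : Field (𝓞 Qbar ⧸ below (𝓞 Qbar) A) := Ideal.Quotient.field _
  have hbij : Function.Bijective e := by
    refine ⟨e.toRingHom.injective, fun y => ?_⟩
    obtain ⟨x, hx⟩ := hsurj y
    exact ⟨x, (he x).trans hx⟩
  obtain ⟨σ, hσ, hσ'⟩ := exists_mem_decomposition_of_algEquiv (K := F) (L := Qbar) A hℓ hA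
    (AlgEquiv.ofBijective e hbij)
  refine ⟨σ.restrictScalars ℚ, ⟨fun x => σ.commutes x, h, ?_⟩⟩
  rw [isFrobeniusAt_iff]
  have hdec : (σ.restrictScalars ℚ) ∈ A.decompositionSubgroup ℚ := hσ
  refine ⟨hdec, fun x hx => ?_⟩
  obtain ⟨y, hy⟩ := exists_integral_sub_mem A hℓ hA hx
  have h1 : σ (x - y) ∈ A.nonunits := (apply_mem_nonunits_iff hσ).2 hy
  have h2 : σ • y - y ^ q ∈ below (𝓞 Qbar) A := by
    rw [← Ideal.Quotient.eq, hσ' y]
    change e _ = _
    rw [he, map_pow]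
  rw [mem_below] at h2
  have h3 : (y : Qbar) ^ q - x ^ q ∈ A.nonunits := by
    have hyA : (y : Qbar) ∈ A := mem_of_isIntegral A y.2
    obtain ⟨c, hc⟩ := sub_dvd_pow_sub_pow (⟨(y : Qbar), hyA⟩ : A) (⟨x, hx⟩) q
    have hc' := congrArg (Subtype.val : A → Qbar) hc
    simp only [AddSubgroupClass.coe_sub, SubmonoidClass.coe_pow, MulMemClass.coe_mul] at hc'
    rw [hc', ValuationSubring.mem_nonunits_iff, map_mul]
    rw [ValuationSubring.mem_nonunits_iff, ← Valuation.map_neg, neg_sub] at hy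
    exact lt_of_le_of_lt (mul_le_of_le_one_right' ((A.valuation_le_one_iff _).2 c.2)) hy
  change σ x - x ^ q ∈ A.nonunits
  have h4 : σ x - x ^ q = (σ (x - y) + (σ (y : Qbar) - (y : Qbar) ^ q)) +
      ((y : Qbar) ^ q - x ^ q) := by
    rw [map_sub]; ring
  rw [h4]
  have h2' : A.valuation (σ (y : Qbar) - (y : Qbar) ^ q) < 1 := by
    rw [ValuationSubring.mem_nonunits_iff] at h2
    exact h2
  rw [ValuationSubring.mem_nonunits_iff] at h1 h3 ⊢
  exact lt_of_le_of_lt (Valuation.map_add _ _ _)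
    (max_lt (lt_of_le_of_lt (Valuation.map_add _ _ _) (max_lt h1 h2')) h3)

/-- there is a place above every prime -/
theorem exists_place (v : HeightOneSpectrum (𝓞 F)) :
    ∃ A : ValuationSubring Qbar, below (𝓞 F) A = v.asIdeal := by
  have := v.isMaximal
  exact exists_below_eq (L := Qbar) v.asIdeal

/-- **Uniqueness up to conjugation and inertia.** -/
theorem IsFrobV.unique {v : HeightOneSpectrum (𝓞 F)} {A A' : ValuationSubring Qbar} {φ φ' : Γℚ}
    (h : IsFrobV F v A φ) (h' : IsFrobV F v A' φ') :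
    ∃ τ ∈ GF F, ∃ i ∈ A'.inertiaSubgroupIn ℚ, φ' = i * (τ * φ * τ⁻¹) := by
  obtain ⟨σ, hσ⟩ := exists_smul_eq_of_below_eq (K := F) (L := Qbar) (resChar_prime v)
    (liesOverPrime_of_below h.below) (h.below.trans h'.below.symm)
  let τ : Γℚ := σ.restrictScalars ℚ
  have hτ : A' = τ • A := hσ
  have h1 := isFrobeniusAt_conj h.frob τ
  rw [← hτ] at h1
  refine ⟨τ, fun x => σ.commutes x, φ' * (τ * φ * τ⁻¹)⁻¹,
    IsFrobeniusAt.mul_inv_mem_inertia h'.frob h1, ?_⟩
  group

/-- two Frobenius elements at the same place, same `q` -/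
theorem frob_eq_inertia {A : ValuationSubring Qbar} {φ φ' : Γℚ} {q : ℕ}
    (h : A.IsFrobeniusAt φ q) (h' : A.IsFrobeniusAt φ' q) :
    ∃ i ∈ A.inertiaSubgroupIn ℚ, φ' = i * φ :=
  ⟨φ' * φ⁻¹, IsFrobeniusAt.mul_inv_mem_inertia h' h, by group⟩

end existence

end Fermat.Agent.LT.NT
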