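import Fermat.Agent.LT.NT.Frob
import Fermat.Agent.Cheb.Algebraic
import Fermat.Agent.Cheb.Bridge
import Mathlib.NumberTheory.RamificationInertia.Galois
import Mathlib.RingTheory.RamificationInertia.Inertia

set_option autoImplicit false
set_option linter.unusedSectionVars false
set_option linter.style.haveILetI false

/-!
# Class functions of Frobenius elements, towers, splitting
-/

open NumberField IsDedekindDomain
open scoped Pointwise

namespace Fermat.Agent.LT.NT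

open Fermat.Agent.Frob

local notation "Qbar" => AlgebraicClosure ℚ
local notation "Γℚ" => (AlgebraicClosure ℚ ≃ₐ[ℚ] AlgebraicClosure ℚ)

section

variable {G : Type*} [Group G] (ρ : Γℚ →* G)

/-- `ρ` is unramified at `p` -/
def UnrAt (p : ℕ) : Prop :=
  ∀ A : ValuationSubring Qbar, A.LiesOverPrime p → ∀ τ ∈ A.inertiaSubgroupIn ℚ, ρ τ = 1

/-- almost all primes are unramified -/
theorem exists_unr (h : ∃ L : IntermediateField ℚ Qbar, FiniteDimensional ℚ L ∧
      ∀ σ : Γℚ, (∀ x ∈ L, σ x = x) → ρ σ = 1) :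
    ∃ D : ℕ, D ≠ 0 ∧ ∀ p : ℕ, p.Prime → ¬ p ∣ D → UnrAt ρ p := by
  obtain ⟨L0, hL0, h⟩ := h
  haveI := hL0
  let L : IntermediateField ℚ Qbar := IntermediateField.normalClosure ℚ L0 Qbar
  haveI : FiniteDimensional ℚ L := normalClosure.is_finiteDimensional ℚ L0 Qbar
  haveI : Normal ℚ L := normalClosure.normal ℚ L0 Qbar
  haveI : IsGalois ℚ L := {}
  haveI : NumberField L := { to_finiteDimensional := inferInstance }
  have hFL : L0 ≤ L := L0.le_normalClosure
  obtain ⟨D, hD, hgood⟩ := Cheb.exists_good L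
  refine ⟨D, hD, fun p hp hpD A hA τ hτ => h τ fun x hx => ?_⟩
  haveI := Fact.mk hp
  have h1 := Cheb.res_mem_inertia L hτ
  rw [hgood p hp hpD _ inferInstance (Cheb.natCast_mem_below L hA), Subgroup.mem_bot] at h1
  have h2 := Cheb.coe_res_apply L τ ⟨x, hFL hx⟩
  rw [h1] at h2
  exact h2.symm

variable {ρ}

theorem UnrAt.mul_eq {p : ℕ} (h : UnrAt ρ p) {A : ValuationSubring Qbar} (hA : A.LiesOverPrime p)
    {φ φ' : Γℚ} {q : ℕ} (hφ : A.IsFrobeniusAt φ q) (hφ' : A.IsFrobeniusAt φ' q) : ρ φ' = ρ φ := by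
  obtain ⟨i, hi, rfl⟩ := frob_eq_inertia hφ hφ'
  rw [map_mul, h A hA i hi, one_mul]

variable {F : Type*} [Field F] [NumberField F] [Algebra F Qbar]

/-- uniqueness up to conjugation for unramified representations -/
theorem IsFrobV.conj {v : HeightOneSpectrum (𝓞 F)} (hun : UnrAt ρ (resChar v))
    {A A' : ValuationSubring Qbar} {φ φ' : Γℚ} (h : IsFrobV F v A φ) (h' : IsFrobV F v A' φ') :
    ∃ τ ∈ GF F, ρ φ' = ρ τ * ρ φ * (ρ τ)⁻¹ := by
  obtain ⟨τ, hτ, i, hi, rfl⟩ := h.unique h'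
  refine ⟨τ, hτ, ?_⟩
  rw [map_mul, hun A' (liesOverPrime_of_below h'.below) i hi, one_mul, map_mul, map_mul, map_inv]

/-- transport by automorphisms of `Qbar` preserving the image of `F` -/
theorem IsFrobV.transport {v : HeightOneSpectrum (𝓞 F)} {A : ValuationSubring Qbar} {φ : Γℚ}
    (h : IsFrobV F v A φ) (τ : Γℚ) {F' : Type*} [Field F'] [NumberField F'] [Algebra F' Qbar]
    (s : F ≃+* F') (hs : ∀ x : F, τ (algebraMap F Qbar x) = algebraMap F' Qbar (s x))
    {v' : HeightOneSpectrum (𝓞 F')} (hv' : ∀ x : 𝓞 F', ∀ y : 𝓞 F, s y = x →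
      (x ∈ v'.asIdeal ↔ y ∈ v.asIdeal)) (hN : Ideal.absNorm v'.asIdeal = Ideal.absNorm v.asIdeal) :
    IsFrobV F' v' (τ • A) (τ * φ * τ⁻¹) := by
  refine ⟨fun x => ?_, ?_, ?_⟩
  · obtain ⟨y, rfl⟩ := s.surjective x
    rw [← hs]
    change τ (φ (τ⁻¹ (τ _))) = _
    have h1 : τ⁻¹ (τ (algebraMap F Qbar y)) = algebraMap F Qbar y := by
      change (τ⁻¹ * τ) _ = _
      rw [inv_mul_cancel]; rfl
    rw [h1, h.fix y]
  · ext x
    let y : 𝓞 F := RingOfIntegers.mapRingEquiv s.symm x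
    have hy : s (y : F) = x := by
      change s (s.symm (x : F')) = x
      simp
    rw [hv' x y hy, ← h.below, mem_below, mem_below, mem_nonunits_smul_iff]
    have h1 : algebraMap (𝓞 F') Qbar x = τ (algebraMap (𝓞 F) Qbar y) := by
      rw [IsScalarTower.algebraMap_apply (𝓞 F') F' Qbar,
        IsScalarTower.algebraMap_apply (𝓞 F) F Qbar, hs]
      exact congrArg _ hy.symm
    rw [h1]
    have h2 : τ⁻¹ (τ (algebraMap (𝓞 F) Qbar y)) = algebraMap (𝓞 F) Qbar y := by
      change (τ⁻¹ * τ) _ = _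
      rw [inv_mul_cancel]; rfl
    rw [h2]
  · rw [hN]
    exact isFrobeniusAt_conj h.frob τ

section classFun

variable {α : Type*} (t : G → α)

variable (ρ) in
/-- the value of a class function at a Frobenius element of `v` -/
noncomputable def lamV (v : HeightOneSpectrum (𝓞 F)) : α :=
  t (ρ (exists_isFrobV (exists_place v).choose_spec).choose)

theorem lamV_eq (ht : ∀ g h, t (h * g * h⁻¹) = t g) {v : HeightOneSpectrum (𝓞 F)}
    (hun : UnrAt ρ (resChar v)) {A : ValuationSubring Qbar} {φ : Γℚ} (h : IsFrobV F v A φ) :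
    lamV ρ t v = t (ρ φ) := by
  obtain ⟨τ, -, hτ⟩ := (exists_isFrobV (exists_place v).choose_spec).choose_spec.conj hun h
  rw [hτ, ht]
  rfl

/-- invariance under isomorphisms induced by automorphisms of `Qbar` -/
theorem lamV_transport (ht : ∀ g h, t (h * g * h⁻¹) = t g) {v : HeightOneSpectrum (𝓞 F)}
    (hun : UnrAt ρ (resChar v)) (τ : Γℚ) {F' : Type*} [Field F'] [NumberField F'] [Algebra F' Qbar]
    (s : F ≃+* F') (hs : ∀ x : F, τ (algebraMap F Qbar x) = algebraMap F' Qbar (s x))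
    {v' : HeightOneSpectrum (𝓞 F')} (hv' : ∀ x : 𝓞 F', ∀ y : 𝓞 F, s y = x →
      (x ∈ v'.asIdeal ↔ y ∈ v.asIdeal)) (hN : Ideal.absNorm v'.asIdeal = Ideal.absNorm v.asIdeal) :
    lamV ρ t v' = lamV ρ t v := by
  obtain ⟨A, hA⟩ := exists_place v
  obtain ⟨φ, hφ⟩ := exists_isFrobV hA
  have h1 := hφ.transport τ s hs hv' hN
  have hun' : UnrAt ρ (resChar v') := by
    have h2 : resChar v' = resChar v :=
      resChar_eq_of_below h1.below (resChar_prime v)
        (liesOverPrime_smul (liesOverPrime_of_below hA) τ)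
    rwa [h2]
  rw [lamV_eq t ht hun' h1, lamV_eq t ht hun hφ, map_mul, map_mul, map_inv, ht]

end classFun

section tower

variable {F' : Type*} [Field F'] [NumberField F'] [Algebra F' Qbar] [Algebra F F']
  [IsScalarTower F F' Qbar]

/-- Frobenius elements in towers. -/
theorem IsFrobV.tower {v : HeightOneSpectrum (𝓞 F)} {w : HeightOneSpectrum (𝓞 F')}
    {A : ValuationSubring Qbar} {φ ψ : Γℚ} (hun : UnrAt ρ (resChar v)) (h : IsFrobV F v A φ)
    (h' : IsFrobV F' w A ψ) {f : ℕ}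
    (hf : Ideal.absNorm w.asIdeal = Ideal.absNorm v.asIdeal ^ f) : ρ ψ = ρ φ ^ f := by
  have h1 := isFrobeniusAt_pow h.frob f
  rw [← hf] at h1
  rw [hun.mul_eq (liesOverPrime_of_below h.below) h1 h'.frob, map_pow]

/-- Frobenius elements over `ℚ` and over `F` -/
theorem IsFrobV.over_rat {v : HeightOneSpectrum (𝓞 F)} {p : ℕ}
    {A : ValuationSubring Qbar} {φ ψ : Γℚ} (hA : A.LiesOverPrime p) (hun : UnrAt ρ p)
    (h : A.IsFrobeniusAt φ p) (h' : IsFrobV F v A ψ) {f : ℕ}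
    (hf : Ideal.absNorm v.asIdeal = p ^ f) : ρ ψ = ρ φ ^ f := by
  have h1 := isFrobeniusAt_pow h f
  rw [← hf] at h1
  rw [hun.mul_eq hA h1 h'.frob, map_pow]

/-- residue field bound: if `φ` fixes `F'` then the norm of `w` is at most `q`. -/
theorem absNorm_le_of_fix {A : ValuationSubring Qbar} {φ : Γℚ} {q : ℕ} (hq : 1 < q)
    (h : A.IsFrobeniusAt φ q) (hfix : φ ∈ GF F') {w : HeightOneSpectrum (𝓞 F')}
    (hw : below (𝓞 F') A = w.asIdeal) : Ideal.absNorm w.asIdeal ≤ q := by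
  have := w.isMaximal
  haveI hfin : Finite (𝓞 F' ⧸ w.asIdeal) := Ideal.finiteQuotientOfFreeOfNeBot _ w.ne_bot
  letI : Field (𝓞 F' ⧸ w.asIdeal) := Ideal.Quotient.field w.asIdeal
  haveI : Fintype (𝓞 F' ⧸ w.asIdeal) := Fintype.ofFinite _
  have h1 : ∀ a : 𝓞 F' ⧸ w.asIdeal, a ^ q = a := by
    intro a
    obtain ⟨b, rfl⟩ := Ideal.Quotient.mk_surjective a
    rw [← map_pow, eq_comm, Ideal.Quotient.eq, ← hw, mem_below, map_sub, map_pow]
    have h2 := ((isFrobeniusAt_iff A φ q).1 h).2 (algebraMap (𝓞 F') Qbar b)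
      (mem_of_isIntegral A ((Algebra.IsIntegral.isIntegral (R := ℤ) b).map
        ((algebraMap (𝓞 F') Qbar).toIntAlgHom)))
    have h3 : φ (algebraMap (𝓞 F') Qbar b) = algebraMap (𝓞 F') Qbar b := by
      rw [IsScalarTower.algebraMap_apply (𝓞 F') F' Qbar]
      exact hfix _
    rwa [h3] at h2
  rw [Ideal.absNorm_apply, Submodule.cardQuot_apply, Nat.card_eq_fintype_card]
  classical
  have h2 : (Polynomial.X ^ q - Polynomial.X : Polynomial (𝓞 F' ⧸ w.asIdeal)) ≠ 0 :=
    FiniteField.X_pow_card_sub_X_ne_zero _ hq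
  have h3 : Finset.univ ⊆ (Polynomial.X ^ q - Polynomial.X :
      Polynomial (𝓞 F' ⧸ w.asIdeal)).roots.toFinset := by
    intro a _
    rw [Multiset.mem_toFinset, Polynomial.mem_roots h2]
    simp [h1 a]
  have h4 := (Finset.card_le_card h3).trans (Multiset.toFinset_card_le _)
  rw [Finset.card_univ] at h4
  refine h4.trans ((Polynomial.card_roots' _).trans (le_of_eq ?_))
  exact FiniteField.X_pow_card_sub_X_natDegree_eq _ hq

/-- `w` over `v` -/
theorem liesOver_of_below {v : HeightOneSpectrum (𝓞 F)} {w : HeightOneSpectrum (𝓞 F')}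
    {A : ValuationSubring Qbar} (hv : below (𝓞 F) A = v.asIdeal)
    (hw : below (𝓞 F') A = w.asIdeal) : w.asIdeal.LiesOver v.asIdeal := by
  haveI : IsScalarTower (𝓞 F) (𝓞 F') Qbar := IsScalarTower.of_algebraMap_eq fun x => by
    rw [IsScalarTower.algebraMap_apply (𝓞 F) F Qbar, IsScalarTower.algebraMap_apply F F' Qbar]
    rfl
  rw [← hv, ← hw]
  infer_instance

theorem absNorm_eq_pow {v : HeightOneSpectrum (𝓞 F)} {w : HeightOneSpectrum (𝓞 F')}
    [w.asIdeal.LiesOver v.asIdeal] :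
    Ideal.absNorm w.asIdeal = Ideal.absNorm v.asIdeal ^ (w.asIdeal.inertiaDeg (𝓞 F)) := by
  have := v.isMaximal
  have := w.isMaximal
  rw [← Ideal.inertiaDeg'_eq_inertiaDeg v.asIdeal w.asIdeal]
  exact Ideal.absNorm_eq_pow_inertiaDeg'_of_liesOver w.asIdeal v.asIdeal v.isPrime v.ne_bot

lemma one_lt_absNorm (v : HeightOneSpectrum (𝓞 F)) : 1 < Ideal.absNorm v.asIdeal := by
  obtain ⟨f, hf, h⟩ := exists_absNorm_eq v
  rw [h]
  exact Nat.one_lt_pow hf.ne' (resChar_prime v).one_lt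

lemma inertiaDeg_pos' {v : HeightOneSpectrum (𝓞 F)} {w : HeightOneSpectrum (𝓞 F')}
    [w.asIdeal.LiesOver v.asIdeal] : 0 < w.asIdeal.inertiaDeg (𝓞 F) := by
  rw [Nat.pos_iff_ne_zero]
  intro h
  have h1 := absNorm_eq_pow (v := v) (w := w)
  rw [h, pow_zero] at h1
  exact (one_lt_absNorm w).ne' h1

/-- the splitting criterion, for the place `A` -/
theorem absNorm_eq_iff {H : Subgroup G} (hH : ∀ σ ∈ GF F, σ ∈ GF F' ↔ ρ σ ∈ H)
    {v : HeightOneSpectrum (𝓞 F)} {w : HeightOneSpectrum (𝓞 F')} {A : ValuationSubring Qbar}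
    {φ : Γℚ} (hun : UnrAt ρ (resChar v)) (h : IsFrobV F v A φ)
    (hw : below (𝓞 F') A = w.asIdeal) :
    Ideal.absNorm w.asIdeal = Ideal.absNorm v.asIdeal ↔ ρ φ ∈ H := by
  haveI := liesOver_of_below h.below hw
  constructor
  · intro he
    obtain ⟨ψ, hψ⟩ := exists_isFrobV hw
    have h1 := h.tower hun hψ (f := 1) (by rw [he, pow_one])
    rw [pow_one] at h1
    rw [← h1]
    refine (hH ψ fun x => ?_).mp hψ.fix
    rw [IsScalarTower.algebraMap_apply F F' Qbar]
    exact hψ.fix _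
  · intro hφ
    have h1 := absNorm_le_of_fix (one_lt_absNorm v) h.frob ((hH φ h.fix).mpr hφ) hw
    refine le_antisymm h1 ?_
    rw [absNorm_eq_pow (v := v) (w := w)]
    exact Nat.le_self_pow (inertiaDeg_pos' (v := v) (w := w)).ne' _

variable [IsGalois F F']

/-- inertia is trivial in `F'/F` at unramified places -/
theorem inertia_eq_bot {H : Subgroup G} (hH : ∀ σ ∈ GF F, σ ∈ GF F' ↔ ρ σ ∈ H)
    {w : HeightOneSpectrum (𝓞 F')} (hun : UnrAt ρ (resChar w)) :
    w.asIdeal.inertia Gal(F'/F) = ⊥ := by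
  rw [eq_bot_iff]
  intro s hs
  rw [Subgroup.mem_bot]
  obtain ⟨A, hA⟩ := exists_place w
  have hAp := liesOverPrime_of_below hA
  haveI : IsScalarTower ℚ F' Qbar := instTowerFQbar
  obtain ⟨σ, hσ, hσs⟩ := exists_mem_inertia_restrict (K := F) (L := Qbar) F' A (resChar_prime w)
    hAp s (by rw [hA]; exact fun x => hs x)
  have h1 : ρ (σ.restrictScalars ℚ) = 1 := by
    refine hun A hAp _ ?_
    rw [mem_inertiaSubgroupIn_iff] at hσ ⊢
    exact hσ
  have h2 : (σ.restrictScalars ℚ) ∈ GF F' :=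
    (hH _ fun x => σ.commutes x).mpr (by rw [h1]; exact H.one_mem)
  ext x
  rw [← hσs]
  apply (algebraMap F' Qbar).injective
  rw [AlgEquiv.restrictNormal_commutes]
  exact h2 x

/-- counting formula at unramified places -/
theorem card_fib_mul {H : Subgroup G} (hH : ∀ σ ∈ GF F, σ ∈ GF F' ↔ ρ σ ∈ H)
    {v : HeightOneSpectrum (𝓞 F)} {w : HeightOneSpectrum (𝓞 F')} [w.asIdeal.LiesOver v.asIdeal]
    (hun : UnrAt ρ (resChar v)) :
    Nat.card {w : HeightOneSpectrum (𝓞 F') // w.asIdeal.LiesOver v.asIdeal} *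
      w.asIdeal.inertiaDeg (𝓞 F) = Module.finrank F F' := by
  have hw : resChar w = resChar v := by
    refine resChar_eq (resChar_prime v) ?_
    have h1 : (resChar v : 𝓞 F) ∈ v.asIdeal := resChar_mem v
    rw [Ideal.LiesOver.over (p := v.asIdeal) (P := w.asIdeal), Ideal.mem_comap, map_natCast] at h1
    exact h1
  have h1 := Ideal.ncard_primesOver_mul_card_inertia_mul_finrank (G := Gal(F'/F)) v.asIdeal
    w.asIdeal
  rw [inertia_eq_bot hH (by rw [hw]; exact hun), Subgroup.card_bot, mul_one,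
    IsGalois.card_aut_eq_finrank] at h1
  rw [← h1]
  congr 1
  rw [← Nat.card_coe_set_eq]
  refine Nat.card_congr ⟨fun w => ⟨w.1.asIdeal, w.1.isPrime, w.2⟩, fun P => ⟨⟨P.1, P.2.1, ?_⟩,
    P.2.2⟩, fun w => rfl, fun P => rfl⟩
  exact Ideal.ne_bot_of_mem_primesOver v.ne_bot P.2

/-- **Splitting.** -/
theorem card_fib_of_mem {H : Subgroup G} (hH : ∀ σ ∈ GF F, σ ∈ GF F' ↔ ρ σ ∈ H)
    {v : HeightOneSpectrum (𝓞 F)} (hun : UnrAt ρ (resChar v)) {A : ValuationSubring Qbar}
    {φ : Γℚ} (h : IsFrobV F v A φ) (hφ : ρ φ ∈ H) :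
    Nat.card {w : HeightOneSpectrum (𝓞 F') // w.asIdeal.LiesOver v.asIdeal} =
      Module.finrank F F' := by
  let w : HeightOneSpectrum (𝓞 F') := belowV F' A (resChar_prime v) (liesOverPrime_of_below h.below)
  have hw : below (𝓞 F') A = w.asIdeal := rfl
  haveI := liesOver_of_below h.below hw
  have h1 := (absNorm_eq_iff hH hun h hw).mpr hφ
  have h2 := absNorm_eq_pow (v := v) (w := w)
  rw [h1] at h2
  have h3 : w.asIdeal.inertiaDeg (𝓞 F) = 1 := by
    have h4 : Ideal.absNorm v.asIdeal ^ 1 = Ideal.absNorm v.asIdeal ^ w.asIdeal.inertiaDeg (𝓞 F) := by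
      rw [pow_one]; exact h2
    exact (Nat.pow_right_injective (one_lt_absNorm v) h4).symm
  have h4 := card_fib_mul hH (v := v) (w := w) hun
  rwa [h3, mul_one] at h4

/-- **Non-splitting**, prime degree. -/
theorem card_fib_of_notMem {H : Subgroup G} (hH : ∀ σ ∈ GF F, σ ∈ GF F' ↔ ρ σ ∈ H)
    (hprime : (Module.finrank F F').Prime)
    {v : HeightOneSpectrum (𝓞 F)} (hun : UnrAt ρ (resChar v)) {A : ValuationSubring Qbar}
    {φ : Γℚ} (h : IsFrobV F v A φ) (hφ : ρ φ ∉ H) :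
    Nat.card {w : HeightOneSpectrum (𝓞 F') // w.asIdeal.LiesOver v.asIdeal} = 1 := by
  let w : HeightOneSpectrum (𝓞 F') := belowV F' A (resChar_prime v) (liesOverPrime_of_below h.below)
  have hw : below (𝓞 F') A = w.asIdeal := rfl
  haveI := liesOver_of_below h.below hw
  have h1 := mt (absNorm_eq_iff hH hun h hw).mp hφ
  have h2 := absNorm_eq_pow (v := v) (w := w)
  have h3 : w.asIdeal.inertiaDeg (𝓞 F) ≠ 1 := by
    intro h3
    rw [h3, pow_one] at h2
    exact h1 h2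
  have h4 := card_fib_mul hH (v := v) (w := w) hun
  rcases hprime.eq_one_or_self_of_dvd _ ⟨_, h4.symm⟩ with h5 | h5
  · exact h5
  · exfalso
    rw [h5] at h4
    exact h3 (Nat.eq_of_mul_eq_mul_left hprime.pos (by rw [h4, mul_one]))

end tower

end

end Fermat.Agent.LT.NT
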