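import Fermat.Agent.LT.NT.Fields

set_option autoImplicit false

/-!
# Subgroups of `GL₂(𝔽₃)`: `SL3`, `Q8`, the cyclic subgroups of order four, the centre
-/

noncomputable section

namespace Fermat.Agent.LT.NT

open Matrix Fermat.Agent.LTEnd
open scoped MatrixGroups

local notation "G3" => GL (Fin 2) (ZMod 3)
local notation "M3" => Matrix (Fin 2) (Fin 2) (ZMod 3)

/-- `SL₂(𝔽₃)` -/
def SL3 : Subgroup G3 := (GeneralLinearGroup.det : G3 →* (ZMod 3)ˣ).ker

theorem mem_SL3 {g : G3} : g ∈ SL3 ↔ (g : M3).det = 1 := by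
  rw [SL3, MonoidHom.mem_ker]
  exact ⟨fun h => congrArg Units.val h, fun h => Units.ext h⟩

instance : SL3.Normal := by unfold SL3; infer_instance

instance : Q8.Normal := q8_normal

theorem q8_le : Q8 ≤ SL3 := fun g hg => mem_SL3.2 ((mem_Q8 g).1 hg).1

theorem det_surj : Function.Surjective (GeneralLinearGroup.det : G3 →* (ZMod 3)ˣ) := by
  intro u
  refine ⟨GeneralLinearGroup.mkOfDetNeZero !![(u : ZMod 3), 0; 0, 1] ?_, ?_⟩
  · rw [Matrix.det_fin_two_of]
    simp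
  · apply Units.ext
    change (!![(u : ZMod 3), 0; 0, 1]).det = u
    rw [Matrix.det_fin_two_of]
    simp

theorem card_SL3 : Nat.card SL3 = 24 := by
  have h1 : SL3.index = 2 := by
    rw [SL3, Subgroup.index_ker, MonoidHom.range_eq_top.2 det_surj, Subgroup.card_top,
      Nat.card_eq_fintype_card]
    decide
  have h2 := SL3.index_mul_card
  rw [h1, card_G3] at h2
  omega

/-- elements of `Q8` by their entries -/
def q8Equiv : Q8 ≃ {x : ZMod 3 × ZMod 3 × ZMod 3 × ZMod 3 // Q8c x.1 x.2.1 x.2.2.1 x.2.2.2} where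
  toFun g := ⟨((g : G3) 0 0, (g : G3) 0 1, (g : G3) 1 0, (g : G3) 1 1), g.2⟩
  invFun x := ⟨GeneralLinearGroup.mkOfDetNeZero !![x.1.1, x.1.2.1; x.1.2.2.1, x.1.2.2.2] (by
      rw [Matrix.det_fin_two_of, x.2.1]; decide), x.2⟩
  left_inv g := by
    apply Subtype.ext
    apply Units.ext
    ext i j
    fin_cases i <;> fin_cases j <;> rfl
  right_inv x := rfl

theorem card_Q8 : Nat.card Q8 = 8 := by
  rw [Nat.card_congr q8Equiv, Nat.card_eq_fintype_card]
  decide

/-- `Q8` has index three in `SL3` -/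
theorem q8_coset_aux : ∀ a b c d : ZMod 3, a * d - b * c = 1 → ¬ Q8c a b c d →
    ∀ x y z w : ZMod 3, x * w - y * z = 1 →
    Q8c x y z w ∨ Q8c (d * x - b * z) (d * y - b * w) (a * z - c * x) (a * w - c * y) ∨
      Q8c (a * x + b * z) (a * y + b * w) (c * x + d * z) (c * y + d * w) := by
  decide

theorem inv_mul_apply {s g : G3} (hs : (s : M3).det = 1) :
    ((s⁻¹ * g : G3) : M3) = !![s 1 1 * g 0 0 - s 0 1 * g 1 0, s 1 1 * g 0 1 - s 0 1 * g 1 1;
      s 0 0 * g 1 0 - s 1 0 * g 0 0, s 0 0 * g 1 1 - s 1 0 * g 0 1] := by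
  rw [Units.val_mul, val_inv_eq, hs, inv_one, one_smul, Matrix.adjugate_fin_two]
  ext i j
  fin_cases i <;> fin_cases j <;> simp [Matrix.mul_apply, Fin.sum_univ_two] <;> ring

theorem q8_coset {s g : G3} (hs : s ∈ SL3) (hs' : s ∉ Q8) (hg : g ∈ SL3) :
    g ∈ Q8 ∨ s⁻¹ * g ∈ Q8 ∨ s * g ∈ Q8 := by
  rw [mem_SL3] at hs hg
  have h1 : (s : M3) 0 0 * (s : M3) 1 1 - (s : M3) 0 1 * (s : M3) 1 0 = 1 := by
    rw [← Matrix.det_fin_two]; exact hs
  have h2 : (g : M3) 0 0 * (g : M3) 1 1 - (g : M3) 0 1 * (g : M3) 1 0 = 1 := by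
    rw [← Matrix.det_fin_two]; exact hg
  rcases q8_coset_aux _ _ _ _ h1 hs' _ _ _ _ h2 with h | h | h
  · exact Or.inl h
  · right; left
    change Q8c (((s⁻¹ * g : G3) : M3) 0 0) (((s⁻¹ * g : G3) : M3) 0 1)
      (((s⁻¹ * g : G3) : M3) 1 0) (((s⁻¹ * g : G3) : M3) 1 1)
    rw [inv_mul_apply hs]
    exact h
  · right; right
    change Q8c (((s * g : G3) : M3) 0 0) (((s * g : G3) : M3) 0 1)
      (((s * g : G3) : M3) 1 0) (((s * g : G3) : M3) 1 1)
    rw [Units.val_mul]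
    simpa only [Matrix.mul_apply, Fin.sum_univ_two] using h

theorem cube_aux : ∀ a b c d : ZMod 3, a * d - b * c = 1 →
    Q8c ((a * a + b * c) * a + (a * b + b * d) * c) ((a * a + b * c) * b + (a * b + b * d) * d)
      ((c * a + d * c) * a + (c * b + d * d) * c) ((c * a + d * c) * b + (c * b + d * d) * d) := by
  decide

theorem cube_mem_Q8 {s : G3} (hs : s ∈ SL3) : s ^ 3 ∈ Q8 := by
  rw [mem_SL3, Matrix.det_fin_two] at hs
  have h := cube_aux _ _ _ _ hs
  change Q8c (((s ^ 3 : G3) : M3) 0 0) (((s ^ 3 : G3) : M3) 0 1)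
      (((s ^ 3 : G3) : M3) 1 0) (((s ^ 3 : G3) : M3) 1 1)
  rw [pow_succ, pow_two, Units.val_mul, Units.val_mul]
  simpa only [Matrix.mul_apply, Fin.sum_univ_two] using h

/-- the unipotent element of order three -/
def s0 : G3 := GeneralLinearGroup.mkOfDetNeZero !![1, 1; 0, 1] (by
  rw [Matrix.det_fin_two_of]; decide)

theorem s0_mem : s0 ∈ SL3 := by
  rw [mem_SL3]
  change (!![(1 : ZMod 3), 1; 0, 1]).det = 1
  rw [Matrix.det_fin_two_of]; decide

theorem s0_notMem : s0 ∉ Q8 := by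
  change ¬ Q8c 1 1 0 1
  decide

/-! ### the centre and the cyclic subgroups of order four -/

theorem neg_one_mem_Q8 : (-1 : G3) ∈ Q8 := by
  rw [mem_Q8]
  refine ⟨?_, Or.inl ⟨?_, ?_, ?_⟩⟩
  · change (-(1 : M3)).det = 1
    rw [Matrix.det_neg, Matrix.det_one]; decide
  · change (-(1 : M3)) 0 1 = 0
    simp
  · change (-(1 : M3)) 1 0 = 0
    simp
  · rfl

/-- in `Q8`, an element other than `±1` has square `-1` -/
theorem sq_eq_neg_one {u : G3} (hu : u ∈ Q8) (h1 : u ≠ 1) (h2 : u ≠ -1) : u ^ 2 = -1 := by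
  have key : ∀ a b c d : ZMod 3, Q8c a b c d → (b = 0 ∧ c = 0 ∧ a = d ∧ (a = 1 ∨ a = -1)) ∨
      (a * a + b * c = -1 ∧ a * b + b * d = 0 ∧ c * a + d * c = 0 ∧ c * b + d * d = -1) := by
    decide
  rcases key _ _ _ _ hu with ⟨h3, h4, h5, h6⟩ | ⟨h3, h4, h5, h6⟩
  · exfalso
    have hs : ∀ x : ZMod 3, (u : M3) 0 0 = x → (u : M3) = x • (1 : M3) := by
      intro x hx
      ext i j
      fin_cases i <;> fin_cases j
      · simpa using hx
      · simpa using h3
      · simpa using h4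
      · simpa [hx] using h5.symm
    rcases h6 with h6 | h6
    · exact h1 (Units.ext (by rw [hs _ h6, one_smul]; rfl))
    · refine h2 (Units.ext (by rw [hs _ h6, neg_smul, one_smul]; rfl))
  · apply Units.ext
    rw [pow_two, Units.val_mul]
    change (u : M3) * (u : M3) = -1
    ext i j
    fin_cases i <;> fin_cases j <;>
      simp only [Fin.zero_eta, Fin.mk_one, Fin.isValue, Matrix.mul_apply, Fin.sum_univ_two]
    · simpa using h3
    · simpa using h4
    · simpa using h5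
    · simpa using h6

theorem neg_one_ne_one : (-1 : G3) ≠ 1 := by
  intro h
  have h1 : (-(1 : M3)) = 1 := congrArg Units.val h
  have h2 := congrFun (congrFun h1 0) 0
  rw [Matrix.neg_apply, Matrix.one_apply_eq] at h2
  exact absurd h2 (by decide)

/-- elements of order four in `Q8` -/
theorem orderOf_four {u : G3} (hu : u ∈ Q8) (h1 : u ≠ 1) (h2 : u ≠ -1) : orderOf u = 4 := by
  have h3 := sq_eq_neg_one hu h1 h2
  have : orderOf u = 2 ^ (1 + 1) := by
    apply orderOf_eq_prime_pow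
    · rw [pow_one, h3]; exact neg_one_ne_one
    · rw [pow_succ, pow_one, pow_mul, h3]; exact neg_one_sq
  simpa using this

theorem zpowers_le_Q8 {u : G3} (hu : u ∈ Q8) : Subgroup.zpowers u ≤ Q8 :=
  Subgroup.zpowers_le.2 hu

theorem card_zpowers {u : G3} (hu : u ∈ Q8) (h1 : u ≠ 1) (h2 : u ≠ -1) :
    Nat.card (Subgroup.zpowers u) = 4 := by
  rw [Nat.card_zpowers, orderOf_four hu h1 h2]

/-- the centre `{1, -1}` -/
def Z2 : Subgroup G3 := Subgroup.zpowers (-1)

theorem card_Z2 : Nat.card Z2 = 2 := by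
  rw [Z2, Nat.card_zpowers]
  have h : (-1 : G3) ^ 2 = 1 := by rw [neg_sq, one_pow]
  exact orderOf_eq_prime h neg_one_ne_one

theorem Z2_le_zpowers {u : G3} (hu : u ∈ Q8) (h1 : u ≠ 1) (h2 : u ≠ -1) :
    Z2 ≤ Subgroup.zpowers u := by
  rw [Z2, Subgroup.zpowers_le, ← sq_eq_neg_one hu h1 h2]
  exact pow_mem (Subgroup.mem_zpowers u) 2

end Fermat.Agent.LT.NT
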