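import Fermat.Agent.LT.NT.FrobV
import Fermat.Agent.LT.NT.CM
import Fermat.Agent.LTEnd.Norm
import Fermat.Agent.ChebFull.Places

set_option autoImplicit false
set_option linter.unusedSectionVars false
set_option linter.style.haveILetI false

/-!
# Auxiliary primes
-/

open NumberField IsDedekindDomain WeierstrassCurve
open scoped Pointwise

namespace Fermat.Agent.LT.NT

open Fermat.Agent.Frob Fermat.Agent.LTEnd

local notation "Qbar" => AlgebraicClosure ℚ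
local notation "Γℚ" => (AlgebraicClosure ℚ ≃ₐ[ℚ] AlgebraicClosure ℚ)
local notation "G3" => GL (Fin 2) (ZMod 3)
local notation "M3" => Matrix (Fin 2) (Fin 2) (ZMod 3)

/-- open subgroups contain the fixing subgroup of a finite extension -/
theorem exists_level {U : Subgroup Γℚ} (hU : IsOpen (U : Set Γℚ)) :
    ∃ L : IntermediateField ℚ Qbar, FiniteDimensional ℚ L ∧ ∀ σ : Γℚ, (∀ x ∈ L, σ x = x) → σ ∈ U := by
  obtain ⟨L, hL, hLU⟩ := (krullTopology_mem_nhds_one_iff ℚ Qbar (U : Set Γℚ)).mp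
    (hU.mem_nhds U.one_mem)
  exact ⟨L, hL, fun σ hσ => hLU ((IntermediateField.mem_fixingSubgroup_iff L σ).mpr hσ)⟩

/-- **Chebotarev** modulo an open subgroup. -/
theorem exists_frob_coset {U : Subgroup Γℚ} [U.Normal] (hU : IsOpen (U : Set Γℚ)) (g : Γℚ)
    (B : ℕ) : ∃ p : ℕ, p.Prime ∧ B < p ∧ ∃ A : ValuationSubring Qbar, A.LiesOverPrime p ∧
      ∃ φ : Γℚ, A.IsFrobeniusAt φ p ∧ φ * g⁻¹ ∈ U := by
  obtain ⟨L, hL, hLU⟩ := exists_level hU
  haveI := hL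
  obtain ⟨p, hp, hpS, -, A, hA, φ, hφ, hφg⟩ := ChebFull.exists_frobenius_eq L g
    (Finset.range (B + 1))
  refine ⟨p, hp, by rw [Finset.mem_range] at hpS; omega, A, hA, φ, hφ, ?_⟩
  have h1 : g⁻¹ * φ ∈ U := hLU _ fun x hx => by
    change g⁻¹ (φ x) = x
    rw [hφg x hx]
    exact inv_smul_smul g x
  have h2 := ‹U.Normal›.conj_mem _ h1 g
  have h3 : g * (g⁻¹ * φ) * g⁻¹ = φ * g⁻¹ := by group
  rwa [h3] at h2

variable {G : Type*} [Group G] {ρ : Γℚ →* G}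

variable {F : Type*} [Field F] [NumberField F] [Algebra F Qbar]

/-- all Frobenius elements above `p` are conjugate to powers of one of them -/
theorem frobV_conj {p : ℕ} (hp : p.Prime) (hun : UnrAt ρ p) {A : ValuationSubring Qbar}
    (hA : A.LiesOverPrime p) {φ : Γℚ} (hφ : A.IsFrobeniusAt φ p) {v : HeightOneSpectrum (𝓞 F)}
    {A' : ValuationSubring Qbar} {ψ : Γℚ} (hψ : IsFrobV F v A' ψ) (hv : resChar v = p) {f : ℕ}
    (hf : Ideal.absNorm v.asIdeal = p ^ f) : ∃ τ : Γℚ, ρ ψ = ρ τ * ρ φ ^ f * (ρ τ)⁻¹ := by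
  have hA' : A'.LiesOverPrime p := by
    rw [← hv]; exact liesOverPrime_of_below hψ.below
  obtain ⟨τ, rfl⟩ := exists_smul_eq hp hA hA'
  have h1 := isFrobeniusAt_pow (isFrobeniusAt_conj hφ τ) f
  rw [← hf] at h1
  refine ⟨τ, ?_⟩
  rw [hun.mul_eq hA' h1 hψ.frob, map_pow, map_mul, map_mul, map_inv, conj_pow]

/-- central Frobenius elements -/
theorem frobV_central {p : ℕ} (hp : p.Prime) (hun : UnrAt ρ p) {A : ValuationSubring Qbar}
    (hA : A.LiesOverPrime p) {φ : Γℚ} (hφ : A.IsFrobeniusAt φ p) (hc : ∀ g : G, g * ρ φ = ρ φ * g)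
    {v : HeightOneSpectrum (𝓞 F)} {A' : ValuationSubring Qbar} {ψ : Γℚ} (hψ : IsFrobV F v A' ψ)
    (hv : resChar v = p) {f : ℕ} (hf : Ideal.absNorm v.asIdeal = p ^ f) : ρ ψ = ρ φ ^ f := by
  obtain ⟨τ, hτ⟩ := frobV_conj hp hun hA hφ hψ hv hf
  rw [hτ]
  have h1 : Commute (ρ τ) (ρ φ ^ f) := (show Commute (ρ τ) (ρ φ) from hc (ρ τ)).pow_right f
  rw [h1.eq, mul_inv_cancel_right]

section setup

variable (ρ : Γℚ →* G3)

/-- `i` -/
def mi : G3 := mk3 0 (-1) 1 0 (by decide)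
/-- `j` -/
def mj : G3 := mk3 1 1 1 (-1) (by decide)

lemma mi_val : (mi : M3) = !![0, -1; 1, 0] := rfl
lemma mj_val : (mj : M3) = !![1, 1; 1, -1] := rfl

lemma mi_det : Matrix.GeneralLinearGroup.det mi = 1 := by
  apply Units.ext
  change (!![(0 : ZMod 3), -1; 1, 0]).det = 1
  rw [Matrix.det_fin_two_of]; decide

lemma mj_det : Matrix.GeneralLinearGroup.det mj = 1 := by
  apply Units.ext
  change (!![(1 : ZMod 3), 1; 1, -1]).det = 1
  rw [Matrix.det_fin_two_of]; decide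

lemma mi_mj : mi * mj * mi⁻¹ * mj⁻¹ = -1 := by
  have h : mi * mj = -1 * (mj * mi) := by
    apply Units.ext
    rw [Units.val_mul, Units.val_mul, Units.val_mul, Units.val_neg, Units.val_one, mi_val, mj_val]
    decide
  have h2 : mi * mj * mi⁻¹ * mj⁻¹ = -1 * (mj * mi) * mi⁻¹ * mj⁻¹ := by rw [h]
  rw [h2]
  group

lemma neg_one_mem_Q8' : (-1 : G3) ∈ Q8 := by
  rw [mem_Q8, Units.val_neg, Units.val_one]
  exact ⟨by decide, Or.inl ⟨by decide, by decide, by decide⟩⟩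

lemma mi_mem_Q8 : mi ∈ Q8 := by
  rw [mem_Q8, mi_val]
  exact ⟨by decide, Or.inr (by decide)⟩

lemma neg_one_central (g : G3) : g * (-1) = (-1) * g := by
  rw [mul_neg, neg_mul, mul_one, one_mul]

variable {ρ}

/-- finite level of a continuous representation -/
theorem ker_isOpen (hρ : Continuous ρ) : IsOpen ((ρ.ker : Subgroup Γℚ) : Set Γℚ) := by
  have : ((ρ.ker : Subgroup Γℚ) : Set Γℚ) = ρ ⁻¹' {1} := by
    ext σ; simp [MonoidHom.mem_ker]
  rw [this]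
  exact (isOpen_discrete _).preimage hρ

theorem exists_unr' (hρ : Continuous ρ) :
    ∃ D : ℕ, D ≠ 0 ∧ ∀ p : ℕ, p.Prime → ¬ p ∣ D → UnrAt ρ p := by
  obtain ⟨L, hL, hLU⟩ := exists_level (ker_isOpen hρ)
  exact exists_unr ρ ⟨L, hL, fun σ hσ => MonoidHom.mem_ker.mp (hLU σ hσ)⟩

/-- **KILL primes, rational form.** -/
theorem exists_kill_rat (hρ : Continuous ρ) (hsurj : Function.Surjective ρ)
    (hdet : ∀ σ : Γℚ, Matrix.GeneralLinearGroup.det (ρ σ) = modThreeCyclotomicChar σ)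
    (N : ℕ) (hN : 0 < N) (B : ℕ) : ∃ p : ℕ, p.Prime ∧ B < p ∧ p ≡ 1 [MOD N] ∧ UnrAt ρ p ∧
      (∃ x y : ℤ, x ^ 2 - x * y + y ^ 2 = p ∧ (N : ℤ) ∣ x - 1 ∧ (N : ℤ) ∣ y) ∧
      ∃ A : ValuationSubring Qbar, A.LiesOverPrime p ∧ ∃ φ : Γℚ, A.IsFrobeniusAt φ p ∧
        modThreeCyclotomicChar φ = 1 ∧ ρ φ = -1 := by
  obtain ⟨U, hUn, hUo, hU1, hUc, B0, hB0⟩ := exists_cm_level N hN
  obtain ⟨D, hD, hDun⟩ := exists_unr' hρ
  obtain ⟨a, ha⟩ := hsurj mi
  obtain ⟨b, hb⟩ := hsurj mj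
  have ha1 : modThreeCyclotomicChar a = 1 := by rw [← hdet, ha, mi_det]
  have hb1 : modThreeCyclotomicChar b = 1 := by rw [← hdet, hb, mj_det]
  set g := a * b * a⁻¹ * b⁻¹ with hg
  have hgU : g ∈ U := hUc a b ha1 hb1
  have hgρ : ρ g = -1 := by
    rw [hg, map_mul, map_mul, map_mul, map_inv, map_inv, ha, hb, mi_mj]
  have : (U ⊓ ρ.ker).Normal := Subgroup.normal_inf_normal _ _
  have hVo : IsOpen ((U ⊓ ρ.ker : Subgroup Γℚ) : Set Γℚ) := hUo.inter (ker_isOpen hρ)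
  obtain ⟨p, hp, hpB, A, hA, φ, hφ, hφg⟩ := exists_frob_coset hVo g (max B (max B0 D))
  have hφU : φ ∈ U := by
    have := U.mul_mem hφg.1 hgU
    rwa [inv_mul_cancel_right] at this
  have hφρ : ρ φ = -1 := by
    have h1 : ρ (φ * g⁻¹) = 1 := hφg.2
    rw [map_mul, map_inv, hgρ, mul_inv_eq_one] at h1
    exact h1
  obtain ⟨h1, hxy⟩ := hB0 p hp (lt_of_le_of_lt (le_trans (le_max_left _ _) (le_max_right _ _)) hpB)
    A hA φ hφ hφU
  refine ⟨p, hp, lt_of_le_of_lt (le_max_left _ _) hpB, h1, hDun p hp fun h => ?_, hxy, A, hA, φ, hφ,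
    hU1 φ hφU, hφρ⟩
  have := Nat.le_of_dvd (Nat.pos_of_ne_zero hD) h
  have := le_trans (le_max_right B0 D) (le_max_right B _)
  omega

/-- the norm of `x + y ω` -/
theorem norm_eis {K : Type*} [Field K] [NumberField K] (hK : Module.finrank ℚ K = 2)
    {w : K} (hw : w ^ 2 + w + 1 = 0) (x y : ℚ) :
    Algebra.norm ℚ ((x : K) + y * w) = x ^ 2 - x * y + y ^ 2 := by
  classical
  obtain ⟨j⟩ : Nonempty (K →+* ℂ) := inferInstance
  let i : K →ₐ[ℚ] ℂ := j.toRatAlgHom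
  let i' : K →ₐ[ℚ] ℂ := (Complex.conjAe.restrictScalars ℚ : ℂ ≃ₐ[ℚ] ℂ).toAlgHom.comp i
  have hi' : ∀ z, i' z = (starRingEnd ℂ) (i z) := fun z => rfl
  have h1 : (i w) ^ 2 + i w + 1 = 0 := by
    have := congrArg i hw
    simpa using this
  have hne : (starRingEnd ℂ) (i w) ≠ i w := by
    intro h
    obtain ⟨r, hr⟩ := Complex.conj_eq_iff_real.mp h
    rw [hr] at h1
    have h2 : r ^ 2 + r + 1 = 0 := by exact_mod_cast h1
    nlinarith [sq_nonneg (r + 1 / 2)]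
  have h2 : (starRingEnd ℂ) (i w) = -1 - i w := by
    have h3 := congrArg (starRingEnd ℂ) h1
    simp only [map_add, map_pow, map_one, map_zero] at h3
    have h4 : ((starRingEnd ℂ) (i w) - i w) * ((starRingEnd ℂ) (i w) + i w + 1) = 0 := by
      linear_combination h3 - h1
    have h5 := (mul_eq_zero.mp h4).resolve_left (sub_ne_zero.mpr hne)
    linear_combination h5
  have huniv : (Finset.univ : Finset (K →ₐ[ℚ] ℂ)) = {i, i'} := by
    symm
    apply Finset.eq_of_subset_of_card_le (Finset.subset_univ _)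
    rw [Finset.card_univ, AlgHom.card, hK, Finset.card_pair]
    intro h
    exact hne (by rw [← hi', ← h])
  have h3 := Algebra.norm_eq_prod_embeddings ℚ ℂ ((x : K) + y * w)
  rw [huniv, Finset.prod_pair (fun h => hne (by rw [← hi', ← h])), hi'] at h3
  have h4 : i ((x : K) + y * w) = x + y * i w := by simp
  rw [h4] at h3
  have h5 : (starRingEnd ℂ) ((x : ℂ) + y * i w) = x + y * (-1 - i w) := by
    simp only [map_add, map_mul, h2]
    simp
  rw [h5] at h3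
  have h6 : ((Algebra.norm ℚ ((x : K) + y * w) : ℚ) : ℂ) = ((x ^ 2 - x * y + y ^ 2 : ℚ) : ℂ) := by
    push_cast
    have h7 : (algebraMap ℚ ℂ) (Algebra.norm ℚ ((x : K) + y * w)) =
        ((Algebra.norm ℚ ((x : K) + y * w) : ℚ) : ℂ) := rfl
    rw [← h7, h3]
    linear_combination -(y : ℂ) ^ 2 * h1
  exact_mod_cast h6

/-- the norm of `x + y ω` -/
theorem absNorm_eis {K : Type*} [Field K] [NumberField K] (hK : Module.finrank ℚ K = 2)
    {w : 𝓞 K} (hw : w ^ 2 + w + 1 = 0) (x y : ℤ) :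
    ((Ideal.absNorm (Ideal.span {(x : 𝓞 K) + y * w}) : ℕ) : ℤ) = x ^ 2 - x * y + y ^ 2 := by
  rw [Ideal.absNorm_span_singleton, Int.natCast_natAbs]
  have hw' : (w : K) ^ 2 + w + 1 = 0 := by
    have := congrArg (algebraMap (𝓞 K) K) hw
    simpa using this
  have h1 := norm_eis hK hw' (x : ℚ) (y : ℚ)
  have h2 : ((Algebra.norm ℤ ((x : 𝓞 K) + y * w) : ℤ) : ℚ) =
      ((x ^ 2 - x * y + y ^ 2 : ℤ) : ℚ) := by
    rw [Algebra.coe_norm_int]
    push_cast
    rw [← h1]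
    simp
  have h3 := Int.cast_injective h2
  rw [h3]
  apply abs_of_nonneg
  nlinarith [sq_nonneg (2 * x - y), sq_nonneg y]

end setup

section fields

variable {K : Type*} [Field K] [NumberField K] [Algebra K Qbar]
  {E : Type*} [Field E] [NumberField E] [Algebra E Qbar] [Algebra K E] [IsScalarTower K E Qbar]

/-- `w` above `v` -/
lemma resChar_fib {v : HeightOneSpectrum (𝓞 K)} {w : HeightOneSpectrum (𝓞 E)}
    (h : w.asIdeal.LiesOver v.asIdeal) : resChar w = resChar v := by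
  refine resChar_eq (resChar_prime v) ?_
  have h1 : (resChar v : 𝓞 K) ∈ v.asIdeal := resChar_mem v
  rw [Ideal.LiesOver.over (p := v.asIdeal) (P := w.asIdeal), Ideal.mem_comap, map_natCast] at h1
  exact h1

/-- a place of `Qbar` above `w` is above `v` -/
lemma below_fib {v : HeightOneSpectrum (𝓞 K)} {w : HeightOneSpectrum (𝓞 E)}
    (h : w.asIdeal.LiesOver v.asIdeal) {A : ValuationSubring Qbar}
    (hA : Frob.below (𝓞 E) A = w.asIdeal) : Frob.below (𝓞 K) A = v.asIdeal := by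
  haveI : IsScalarTower (𝓞 K) (𝓞 E) Qbar := IsScalarTower.of_algebraMap_eq fun x => by
    rw [IsScalarTower.algebraMap_apply (𝓞 K) K Qbar, IsScalarTower.algebraMap_apply K E Qbar]
    rfl
  rw [h.over, ← hA]
  exact (below_comap (𝓞 K) A).symm

variable [IsGalois K E] {ρ : Γℚ →* G3}

/-- the data at a prime of degree one split in `E` -/
structure SplitFrob (ρ : Γℚ →* G3) (E : Type*) [Field E] [NumberField E] [Algebra E Qbar]
    [Algebra K E] (P : G3 → Prop) (v : HeightOneSpectrum (𝓞 K)) : Prop where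
  unr : UnrAt ρ (resChar v)
  deg : Ideal.absNorm v.asIdeal = resChar v
  card : Nat.card {w : HeightOneSpectrum (𝓞 E) // w.asIdeal.LiesOver v.asIdeal} = 3
  frobK : ∀ A φ, IsFrobV K v A φ → P (ρ φ)
  degE : ∀ w : HeightOneSpectrum (𝓞 E), w.asIdeal.LiesOver v.asIdeal →
    Ideal.absNorm w.asIdeal = Ideal.absNorm v.asIdeal
  frobE : ∀ w : HeightOneSpectrum (𝓞 E), w.asIdeal.LiesOver v.asIdeal →
    ∀ A φ, IsFrobV E w A φ → P (ρ φ)

/-- Primes of degree one split in `E`. -/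
theorem splitFrob_of (hGE : ∀ σ ∈ GF K, σ ∈ GF E ↔ ρ σ ∈ Q8) (h3 : Module.finrank K E = 3)
    {P : G3 → Prop} (hP : ∀ g h, P g → P (h * g * h⁻¹)) {p : ℕ} (hp : p.Prime)
    (hun : UnrAt ρ p) {A : ValuationSubring Qbar} (hA : A.LiesOverPrime p) {φ : Γℚ}
    (hφ : A.IsFrobeniusAt φ p) (hφP : P (ρ φ)) (hφQ : ρ φ ∈ Q8)
    {v : HeightOneSpectrum (𝓞 K)} (hv : resChar v = p) (hvN : Ideal.absNorm v.asIdeal = p) :
    SplitFrob ρ E P v := by
  have hnorm := q8_normal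
  have hfr : ∀ {F : Type _} [Field F] [NumberField F] [Algebra F Qbar]
      (u : HeightOneSpectrum (𝓞 F)) (_ : resChar u = p) (_ : Ideal.absNorm u.asIdeal = p)
      (A' : ValuationSubring Qbar) (ψ : Γℚ), IsFrobV F u A' ψ → P (ρ ψ) ∧ ρ ψ ∈ Q8 := by
    intro F _ _ _ u hu huN A' ψ hψ
    obtain ⟨τ, hτ⟩ := frobV_conj hp hun hA hφ hψ hu (f := 1) (by rw [huN, pow_one])
    rw [hτ, pow_one]
    exact ⟨hP _ _ hφP, hnorm.conj_mem _ hφQ _⟩
  have hK := hfr v hv hvN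
  have hunv : UnrAt ρ (resChar v) := by rw [hv]; exact hun
  have hdegE : ∀ w : HeightOneSpectrum (𝓞 E), w.asIdeal.LiesOver v.asIdeal →
      Ideal.absNorm w.asIdeal = Ideal.absNorm v.asIdeal := by
    intro w hw
    obtain ⟨A', hA'⟩ := exists_place w
    obtain ⟨ψ, hψ⟩ := exists_isFrobV (below_fib hw hA')
    exact (absNorm_eq_iff hGE hunv hψ hA').mpr (hK A' ψ hψ).2
  refine ⟨hunv, by rw [hvN, hv], ?_, fun A' ψ hψ => (hK A' ψ hψ).1, hdegE, fun w hw A' ψ hψ => ?_⟩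
  · obtain ⟨A', hA'⟩ := exists_place v
    obtain ⟨ψ, hψ⟩ := exists_isFrobV hA'
    rw [card_fib_of_mem hGE hunv hψ (hK A' ψ hψ).2, h3]
  · have h1 : resChar w = p := by rw [resChar_fib hw, hv]
    obtain ⟨τ, hτ⟩ := frobV_conj hp hun hA hφ hψ h1 (f := 1) (by
      rw [hdegE w hw, hvN, pow_one])
    rw [hτ, pow_one]
    exact hP _ _ hφP

/-- **KILL primes.** -/
theorem exists_kill (hρ : Continuous ρ) (hsurj : Function.Surjective ρ)
    (hdet : ∀ σ : Γℚ, Matrix.GeneralLinearGroup.det (ρ σ) = modThreeCyclotomicChar σ)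
    (hK2 : Module.finrank ℚ K = 2) {ω : 𝓞 K} (hω : ω ^ 2 + ω + 1 = 0)
    (hGE : ∀ σ ∈ GF K, σ ∈ GF E ↔ ρ σ ∈ Q8) (h3 : Module.finrank K E = 3)
    (N : ℕ) (hN : 0 < N) (B : ℕ) :
    ∃ (π : 𝓞 K) (v : HeightOneSpectrum (𝓞 K)), v.asIdeal = Ideal.span {π} ∧
      (N : 𝓞 K) ∣ π - 1 ∧ B < resChar v ∧ SplitFrob ρ E (fun g => g = -1) v := by
  obtain ⟨p, hp, hpB, -, hun, ⟨x, y, hxy, hx, hy⟩, A, hA, φ, hφ, -, hφρ⟩ :=
    exists_kill_rat hρ hsurj hdet N hN B
  let π : 𝓞 K := (x : 𝓞 K) + y * ω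
  have hnorm : Ideal.absNorm (Ideal.span {π}) = p := by
    have := absNorm_eis hK2 hω x y
    rw [hxy] at this
    exact_mod_cast this
  have hprime : (Ideal.span {π}).IsPrime := by
    apply Ideal.isPrime_of_irreducible_absNorm
    rw [hnorm]
    exact hp
  have hbot : Ideal.span {π} ≠ ⊥ := by
    intro h
    rw [h, Ideal.absNorm_bot] at hnorm
    exact hp.ne_zero hnorm.symm
  let v : HeightOneSpectrum (𝓞 K) := ⟨Ideal.span {π}, hprime, hbot⟩
  have hpv : (p : 𝓞 K) ∈ v.asIdeal := by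
    have := Ideal.absNorm_mem (Ideal.span {π})
    rwa [hnorm] at this
  have hv : resChar v = p := resChar_eq hp hpv
  refine ⟨π, v, rfl, ?_, by rw [hv]; exact hpB, splitFrob_of hGE h3 ?_ hp hun hA hφ hφρ
    (by rw [hφρ]; exact neg_one_mem_Q8') hv hnorm⟩
  · obtain ⟨a, ha⟩ := hx
    obtain ⟨b, hb⟩ := hy
    refine ⟨a + b * ω, ?_⟩
    have hx' : x = N * a + 1 := by linarith
    simp only [π]
    rw [hx', hb]
    push_cast
    ring
  · rintro g h rfl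
    rw [neg_one_central, mul_inv_cancel_right]

/-- **The auxiliary prime `v₀`.** -/
theorem exists_v0 (hρ : Continuous ρ) (hsurj : Function.Surjective ρ)
    (hdet : ∀ σ : Γℚ, Matrix.GeneralLinearGroup.det (ρ σ) = modThreeCyclotomicChar σ)
    (hGK : ∀ σ : Γℚ, modThreeCyclotomicChar σ = 1 → σ ∈ GF K)
    (hGE : ∀ σ ∈ GF K, σ ∈ GF E ↔ ρ σ ∈ Q8) (h3 : Module.finrank K E = 3) (B : ℕ) :
    ∃ v : HeightOneSpectrum (𝓞 K), B < resChar v ∧
      SplitFrob ρ E (fun g => g ∈ Q8 ∧ g * g = -1) v := by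
  obtain ⟨D, hD, hDun⟩ := exists_unr' hρ
  obtain ⟨a, ha⟩ := hsurj mi
  obtain ⟨p, hp, hpB, A, hA, φ, hφ, hφg⟩ := exists_frob_coset (ker_isOpen hρ) a (max B D)
  have hφρ : ρ φ = mi := by
    have h1 : ρ (φ * a⁻¹) = 1 := hφg
    rw [map_mul, map_inv, ha, mul_inv_eq_one] at h1
    exact h1
  have hchar : modThreeCyclotomicChar φ = 1 := by rw [← hdet, hφρ, mi_det]
  have hun : UnrAt ρ p := hDun p hp fun h => by
    have h1 := Nat.le_of_dvd (Nat.pos_of_ne_zero hD) h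
    have h2 := lt_of_le_of_lt (le_max_right _ _) hpB
    omega
  let v : HeightOneSpectrum (𝓞 K) := belowV K A hp hA
  have hbel : Frob.below (𝓞 K) A = v.asIdeal := rfl
  have hv : resChar v = p := resChar_eq_of_below hbel hp hA
  have hvN : Ideal.absNorm v.asIdeal = p := by
    refine le_antisymm (absNorm_le_of_fix hp.one_lt hφ (hGK φ hchar) hbel) ?_
    obtain ⟨f, hf, h1⟩ := exists_absNorm_eq v
    rw [h1, hv]
    exact Nat.le_self_pow hf.ne' p
  have hcase : ∀ g h : G3, (g ∈ Q8 ∧ g * g = -1) →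
      (h * g * h⁻¹ ∈ Q8 ∧ h * g * h⁻¹ * (h * g * h⁻¹) = -1) := by
    rintro g h ⟨h1, h2⟩
    refine ⟨q8_normal.conj_mem _ h1 _, ?_⟩
    have : h * g * h⁻¹ * (h * g * h⁻¹) = h * (g * g) * h⁻¹ := by group
    rw [this, h2, neg_one_central, mul_inv_cancel_right]
  refine ⟨v, by rw [hv]; exact lt_of_le_of_lt (le_max_left _ _) hpB,
    splitFrob_of hGE h3 hcase hp hun hA hφ ?_ (by rw [hφρ]; exact mi_mem_Q8) hv hvN⟩
  rw [hφρ]
  refine ⟨mi_mem_Q8, ?_⟩
  apply Units.ext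
  rw [Units.val_mul, Units.val_neg, Units.val_one, mi_val]
  decide

end fields

end Fermat.Agent.LT.NT
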