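import Fermat.Agent.LT.NT.KE
import Fermat.Agent.LT.NT.Primes

set_option autoImplicit false
set_option linter.unusedSectionVars false
set_option linter.style.haveILetI false

/-!
# The auxiliary primes for the fields `kF ρ`, `EF ρ`; invariance of Frobenius classes
-/

open NumberField IsDedekindDomain WeierstrassCurve
open scoped Pointwise

namespace Fermat.Agent.LT.NT

open Fermat.Agent.Frob Fermat.Agent.LTEnd

local notation "Qbar" => AlgebraicClosure ℚ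
local notation "Γℚ" => (AlgebraicClosure ℚ ≃ₐ[ℚ] AlgebraicClosure ℚ)
local notation "G3" => GL (Fin 2) (ZMod 3)

variable {ρ : Γℚ →* G3}

theorem mem_GF_fixF (hρ : Continuous ρ) {H : Subgroup G3} [NumberField (fixF ρ H)] {σ : Γℚ} :
    σ ∈ GF (fixF ρ H) ↔ ρ σ ∈ H := by
  constructor
  · intro h
    exact mem_of_fix hρ fun x hx => h ⟨x, hx⟩
  · intro h x
    exact mem_fixF.1 x.2 σ h

section KE

variable [NumberField (kF ρ)] [NumberField (EF ρ)]

theorem hGE (hρ : Continuous ρ) : ∀ σ ∈ GF (kF ρ), σ ∈ GF (EF ρ) ↔ ρ σ ∈ Q8 :=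
  fun _ _ => mem_GF_fixF hρ

theorem hGK (hρ : Continuous ρ) (hd : DetCyc ρ) :
    ∀ σ : Γℚ, modThreeCyclotomicChar σ = 1 → σ ∈ GF (kF ρ) :=
  fun _ h => (mem_GF_fixF hρ).mpr (hd.mem_SL3_iff.mpr h)

theorem exists_omega (hd : DetCyc ρ) : ∃ ω : 𝓞 (kF ρ), ω ^ 2 + ω + 1 = 0 := by
  obtain ⟨ζ, hζ⟩ := hd.exists_zeta
  refine ⟨hζ.toInteger, ?_⟩
  have h1 := hζ.geom_sum_eq_zero (by norm_num)
  simp only [Finset.sum_range_succ, Finset.sum_range_zero, pow_zero, pow_one, zero_add] at h1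
  apply RingOfIntegers.ext
  push_cast
  change ζ ^ 2 + ζ + 1 = 0
  linear_combination h1

/-- **KILL primes** for `kF ρ`, `EF ρ`. -/
theorem exists_kill_KE (hρ : Continuous ρ) (hs : Function.Surjective ρ) (hd : DetCyc ρ)
    (N : ℕ) (hN : 0 < N) (B : ℕ) :
    ∃ (π : 𝓞 (kF ρ)) (v : HeightOneSpectrum (𝓞 (kF ρ))), v.asIdeal = Ideal.span {π} ∧
      (N : 𝓞 (kF ρ)) ∣ π - 1 ∧ B < resChar v ∧ SplitFrob ρ (EF ρ) (fun g => g = -1) v := by
  obtain ⟨ω, hω⟩ := exists_omega hd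
  have := isGalois_KE hρ
  exact exists_kill hρ hs hd (finrank_kF hρ hs) hω (hGE hρ) (finrank_KE hρ hs) N hN B

/-- **`v₀`** for `kF ρ`, `EF ρ`. -/
theorem exists_v0_KE (hρ : Continuous ρ) (hs : Function.Surjective ρ) (hd : DetCyc ρ) (B : ℕ) :
    ∃ v : HeightOneSpectrum (𝓞 (kF ρ)), B < resChar v ∧
      SplitFrob ρ (EF ρ) (fun g => g ∈ Q8 ∧ g * g = -1) v := by
  have := isGalois_KE hρ
  exact exists_v0 hρ hs hd (hGK hρ hd) (hGE hρ) (finrank_KE hρ hs) B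

/-- split places of `kF ρ` (any residue degree): the three places above have the same norm and
`ρ`-conjugate Frobenius elements -/
theorem split_fib (hρ : Continuous ρ) {v : HeightOneSpectrum (𝓞 (kF ρ))}
    (hun : UnrAt ρ (resChar v)) {A : ValuationSubring Qbar} {φ : Γℚ}
    (h : IsFrobV (kF ρ) v A φ) (hφ : ρ φ ∈ Q8) {w : HeightOneSpectrum (𝓞 (EF ρ))}
    (hw : w.asIdeal.LiesOver v.asIdeal) :
    Ideal.absNorm w.asIdeal = Ideal.absNorm v.asIdeal ∧
      ∀ A' ψ, IsFrobV (EF ρ) w A' ψ → ∃ τ : Γℚ, ρ τ ∈ SL3 ∧ ρ ψ = ρ τ * ρ φ * (ρ τ)⁻¹ := by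
  have := isGalois_KE hρ
  have key : ∀ A' : ValuationSubring Qbar, Frob.below (𝓞 (EF ρ)) A' = w.asIdeal →
      Ideal.absNorm w.asIdeal = Ideal.absNorm v.asIdeal := by
    intro A' hA'
    obtain ⟨ψ, hψ⟩ := exists_isFrobV (below_fib hw hA')
    obtain ⟨τ, hτ, hτρ⟩ := h.conj hun hψ
    exact (absNorm_eq_iff (hGE hρ) hun hψ hA').mpr (by
      rw [hτρ]; exact q8_normal.conj_mem _ hφ _)
  obtain ⟨A0, hA0⟩ := exists_place w
  have hN := key A0 hA0
  refine ⟨hN, fun A' ψ hψ => ?_⟩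
  obtain ⟨χ, hχ⟩ := exists_isFrobV (below_fib hw hψ.below)
  obtain ⟨τ, hτ, hτρ⟩ := h.conj hun hχ
  refine ⟨τ, (mem_GF_fixF hρ).mp hτ, ?_⟩
  rw [hχ.tower hun hψ (f := 1) (by rw [hN, pow_one]), pow_one, hτρ]

end KE

section invariance

variable {F : Type*} [Field F] [NumberField F] [Algebra F Qbar] {G : Type*} [Group G]
  {r : Γℚ →* G}

/-- two prime ideals exchanged by an automorphism of `F` induced by `τ ∈ Γℚ` -/
theorem IsFrobV.map {v v' : HeightOneSpectrum (𝓞 F)} {A : ValuationSubring Qbar} {φ : Γℚ}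
    (h : IsFrobV F v A φ) (τ : Γℚ) (s : F ≃+* F)
    (hs : ∀ x : F, τ (algebraMap F Qbar x) = algebraMap F Qbar (s x))
    (hv' : ∀ y : 𝓞 F, RingOfIntegers.mapRingEquiv s y ∈ v'.asIdeal ↔ y ∈ v.asIdeal) :
    IsFrobV F v' (τ • A) (τ * φ * τ⁻¹) := by
  refine h.transport τ s hs (fun x y hxy => ?_) ?_
  · rw [← hv' y]
    have : RingOfIntegers.mapRingEquiv s y = x := RingOfIntegers.ext hxy
    rw [this]
  · have e : v'.asIdeal = v.asIdeal.map (RingOfIntegers.mapRingEquiv s : 𝓞 F →+* 𝓞 F) := by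
      ext x
      have h1 := hv' ((RingOfIntegers.mapRingEquiv s).symm x)
      rw [RingEquiv.apply_symm_apply] at h1
      rw [h1]
      change _ ↔ x ∈ v.asIdeal.map (RingOfIntegers.mapRingEquiv s)
      rw [← Ideal.comap_symm]
      rfl
    rw [e]
    rw [Ideal.absNorm_apply, Ideal.absNorm_apply, Submodule.cardQuot_apply,
      Submodule.cardQuot_apply]
    exact (Nat.card_congr (Ideal.quotientEquiv v.asIdeal _ (RingOfIntegers.mapRingEquiv s)
      rfl).toEquiv).symm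

end invariance

end Fermat.Agent.LT.NT
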