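import Fermat.Agent.LT.NT.Grp
import Fermat.Agent.LT.Loc.GalDich
import Fermat.Agent.LT.Tw.Class

set_option autoImplicit false

/-!
# The fields `kF ρ = ℚ(√-3)` and `EF ρ`
-/

noncomputable section

namespace Fermat.Agent.LT.NT

open Matrix Fermat.Agent.LTEnd NumberField Module WeierstrassCurve
open scoped MatrixGroups

local notation "Qbar" => AlgebraicClosure ℚ
local notation "Γℚ" => (AlgebraicClosure ℚ ≃ₐ[ℚ] AlgebraicClosure ℚ)
local notation "G3" => GL (Fin 2) (ZMod 3)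
local notation "M3" => Matrix (Fin 2) (Fin 2) (ZMod 3)

variable (ρ : Γℚ →* G3)

/-- the fixed field of `ρ⁻¹(SL₂(𝔽₃))`, i.e. `ℚ(√-3)` -/
abbrev kF : IntermediateField ℚ Qbar := fixF ρ SL3

/-- the fixed field of `ρ⁻¹(Q₈)`, cyclic cubic over `kF ρ` -/
abbrev EF : IntermediateField ℚ Qbar := fixF ρ Q8

instance algKE : Algebra (kF ρ) (EF ρ) := algF ρ q8_le

instance towerKE : IsScalarTower ℚ (kF ρ) (EF ρ) := tower_algF q8_le

instance towerKEQ : IsScalarTower (kF ρ) (EF ρ) Qbar := tower_algF_Qbar q8_le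

variable {ρ}

theorem algKE_coe (x : kF ρ) : ((algebraMap (kF ρ) (EF ρ) x : EF ρ) : Qbar) = x := rfl

theorem isGalois_kF (hρ : Continuous ρ) : IsGalois ℚ (kF ρ) := isGalois_fixF hρ SL3

theorem isGalois_EF (hρ : Continuous ρ) : IsGalois ℚ (EF ρ) := isGalois_fixF hρ Q8

theorem finiteDimensional_KE (hρ : Continuous ρ) : FiniteDimensional (kF ρ) (EF ρ) :=
  finiteDimensional_rel hρ q8_le

theorem isGalois_KE (hρ : Continuous ρ) : IsGalois (kF ρ) (EF ρ) :=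
  isGalois_rel hρ q8_le nrm_of_normal

theorem finrank_kF (hρ : Continuous ρ) (hs : Function.Surjective ρ) : finrank ℚ (kF ρ) = 2 := by
  rw [finrank_fixF hρ hs]
  have h2 := SL3.index_mul_card
  rw [card_SL3, card_G3] at h2
  omega

theorem finrank_EF (hρ : Continuous ρ) (hs : Function.Surjective ρ) : finrank ℚ (EF ρ) = 6 := by
  rw [finrank_fixF hρ hs]
  have h2 := Q8.index_mul_card
  rw [card_Q8, card_G3] at h2
  omega

theorem finrank_KE (hρ : Continuous ρ) (hs : Function.Surjective ρ) :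
    finrank (kF ρ) (EF ρ) = 3 := by
  have h := finrank_rel hρ hs q8_le
  rw [card_Q8, card_SL3] at h
  change finrank (kF ρ) (EF ρ) * 8 = 24 at h
  omega

/-! ### the Galois group -/

/-- the action of `τ ∈ ρ⁻¹(SL₂(𝔽₃))` on `EF ρ` -/
def sigE (τ : Γℚ) (hτ : ρ τ ∈ SL3) : EF ρ ≃ₐ[kF ρ] EF ρ := relF q8_le nrm_of_normal τ hτ

theorem sigE_coe (τ : Γℚ) (hτ : ρ τ ∈ SL3) (x : EF ρ) : ((sigE τ hτ x : EF ρ) : Qbar) = τ x := rfl

theorem sigE_eq_one_iff (hρ : Continuous ρ) {τ : Γℚ} (hτ : ρ τ ∈ SL3) :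
    sigE τ hτ = 1 ↔ ρ τ ∈ Q8 :=
  relF_eq_one_iff hρ q8_le nrm_of_normal hτ

theorem sigE_mul {τ τ' : Γℚ} (hτ : ρ τ ∈ SL3) (hτ' : ρ τ' ∈ SL3) :
    sigE (τ * τ') (by rw [map_mul]; exact SL3.mul_mem hτ hτ') = sigE τ hτ * sigE τ' hτ' := rfl

theorem sigE_inv {τ : Γℚ} (hτ : ρ τ ∈ SL3) :
    sigE τ⁻¹ (by rw [map_inv]; exact SL3.inv_mem hτ) = (sigE τ hτ)⁻¹ := rfl

theorem exists_sigE (hρ : Continuous ρ) (θ : EF ρ ≃ₐ[kF ρ] EF ρ) :
    ∃ (τ : Γℚ) (hτ : ρ τ ∈ SL3), sigE τ hτ = θ :=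
  relF_surjective hρ q8_le nrm_of_normal θ

/-- existence of a generator -/
theorem exists_gen (hs : Function.Surjective ρ) : ∃ τ : Γℚ, ρ τ ∈ SL3 ∧ ρ τ ∉ Q8 := by
  obtain ⟨τ, hτ⟩ := hs s0
  exact ⟨τ, by rw [hτ]; exact s0_mem, by rw [hτ]; exact s0_notMem⟩

theorem sigE_cube (hρ : Continuous ρ) {τ : Γℚ} (hτ : ρ τ ∈ SL3) : sigE τ hτ ^ 3 = 1 := by
  have h1 : ρ (τ ^ 3) ∈ SL3 := by rw [map_pow]; exact pow_mem hτ 3
  have h2 : sigE (τ ^ 3) h1 = sigE τ hτ ^ 3 := rfl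
  rw [← h2, sigE_eq_one_iff hρ, map_pow]
  exact cube_mem_Q8 hτ

/-- every automorphism is `1`, `σ` or `σ⁻¹` -/
theorem aut_cases (hρ : Continuous ρ) {τ : Γℚ} (hτ : ρ τ ∈ SL3) (hτ' : ρ τ ∉ Q8)
    (θ : EF ρ ≃ₐ[kF ρ] EF ρ) : θ = 1 ∨ θ = sigE τ hτ ∨ θ = sigE τ hτ ^ 2 := by
  obtain ⟨μ, hμ, rfl⟩ := exists_sigE hρ θ
  rcases q8_coset hτ hτ' hμ with h | h | h
  · exact Or.inl ((sigE_eq_one_iff hρ hμ).2 h)
  · right; left
    rw [← map_inv, ← map_mul] at h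
    have h1 := (sigE_eq_one_iff hρ (q8_le h)).2 h
    have h2 : sigE (τ⁻¹ * μ) (q8_le h) = (sigE τ hτ)⁻¹ * sigE μ hμ := rfl
    rw [h2, inv_mul_eq_one] at h1
    exact h1.symm
  · right; right
    rw [← map_mul] at h
    have h1 := (sigE_eq_one_iff hρ (q8_le h)).2 h
    have h2 : sigE (τ * μ) (q8_le h) = sigE τ hτ * sigE μ hμ := rfl
    rw [h2] at h1
    have h3 := sigE_cube hρ hτ
    have h4 : sigE τ hτ ^ 2 = sigE τ hτ ^ 2 * (sigE τ hτ * sigE μ hμ) := by rw [h1, mul_one]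
    rw [h4, ← mul_assoc, ← pow_succ, h3, one_mul]

theorem sigE_ne_one (hρ : Continuous ρ) {τ : Γℚ} (hτ : ρ τ ∈ SL3) (hτ' : ρ τ ∉ Q8) :
    sigE τ hτ ≠ 1 := fun h => hτ' ((sigE_eq_one_iff hρ hτ).1 h)

theorem gal3_sigE (hρ : Continuous ρ) (hs : Function.Surjective ρ) {τ : Γℚ} (hτ : ρ τ ∈ SL3)
    (hτ' : ρ τ ∉ Q8) : Loc.Gal3 (sigE τ hτ) := by
  have := finiteDimensional_KE hρ
  have := isGalois_KE hρ
  exact Loc.Gal3.of_isGalois (finrank_KE hρ hs) _ (sigE_ne_one hρ hτ hτ')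

theorem cyc3_sigE (hρ : Continuous ρ) (hs : Function.Surjective ρ) {τ : Γℚ} (hτ : ρ τ ∈ SL3)
    (hτ' : ρ τ ∉ Q8) : Tw.Cyc3 (sigE τ hτ) where
  cube := (gal3_sigE hρ hs hτ hτ').cube
  fix := (gal3_sigE hρ hs hτ hτ').fixed
  ne := by
    by_contra h
    exact sigE_ne_one hρ hτ hτ' (AlgEquiv.ext fun x => not_not.1 fun hx => h ⟨x, hx⟩)

/-! ### cube roots of unity -/

/-- the determinant condition -/
def DetCyc (ρ : Γℚ →* G3) : Prop :=
  ∀ σ : Γℚ, GeneralLinearGroup.det (ρ σ) = modThreeCyclotomicChar σ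

theorem DetCyc.mem_SL3_iff (hd : DetCyc ρ) {τ : Γℚ} :
    ρ τ ∈ SL3 ↔ modThreeCyclotomicChar τ = 1 := by
  rw [SL3, MonoidHom.mem_ker, hd]

theorem DetCyc.mem_kF (hd : DetCyc ρ) {w : Qbar} (hw : w ^ 3 = 1) : w ∈ kF ρ :=
  mem_fixF.2 fun _ hτ => fix_w_of_char (hd.mem_SL3_iff.1 hτ) hw

theorem DetCyc.exists_zeta (hd : DetCyc ρ) : ∃ ζ : kF ρ, IsPrimitiveRoot ζ 3 := by
  obtain ⟨w, hw, -⟩ := exists_w
  refine ⟨⟨w, hd.mem_kF hw.pow_eq_one⟩, ?_⟩
  exact IsPrimitiveRoot.of_map_of_injective (f := (kF ρ).val) (by exact hw)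
    (kF ρ).val.toRingHom.injective

theorem isTotallyComplex_of_zeta {F : Type*} [Field F] [NumberField F] {ζ : F}
    (hζ : IsPrimitiveRoot ζ 3) : IsTotallyComplex F := by
  have h1 := hζ.geom_sum_eq_zero (by norm_num)
  simp only [Finset.sum_range_succ, Finset.sum_range_zero, pow_zero, pow_one, zero_add] at h1
  refine ⟨fun v => ?_⟩
  rw [← InfinitePlace.not_isReal_iff_isComplex, InfinitePlace.isReal_iff]
  intro h
  have h2 : (v.embedding ζ).im = 0 := by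
    have := DFunLike.congr_fun h ζ
    exact Complex.conj_eq_iff_im.1 this
  have h3 : 1 + v.embedding ζ + v.embedding ζ ^ 2 = 0 := by
    rw [← map_pow, ← map_one v.embedding, ← map_add, ← map_add, h1, map_zero]
  have h4 := congrArg Complex.re h3
  rw [pow_two] at h4
  simp only [Complex.add_re, Complex.one_re, Complex.mul_re, h2, Complex.zero_re] at h4
  nlinarith [sq_nonneg ((v.embedding ζ).re + 1 / 2)]

theorem DetCyc.isTotallyComplex_kF (hd : DetCyc ρ) (hρ : Continuous ρ) :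
    haveI := numberField_fixF hρ SL3
    IsTotallyComplex (kF ρ) := by
  have := numberField_fixF hρ SL3
  obtain ⟨ζ, hζ⟩ := hd.exists_zeta
  exact isTotallyComplex_of_zeta hζ

/-- any fixed field of a subgroup of `SL₂(𝔽₃)` is totally complex -/
theorem DetCyc.isTotallyComplex (hd : DetCyc ρ) (hρ : Continuous ρ) {H : Subgroup G3}
    (hH : H ≤ SL3) : haveI := numberField_fixF hρ H
    IsTotallyComplex (fixF ρ H) := by
  have := numberField_fixF hρ H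
  obtain ⟨w, hw, -⟩ := exists_w
  have h : IsPrimitiveRoot (⟨w, fixF_anti hH (hd.mem_kF hw.pow_eq_one)⟩ : fixF ρ H) 3 :=
    IsPrimitiveRoot.of_map_of_injective (f := (fixF ρ H).val) (by exact hw)
      (fixF ρ H).val.toRingHom.injective
  exact isTotallyComplex_of_zeta h

theorem DetCyc.isCyclotomic_kF (hd : DetCyc ρ) (hρ : Continuous ρ)
    (hs : Function.Surjective ρ) : IsCyclotomicExtension {3} ℚ (kF ρ) := by
  obtain ⟨ζ, hζ⟩ := hd.exists_zeta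
  have := finiteDimensional_fixF hρ SL3
  have h1 : IntermediateField.adjoin ℚ {ζ} = ⊤ := by
    rw [Field.primitive_element_iff_minpoly_natDegree_eq, finrank_kF hρ hs,
      ← Polynomial.cyclotomic_eq_minpoly_rat hζ (by norm_num), Polynomial.natDegree_cyclotomic]
    decide
  have h2 : Algebra.adjoin ℚ {ζ} = ⊤ := by
    rw [← IntermediateField.adjoin_simple_toSubalgebra_of_isAlgebraic
      (Algebra.IsAlgebraic.isAlgebraic ζ), h1, IntermediateField.top_toSubalgebra]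
  refine (IsCyclotomicExtension.iff_singleton _ _ _).2 ⟨⟨ζ, hζ⟩, fun x => ?_⟩
  have h3 : x ∈ Algebra.adjoin ℚ {ζ} := by rw [h2]; exact Algebra.mem_top
  refine Algebra.adjoin_mono ?_ h3
  rw [Set.singleton_subset_iff]
  exact hζ.pow_eq_one

end Fermat.Agent.LT.NT
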