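import Fermat.Agent.LT.NT.KE
import Fermat.Agent.LT.Theta.Trace

set_option autoImplicit false

/-!
# The quadratic extensions `LF ρ u` of `EF ρ`, `u ∈ Q₈` of order four, and the fields `BF`, `MF`
-/

noncomputable section

namespace Fermat.Agent.LT.NT

open Matrix Fermat.Agent.LTEnd NumberField Module WeierstrassCurve
open scoped MatrixGroups

local notation "Qbar" => AlgebraicClosure ℚ
local notation "Γℚ" => (AlgebraicClosure ℚ ≃ₐ[ℚ] AlgebraicClosure ℚ)
local notation "G3" => GL (Fin 2) (ZMod 3)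
local notation "M3" => Matrix (Fin 2) (Fin 2) (ZMod 3)

/-- elements of order four of `Q₈` -/
class Ord4 (u : G3) : Prop where
  mem : u ∈ Q8
  ne_one : u ≠ 1
  ne_neg : u ≠ -1

/-- an element of order four -/
def u0 : G3 := GeneralLinearGroup.mkOfDetNeZero !![0, -1; 1, 0] (by
  rw [Matrix.det_fin_two_of]; decide)

/-- another element of order four -/
def j0 : G3 := GeneralLinearGroup.mkOfDetNeZero !![1, 1; 1, -1] (by
  rw [Matrix.det_fin_two_of]; decide)

theorem ne_one_of_entry {u : G3} (h : (u : M3) 1 0 ≠ 0) : u ≠ 1 := by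
  rintro rfl
  exact h rfl

theorem ne_neg_of_entry {u : G3} (h : (u : M3) 1 0 ≠ 0) : u ≠ -1 := by
  rintro rfl
  apply h
  change (-(1 : M3)) 1 0 = 0
  simp

instance ord4_u0 : Ord4 u0 where
  mem := by
    change Q8c 0 (-1) 1 0
    decide
  ne_one := ne_one_of_entry (u := u0) (by change (1 : ZMod 3) ≠ 0; decide)
  ne_neg := ne_neg_of_entry (u := u0) (by change (1 : ZMod 3) ≠ 0; decide)

instance ord4_j0 : Ord4 j0 where
  mem := by
    change Q8c 1 1 1 (-1)
    decide
  ne_one := ne_one_of_entry (u := j0) (by change (1 : ZMod 3) ≠ 0; decide)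
  ne_neg := ne_neg_of_entry (u := j0) (by change (1 : ZMod 3) ≠ 0; decide)

variable (u : G3) [hu : Ord4 u]

theorem Ord4.sq : u ^ 2 = -1 := sq_eq_neg_one hu.mem hu.ne_one hu.ne_neg

theorem Ord4.orderOf : orderOf u = 4 := orderOf_four hu.mem hu.ne_one hu.ne_neg

theorem Ord4.le : Subgroup.zpowers u ≤ Q8 := zpowers_le_Q8 hu.mem

theorem Ord4.card : Nat.card (Subgroup.zpowers u) = 4 :=
  card_zpowers hu.mem hu.ne_one hu.ne_neg

theorem Ord4.Z2_le : Z2 ≤ Subgroup.zpowers u := Z2_le_zpowers hu.mem hu.ne_one hu.ne_neg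

/-- the elements of `⟨u⟩` -/
theorem Ord4.mem_cases {g : G3} (hg : g ∈ Subgroup.zpowers u) :
    g = 1 ∨ g = u ∨ g = -1 ∨ g = -u := by
  have h1 : u ^ 4 = 1 := pow_four_of_mem_Q8 hu.mem
  obtain ⟨n, hn⟩ := Subgroup.mem_zpowers_iff.1 hg
  have h2 : u ^ (n % 4) = g := by
    have h4 : ((4 : ℕ) : ℤ) = 4 := rfl
    have h3 : u ^ (4 * (n / 4)) = 1 := by
      rw [← h4, _root_.zpow_mul, zpow_natCast, h1, _root_.one_zpow]
    rw [← hn]
    conv_rhs => rw [← Int.emod_add_mul_ediv n 4, _root_.zpow_add, h3, mul_one]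
  have h5 := Int.emod_nonneg n (show (4 : ℤ) ≠ 0 by norm_num)
  have h6 := Int.emod_lt_of_pos n (show (0 : ℤ) < 4 by norm_num)
  have h7 := Ord4.sq u
  interval_cases h : n % 4
  · left; rw [← h2, zpow_zero]
  · right; left; rw [← h2, zpow_one]
  · right; right; left
    rw [← h2, ← h7]
    exact zpow_natCast u 2
  · right; right; right
    rw [← h2, show (3 : ℤ) = ((2 : ℕ) : ℤ) + 1 by norm_num, _root_.zpow_add, zpow_natCast, h7, zpow_one,
      neg_one_mul]

/-- `Q₈` normalises `⟨u⟩`: conjugates of `u` are `u^{±1}` -/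
theorem conj_aux : ∀ a b c d : ZMod 3, Q8c a b c d → ∀ x y z w : ZMod 3, Q8c x y z w →
    (∀ e, e = (a * x + b * z) → ∀ f, f = (a * y + b * w) → ∀ g, g = (c * x + d * z) →
      ∀ h, h = (c * y + d * w) →
      ((e = x * a + y * c ∧ f = x * b + y * d ∧ g = z * a + w * c ∧ h = z * b + w * d) ∨
      (e = -(x * a + y * c) ∧ f = -(x * b + y * d) ∧ g = -(z * a + w * c) ∧
        h = -(z * b + w * d)))) := by
  decide

theorem conj_Q8 {g x : G3} (hg : g ∈ Q8) (hx : x ∈ Q8) : g * x = x * g ∨ g * x = -(x * g) := by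
  have h := conj_aux _ _ _ _ hg _ _ _ _ hx _ rfl _ rfl _ rfl _ rfl
  rcases h with ⟨h1, h2, h3, h4⟩ | ⟨h1, h2, h3, h4⟩
  · left
    apply Units.ext
    rw [Units.val_mul, Units.val_mul]
    ext i j
    fin_cases i <;> fin_cases j <;>
      simp only [Fin.zero_eta, Fin.mk_one, Fin.isValue, Matrix.mul_apply, Fin.sum_univ_two]
    exacts [h1, h2, h3, h4]
  · right
    apply Units.ext
    rw [Units.val_neg, Units.val_mul, Units.val_mul]
    ext i j
    fin_cases i <;> fin_cases j <;>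
      simp only [Fin.zero_eta, Fin.mk_one, Fin.isValue, Matrix.neg_apply, Matrix.mul_apply,
        Fin.sum_univ_two]
    exacts [h1, h2, h3, h4]

theorem neg_one_mem_zpowers : (-1 : G3) ∈ Subgroup.zpowers u := by
  rw [← Ord4.sq u]
  exact pow_mem (Subgroup.mem_zpowers u) 2

theorem nrm_zpowers : Nrm (Subgroup.zpowers u) Q8 := by
  intro g hg x hx
  rcases conj_Q8 hg (zpowers_le_Q8 hu.mem hx) with h | h
  · rw [h, mul_inv_cancel_right]; exact hx
  · rw [h, neg_mul, mul_inv_cancel_right]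
    have := mul_mem (neg_one_mem_zpowers u) hx
    rwa [neg_one_mul] at this

/-- commutation, on entries -/
def Cmt (a b c d x y z w : ZMod 3) : Prop :=
  (a * x + b * z = x * a + y * c ∧ a * y + b * w = x * b + y * d) ∧
    c * x + d * z = z * a + w * c ∧ c * y + d * w = z * b + w * d

/-- equality, on entries -/
def Eqt (a b c d x y z w : ZMod 3) : Prop := (x = a ∧ y = b) ∧ z = c ∧ w = d

instance (a b c d x y z w : ZMod 3) : Decidable (Cmt a b c d x y z w) := by
  unfold Cmt; infer_instance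

instance (a b c d x y z w : ZMod 3) : Decidable (Eqt a b c d x y z w) := by
  unfold Eqt; infer_instance

/-- in `Q₈`, the elements commuting with `u` are those of `⟨u⟩` -/
theorem comm_aux : ∀ a b c d : ZMod 3, Q8c a b c d ∧ a + d = 0 → ∀ x y z w : ZMod 3,
    Q8c x y z w ∧ Cmt a b c d x y z w → Eqt 1 0 0 1 x y z w ∨ Eqt (-1) 0 0 (-1) x y z w ∨
      Eqt a b c d x y z w ∨ Eqt (-a) (-b) (-c) (-d) x y z w := by
  decide

theorem Ord4.trace_eq : (u : M3) 0 0 + (u : M3) 1 1 = 0 := by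
  have h := hu.mem
  rw [mem_Q8] at h
  obtain ⟨h1, h2⟩ := h
  rcases h2 with ⟨h3, h4, h5⟩ | h3
  · exfalso
    rw [Matrix.det_fin_two, h3, h4, h5] at h1
    have key : ∀ x : ZMod 3, x * x - 0 * 0 = 1 → x = 1 ∨ x = -1 := by decide
    rcases key _ h1 with h6 | h6
    · apply hu.ne_one
      apply Units.ext
      ext i j
      fin_cases i <;> fin_cases j
      · simpa [h6] using h5
      · simpa using h3
      · simpa using h4
      · simpa using h6
    · apply hu.ne_neg
      apply Units.ext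
      rw [Units.val_neg]
      ext i j
      fin_cases i <;> fin_cases j
      · simpa [h6] using h5
      · simpa using h3
      · simpa using h4
      · simpa using h6
  · rw [Matrix.trace_fin_two] at h3; exact h3

theorem mem_zpowers_of_comm {x : G3} (hx : x ∈ Q8) (h : u * x = x * u) :
    x ∈ Subgroup.zpowers u := by
  have h1 := congrArg Units.val h
  rw [Units.val_mul, Units.val_mul] at h1
  have e : ∀ i j, ((u : M3) * (x : M3)) i j = ((x : M3) * (u : M3)) i j := fun i j => by rw [h1]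
  have e00 := e 0 0
  have e01 := e 0 1
  have e10 := e 1 0
  have e11 := e 1 1
  simp only [Matrix.mul_apply, Fin.sum_univ_two] at e00 e01 e10 e11
  have hneg : ∀ {y : G3}, y ∈ Subgroup.zpowers u → -y ∈ Subgroup.zpowers u := by
    intro y hy
    have := mul_mem (neg_one_mem_zpowers u) hy
    rwa [neg_one_mul] at this
  rcases comm_aux _ _ _ _ ⟨hu.mem, Ord4.trace_eq u⟩ _ _ _ _ ⟨hx, ⟨e00, e01⟩, e10, e11⟩ with
    ⟨⟨h1, h2⟩, h3, h4⟩ | ⟨⟨h1, h2⟩, h3, h4⟩ | ⟨⟨h1, h2⟩, h3, h4⟩ | ⟨⟨h1, h2⟩, h3, h4⟩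
  · have : x = 1 := by
      apply Units.ext
      ext i j
      fin_cases i <;> fin_cases j
      · simpa using h1
      · simpa using h2
      · simpa using h3
      · simpa using h4
    rw [this]; exact one_mem _
  · have : x = -1 := by
      apply Units.ext
      rw [Units.val_neg]
      ext i j
      fin_cases i <;> fin_cases j
      · simpa using h1
      · simpa using h2
      · simpa using h3
      · simpa using h4
    rw [this]; exact neg_one_mem_zpowers u
  · have : x = u := by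
      apply Units.ext
      ext i j
      fin_cases i <;> fin_cases j
      · exact h1
      · exact h2
      · exact h3
      · exact h4
    rw [this]; exact Subgroup.mem_zpowers u
  · have : x = -u := by
      apply Units.ext
      rw [Units.val_neg]
      ext i j
      fin_cases i <;> fin_cases j
      · exact h1
      · exact h2
      · exact h3
      · exact h4
    rw [this]; exact hneg (Subgroup.mem_zpowers u)

theorem Ord4.inv_eq : u⁻¹ = -u := by
  rw [inv_eq_iff_mul_eq_one, mul_neg, ← pow_two, Ord4.sq u, neg_neg]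

/-- for `g ∈ Q₈` outside `⟨u⟩`, conjugation by `g` inverts `u` -/
theorem conj_eq_inv {g : G3} (hg : g ∈ Q8) (hg' : g ∉ Subgroup.zpowers u) :
    g * u * g⁻¹ = u⁻¹ := by
  rcases conj_Q8 hg hu.mem with h | h
  · exact absurd (mem_zpowers_of_comm u hg h.symm) hg'
  · rw [h, neg_mul, mul_inv_cancel_right, Ord4.inv_eq u]

theorem exists_notMem_zpowers : ∃ g ∈ Q8, g ∉ Subgroup.zpowers u := by
  by_contra h
  have h1 : Q8 ≤ Subgroup.zpowers u := fun g hg => by
    by_contra hg'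
    exact h ⟨g, hg, hg'⟩
  have h2 := Subgroup.card_le_of_le h1
  rw [card_Q8, Ord4.card u] at h2
  omega

section fields

variable (ρ : Γℚ →* G3)

omit hu in
/-- the quadratic extension of `EF ρ` attached to `u` -/
abbrev LF : IntermediateField ℚ Qbar := fixF ρ (Subgroup.zpowers u)

/-- the biquadratic extension of `EF ρ` -/
abbrev BF : IntermediateField ℚ Qbar := fixF ρ Z2

/-- the fixed field of the kernel of `ρ` -/
abbrev MF : IntermediateField ℚ Qbar := fixF ρ ⊥

instance algEL : Algebra (EF ρ) (LF u ρ) := algF ρ (Ord4.le u)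

instance towerEL : IsScalarTower ℚ (EF ρ) (LF u ρ) := tower_algF (Ord4.le u)

instance towerELQ : IsScalarTower (EF ρ) (LF u ρ) Qbar := tower_algF_Qbar (Ord4.le u)

instance algLB : Algebra (LF u ρ) (BF ρ) := algF ρ (Ord4.Z2_le u)

instance towerLB : IsScalarTower ℚ (LF u ρ) (BF ρ) := tower_algF (Ord4.Z2_le u)

instance towerLBQ : IsScalarTower (LF u ρ) (BF ρ) Qbar := tower_algF_Qbar (Ord4.Z2_le u)

theorem Z2_le_Q8 : Z2 ≤ Q8 := by
  rw [Z2, Subgroup.zpowers_le]
  exact neg_one_mem_Q8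

instance algEB : Algebra (EF ρ) (BF ρ) := algF ρ Z2_le_Q8

instance towerEB : IsScalarTower ℚ (EF ρ) (BF ρ) := tower_algF Z2_le_Q8

instance towerEBQ : IsScalarTower (EF ρ) (BF ρ) Qbar := tower_algF_Qbar Z2_le_Q8

instance towerELB : IsScalarTower (EF ρ) (LF u ρ) (BF ρ) :=
  IsScalarTower.of_algebraMap_eq fun _ => rfl

instance algBM : Algebra (BF ρ) (MF ρ) := algF ρ bot_le

instance towerBM : IsScalarTower ℚ (BF ρ) (MF ρ) := tower_algF bot_le

instance towerBMQ : IsScalarTower (BF ρ) (MF ρ) Qbar := tower_algF_Qbar bot_le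

instance algLM : Algebra (LF u ρ) (MF ρ) := algF ρ bot_le

instance towerLM : IsScalarTower ℚ (LF u ρ) (MF ρ) := tower_algF bot_le

instance towerLMQ : IsScalarTower (LF u ρ) (MF ρ) Qbar := tower_algF_Qbar bot_le

instance towerLBM : IsScalarTower (LF u ρ) (BF ρ) (MF ρ) :=
  IsScalarTower.of_algebraMap_eq fun _ => rfl

variable {ρ}

omit hu in
theorem nrm_Z2 {H : Subgroup G3} : Nrm Z2 H := by
  intro g _ x hx
  rw [Z2] at hx
  obtain ⟨n, rfl⟩ := Subgroup.mem_zpowers_iff.1 hx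
  rw [← conj_zpow, mul_neg, mul_one, neg_mul, mul_inv_cancel]
  exact Subgroup.zpow_mem _ (Subgroup.mem_zpowers _) n

omit hu in
theorem nrm_bot {H : Subgroup G3} : Nrm ⊥ H := by
  intro g _ x hx
  rw [Subgroup.mem_bot] at hx ⊢
  rw [hx, mul_one, mul_inv_cancel]

theorem finrank_EL (hρ : Continuous ρ) (hs : Function.Surjective ρ) :
    finrank (EF ρ) (LF u ρ) = 2 := by
  have h := finrank_rel hρ hs (Ord4.le u)
  rw [card_Q8, Ord4.card u] at h
  change finrank (EF ρ) (LF u ρ) * 4 = 8 at h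
  omega

theorem finrank_LB (hρ : Continuous ρ) (hs : Function.Surjective ρ) :
    finrank (LF u ρ) (BF ρ) = 2 := by
  have h := finrank_rel hρ hs (Ord4.Z2_le u)
  rw [card_Z2, Ord4.card u] at h
  change finrank (LF u ρ) (BF ρ) * 2 = 4 at h
  omega

omit hu in
theorem finrank_BM (hρ : Continuous ρ) (hs : Function.Surjective ρ) :
    finrank (BF ρ) (MF ρ) = 2 := by
  have h := finrank_rel hρ hs (bot_le : ⊥ ≤ Z2)
  rw [card_Z2, Subgroup.card_bot] at h
  change finrank (BF ρ) (MF ρ) * 1 = 2 at h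
  omega

theorem isGalois_EL (hρ : Continuous ρ) : IsGalois (EF ρ) (LF u ρ) :=
  isGalois_rel hρ (Ord4.le u) (nrm_zpowers u)

theorem isGalois_LB (hρ : Continuous ρ) : IsGalois (LF u ρ) (BF ρ) :=
  isGalois_rel hρ (Ord4.Z2_le u) nrm_Z2

omit hu in
theorem isGalois_BM (hρ : Continuous ρ) : IsGalois (BF ρ) (MF ρ) :=
  isGalois_rel hρ bot_le nrm_bot

/-- the action of `τ ∈ ρ⁻¹(Q₈)` on `LF u ρ` -/
def conL (τ : Γℚ) (hτ : ρ τ ∈ Q8) : LF u ρ ≃ₐ[EF ρ] LF u ρ :=
  relF (Ord4.le u) (nrm_zpowers u) τ hτ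

theorem conL_coe (τ : Γℚ) (hτ : ρ τ ∈ Q8) (x : LF u ρ) :
    ((conL u τ hτ x : LF u ρ) : Qbar) = τ x := rfl

theorem conL_eq_one_iff (hρ : Continuous ρ) {τ : Γℚ} (hτ : ρ τ ∈ Q8) :
    conL u τ hτ = 1 ↔ ρ τ ∈ Subgroup.zpowers u :=
  relF_eq_one_iff hρ (Ord4.le u) (nrm_zpowers u) hτ

theorem exists_notMem (hs : Function.Surjective ρ) :
    ∃ τ : Γℚ, ρ τ ∈ Q8 ∧ ρ τ ∉ Subgroup.zpowers u := by
  obtain ⟨g, h1, h2⟩ := exists_notMem_zpowers u
  obtain ⟨τ, rfl⟩ := hs g
  exact ⟨τ, h1, h2⟩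

/-- embeddings extend -/
theorem exists_ext_emb {E L : Type*} [Field E] [Field L] [Algebra E L]
    [Algebra.IsAlgebraic E L] (φ : E →+* ℂ) : ∃ ψ : L →+* ℂ, ψ.comp (algebraMap E L) = φ := by
  let _ := φ.toAlgebra
  exact ⟨(IsAlgClosed.lift : L →ₐ[E] ℂ).toRingHom, (IsAlgClosed.lift : L →ₐ[E] ℂ).comp_algebraMap⟩

theorem isAlgebraic_EL (hρ : Continuous ρ) : Algebra.IsAlgebraic (EF ρ) (LF u ρ) :=
  have := finiteDimensional_rel hρ (Ord4.le u)
  inferInstance

/-- the quadratic data -/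
def qdL (hρ : Continuous ρ) (hs : Function.Surjective ρ) {τ : Γℚ} (hτ : ρ τ ∈ Q8)
    (hτ' : ρ τ ∉ Subgroup.zpowers u) : Theta.QD (EF ρ) (LF u ρ) where
  c := conL u τ hτ
  c_ne := by
    by_contra h
    exact hτ' ((conL_eq_one_iff u hρ hτ).1
      (AlgEquiv.ext fun x => not_not.1 fun hx => h ⟨x, hx⟩))
  two := finrank_EL u hρ hs
  τ v := letI := isAlgebraic_EL u hρ
    (exists_ext_emb (L := LF u ρ) v.embedding).choose
  hτ v := letI := isAlgebraic_EL u hρ
    (exists_ext_emb (L := LF u ρ) v.embedding).choose_spec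

theorem qdL_c (hρ : Continuous ρ) (hs : Function.Surjective ρ) {τ : Γℚ} (hτ : ρ τ ∈ Q8)
    (hτ' : ρ τ ∉ Subgroup.zpowers u) : (qdL u hρ hs hτ hτ').c = conL u τ hτ := rfl

end fields

end Fermat.Agent.LT.NT
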