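import Fermat.Agent.LT.T4.Dich

set_option autoImplicit false
set_option linter.unusedSectionVars false

/-!
# The split / inert dichotomy for quadratic extensions of `𝓞[1/N]`
-/

namespace Fermat.Agent.LT.NT

open NumberField Fermat.Agent.LT.T4 Fermat.Agent.LT.Theta

/-- the part of `T4D` without the character -/
structure Pre (E L : Type*) [Field E] [NumberField E] [Field L] [NumberField L]
    [Algebra E L] where
  q : QD E L
  N : ℕ
  hN : 0 < N
  pidE : IsPrincipalIdealRing (SI N E)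
  pidL : IsPrincipalIdealRing (SI N L)
  two : (2 : E)⁻¹ ∈ SI N E
  δ : L
  D : E
  D_mem : D ∈ SI N E
  D_inv : D⁻¹ ∈ SI N E
  D_ne : D ≠ 0
  δ_sq : δ ^ 2 = algebraMap E L D
  c_δ : q.c δ = -δ

namespace Pre

variable {E L : Type*} [Field E] [NumberField E] [Field L] [NumberField L] [Algebra E L]
  (T : Pre E L)

/-- the square root of `D` -/
def δS : SI T.N L := ⟨T.δ, mem_SI_of_sq (by rw [T.δ_sq]; exact incl_mem_SI T.D_mem)⟩

/-- `D` as an element of the ring -/
def DS : SI T.N E := ⟨T.D, T.D_mem⟩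

theorem δS_sq : T.δS ^ 2 = inc T.N E L T.DS := Subtype.ext T.δ_sq

theorem c_δS : cS T.N T.q T.δS = - T.δS := Subtype.ext T.c_δ

theorem isUnit_D : IsUnit T.DS :=
  IsUnit.of_mul_eq_one ⟨T.D⁻¹, T.D_inv⟩ (Subtype.ext (mul_inv_cancel₀ T.D_ne))

theorem isUnit_δS : IsUnit T.δS := by
  have h := T.isUnit_D.map (inc T.N E L)
  rw [← T.δS_sq] at h
  exact (isUnit_pow_iff two_ne_zero).1 h

theorem isUnit_twoE : IsUnit (2 : SI T.N E) :=
  IsUnit.of_mul_eq_one ⟨(2 : E)⁻¹, T.two⟩ (Subtype.ext (mul_inv_cancel₀ two_ne_zero))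

theorem isUnit_two : IsUnit (2 : SI T.N L) := by
  have h2 := T.isUnit_twoE.map (inc T.N E L)
  rwa [map_ofNat] at h2

theorem not_exists_of_prime {π : SI T.N E} (h : Prime (inc T.N E L π)) :
    ¬ ∃ x : SI T.N E, π ∣ x ^ 2 - T.DS := by
  rintro ⟨x, hx⟩
  have h1 := map_dvd (inc T.N E L) hx
  rw [map_sub, map_pow, ← T.δS_sq] at h1
  have h2 : inc T.N E L x ^ 2 - T.δS ^ 2 = (inc T.N E L x - T.δS) * (inc T.N E L x + T.δS) := by
    ring
  rw [h2] at h1
  have key : inc T.N E L π ∣ 2 * T.δS := by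
    rcases h.dvd_or_dvd h1 with h3 | h3
    · have h4 := map_dvd (cS T.N T.q) h3
      rw [cS_inc, map_sub, cS_inc, c_δS] at h4
      have h5 := dvd_sub h4 h3
      have e : inc T.N E L x - -T.δS - (inc T.N E L x - T.δS) = 2 * T.δS := by ring
      rwa [e] at h5
    · have h4 := map_dvd (cS T.N T.q) h3
      rw [cS_inc, map_add, cS_inc, c_δS] at h4
      have h5 := dvd_sub h3 h4
      have e : inc T.N E L x + T.δS - (inc T.N E L x + -T.δS) = 2 * T.δS := by ring
      rwa [e] at h5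
  exact h.not_isUnit (isUnit_of_dvd_unit key (T.isUnit_two.mul T.isUnit_δS))

/-- **primes which do not stay prime are split** -/
theorem split_of_not_prime {π : SI T.N E} (hπ : Prime π) (h : ¬ Prime (inc T.N E L π)) :
    ∃ P : SI T.N L, Prime P ∧ Associated (nS T.N E L P) π := by
  have := T.pidL
  have := T.pidE
  have hne : inc T.N E L π ≠ 0 := by
    rw [Ne, map_eq_zero_iff _ inc_injective]
    exact hπ.ne_zero
  have hnu : ¬ IsUnit (inc T.N E L π) := by
    rw [isUnit_inc_iff]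
    exact hπ.not_isUnit
  obtain ⟨P, hP, z, hz⟩ := WfDvdMonoid.exists_irreducible_factor hnu hne
  have hP' : Prime P := hP.prime
  have hz' : ¬ IsUnit z := by
    intro hu
    apply h
    rw [hz]
    exact (associated_mul_unit_left _ _ hu).symm.prime hP'
  refine ⟨P, hP', ?_⟩
  have h1 := congrArg (nS T.N E L) hz
  rw [nS_inc T.q, map_mul] at h1
  obtain ⟨i, hi, hi'⟩ := (dvd_prime_pow hπ 2).1 ⟨_, h1⟩
  have hi0 : i ≠ 0 := by
    rintro rfl
    rw [pow_zero, associated_one_iff_isUnit] at hi'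
    exact hP'.not_isUnit (isUnit_of_nS (q := T.q) hi')
  have hi2 : i ≠ 2 := by
    rintro rfl
    apply hz'
    apply isUnit_of_nS (q := T.q)
    obtain ⟨u, hu⟩ := hi'
    rw [← hu] at h1
    have h0 : nS T.N E L P ≠ 0 := by
      intro h0
      rw [h0, zero_mul] at hu
      exact pow_ne_zero 2 hπ.ne_zero hu.symm
    have h2 := mul_left_cancel₀ h0 h1
    rw [← h2]
    exact u.isUnit
  have : i = 1 := by omega
  rwa [this, pow_one] at hi'

/-- coordinates -/
theorem exists_coordS (x : SI T.N L) : ∃ a b : SI T.N E,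
    x = inc T.N E L a + inc T.N E L b * T.δS := by
  obtain ⟨t, ht⟩ := T.isUnit_twoE
  obtain ⟨d, hd⟩ := T.isUnit_D
  refine ⟨(t⁻¹ : (SI T.N E)ˣ) * tS T.q x, (t⁻¹ : (SI T.N E)ˣ) * ((d⁻¹ : (SI T.N E)ˣ) *
    tS T.q (x * T.δS)), ?_⟩
  have ht' : inc T.N E L ((t⁻¹ : (SI T.N E)ˣ) : SI T.N E) * 2 = 1 := by
    have := congrArg (inc T.N E L) t.inv_mul
    rwa [map_mul, ht, map_ofNat, map_one] at this
  have hd' : inc T.N E L ((d⁻¹ : (SI T.N E)ˣ) : SI T.N E) * T.δS ^ 2 = 1 := by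
    have := congrArg (inc T.N E L) d.inv_mul
    rwa [map_mul, hd, ← T.δS_sq, map_one] at this
  rw [map_mul, map_mul, map_mul, inc_tS, inc_tS, map_mul, T.c_δS]
  linear_combination (-x) * ht' -
    (inc T.N E L ((t⁻¹ : (SI T.N E)ˣ) : SI T.N E)) * (x - cS T.N T.q x) * hd'

/-- the existence of a square root of `D` modulo a split prime -/
theorem exists_of_split {π : SI T.N E} (hπ : Prime π) {P : SI T.N L}
    (hP : Associated (nS T.N E L P) π) : ∃ x : SI T.N E, π ∣ x ^ 2 - T.DS := by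
  have := T.pidE
  obtain ⟨a, b, hab⟩ := T.exists_coordS P
  have hn : nS T.N E L P = a ^ 2 - T.DS * b ^ 2 := by
    apply inc_injective (L := L)
    rw [inc_nS T.q, hab, map_add, map_mul, cS_inc, cS_inc, c_δS, map_sub, map_mul, map_pow,
      map_pow, ← T.δS_sq]
    ring
  have h1 : π ∣ a ^ 2 - T.DS * b ^ 2 := by rw [← hn]; exact hP.symm.dvd
  have hb : ¬ π ∣ b := by
    intro hb
    have h2 : π ∣ a ^ 2 := by
      have : a ^ 2 = (a ^ 2 - T.DS * b ^ 2) + T.DS * b ^ 2 := by ring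
      rw [this]
      exact dvd_add h1 ((hb.trans (dvd_pow_self b two_ne_zero)).mul_left _)
    have ha : π ∣ a := hπ.dvd_of_dvd_pow h2
    have h3 : π ^ 2 ∣ nS T.N E L P := by
      rw [hn]
      exact dvd_sub (pow_dvd_pow_of_dvd ha 2) ((pow_dvd_pow_of_dvd hb 2).mul_left _)
    have h4 : π ^ 2 ∣ π := h3.trans hP.dvd
    have h5 : π * π ∣ π * 1 := by rw [mul_one, ← pow_two]; exact h4
    exact hπ.not_isUnit (isUnit_of_dvd_one ((mul_dvd_mul_iff_left hπ.ne_zero).1 h5))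
  obtain ⟨s, t, hst⟩ := (hπ.irreducible.coprime_iff_not_dvd.2 hb)
  refine ⟨a * t, ?_⟩
  obtain ⟨z, hz⟩ := h1
  refine ⟨t ^ 2 * z - T.DS * s * (t * b + 1), ?_⟩
  have e : t * b = 1 - s * π := by linear_combination hst
  linear_combination t ^ 2 * hz + T.DS * (t * b + 1) * e

/-- **dichotomy** -/
theorem prime_of_not_exists {π : SI T.N E} (hπ : Prime π)
    (h : ¬ ∃ x : SI T.N E, π ∣ x ^ 2 - T.DS) : Prime (inc T.N E L π) := by
  by_contra hcon
  obtain ⟨P, -, hP'⟩ := T.split_of_not_prime hπ hcon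
  exact h (T.exists_of_split hπ hP')

end Pre

end Fermat.Agent.LT.NT
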