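import Fermat.Agent.LT.NT.SIN
import Fermat.Agent.CFT.GalPlaces

set_option autoImplicit false
set_option linter.unusedSectionVars false

/-!
# Primes of `𝓞_K[1/N]` and places of `K`
-/

namespace Fermat.Agent.LT.NT

open NumberField Fermat.Agent.LT.T4 nonZeroDivisors Module IsDedekindDomain
open Fermat.Agent.CFT

section

variable {K : Type*} [Field K] [NumberField K]

/-- places prime to `N` -/
def GoodV (N : ℕ) (v : HeightOneSpectrum (𝓞 K)) : Prop := (N : 𝓞 K) ∉ v.asIdeal

theorem ordH_nonneg {v : HeightOneSpectrum (𝓞 K)} {x : Kˣ} (h : v.valuation K (x : K) ≤ 1) :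
    0 ≤ ordH K v (Additive.ofMul x) := by
  rw [valuation_eq_exp, ← WithZero.exp_zero, WithZero.exp_le_exp] at h
  omega

theorem ordH_pos_iff {v : HeightOneSpectrum (𝓞 K)} {x : Kˣ} :
    0 < ordH K v (Additive.ofMul x) ↔ v.valuation K (x : K) < 1 := by
  rw [valuation_eq_exp, ← WithZero.exp_zero, WithZero.exp_lt_exp]
  omega

theorem val_le_one_of_int {v : HeightOneSpectrum (𝓞 K)} {x : K} (h : IsIntegral ℤ x) :
    v.valuation K x ≤ 1 :=
  v.valuation_le_one (⟨x, h⟩ : 𝓞 K)

theorem val_nat_eq_one {N : ℕ} {v : HeightOneSpectrum (𝓞 K)} (h : GoodV N v) :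
    v.valuation K (N : K) = 1 := by
  apply le_antisymm (val_le_one_of_int (isIntegral_natCast' N))
  by_contra hlt
  rw [not_le] at hlt
  apply h
  have h1 : v.valuation K (algebraMap (𝓞 K) K (N : 𝓞 K)) < 1 := by
    rw [map_natCast]; exact hlt
  exact (v.valuation_lt_one_iff_mem _).1 h1

theorem val_nat_lt_one {N : ℕ} {v : HeightOneSpectrum (𝓞 K)} (h : ¬ GoodV N v) :
    v.valuation K (N : K) < 1 := by
  rw [GoodV, not_not] at h
  have h1 := (v.valuation_lt_one_iff_mem (K := K) (N : 𝓞 K)).2 h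
  change v.valuation K (algebraMap (𝓞 K) K (N : 𝓞 K)) < 1 at h1
  rwa [map_natCast] at h1

theorem val_le_one_of_SI {N : ℕ} {v : HeightOneSpectrum (𝓞 K)} (hv : GoodV N v) {x : K}
    (h : x ∈ SI N K) : v.valuation K x ≤ 1 := by
  obtain ⟨k, hk⟩ := h
  have h1 := val_le_one_of_int (v := v) hk
  rwa [map_mul, map_pow, val_nat_eq_one hv, one_pow, one_mul] at h1

theorem ordH_nonneg_of_SI {N : ℕ} {v : HeightOneSpectrum (𝓞 K)} (hv : GoodV N v) {x : Kˣ}
    (h : (x : K) ∈ SI N K) : 0 ≤ ordH K v (Additive.ofMul x) :=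
  ordH_nonneg (val_le_one_of_SI hv h)

theorem mem_SI_of_ordH {N : ℕ} (hN : 0 < N) {x : Kˣ}
    (h : ∀ v, GoodV N v → 0 ≤ ordH K v (Additive.ofMul x)) : (x : K) ∈ SI N K := by
  classical
  have hfin := finite_ordH_ne_zero (Additive.ofMul x)
  let k : ℕ := ∑ v ∈ hfin.toFinset, (-(ordH K v (Additive.ofMul x))).toNat
  have hNK : (N : K) ≠ 0 := by exact_mod_cast hN.ne'
  refine ⟨k, ?_⟩
  have hval : ∀ v : HeightOneSpectrum (𝓞 K), v.valuation K ((N : K) ^ k * (x : K)) ≤ 1 := by
    intro v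
    by_cases hv : GoodV N v
    · rw [map_mul, map_pow, val_nat_eq_one hv, one_pow, one_mul, valuation_eq_exp,
        ← WithZero.exp_zero, WithZero.exp_le_exp]
      have := h v hv
      omega
    · have h1 := val_nat_lt_one hv
      have h2 : v.valuation K (N : K) ≤ WithZero.exp (-1 : ℤ) := by
        let y : Kˣ := Units.mk0 (N : K) hNK
        have h3 : v.valuation K (y : K) < 1 := h1
        change v.valuation K (y : K) ≤ _
        rw [← ordH_pos_iff] at h3
        rw [valuation_eq_exp, WithZero.exp_le_exp]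
        omega
      rw [map_mul, map_pow]
      have h4 : v.valuation K (N : K) ^ k ≤ WithZero.exp (-(k : ℤ)) := by
        calc v.valuation K (N : K) ^ k ≤ (WithZero.exp (-1 : ℤ)) ^ k :=
              pow_le_pow_left₀ zero_le h2 k
          _ = WithZero.exp (-(k : ℤ)) := by
              rw [← WithZero.exp_nsmul]; congr 1; simp
      calc v.valuation K (N : K) ^ k * v.valuation K (x : K)
          ≤ WithZero.exp (-(k : ℤ)) * v.valuation K (x : K) := by gcongr
        _ ≤ 1 := by
          rw [valuation_eq_exp, ← WithZero.exp_add, ← WithZero.exp_zero, WithZero.exp_le_exp]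
          by_cases h0 : ordH K v (Additive.ofMul x) = 0
          · rw [h0]; omega
          · have h5 : v ∈ hfin.toFinset := by rw [Set.Finite.mem_toFinset]; exact h0
            have h6 : (-(ordH K v (Additive.ofMul x))).toNat ≤ k :=
              Finset.single_le_sum (f := fun v => (-(ordH K v (Additive.ofMul x))).toNat)
                (fun _ _ => Nat.zero_le _) h5
            omega
  obtain ⟨a, ha⟩ := HeightOneSpectrum.mem_integers_of_valuation_le_one K _ hval
  rw [← ha]
  exact a.2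

theorem mem_SI_iff_ordH {N : ℕ} (hN : 0 < N) {x : Kˣ} :
    (x : K) ∈ SI N K ↔ ∀ v, GoodV N v → 0 ≤ ordH K v (Additive.ofMul x) :=
  ⟨fun h _ hv => ordH_nonneg_of_SI hv h, mem_SI_of_ordH hN⟩

/-- the prime ideal of `𝓞_K[1/N]` of a good place -/
def idV {N : ℕ} (v : HeightOneSpectrum (𝓞 K)) (hv : GoodV N v) : Ideal (SI N K) where
  carrier := {y | v.valuation K (y : K) < 1}
  add_mem' := by
    intro a b ha hb
    change v.valuation K ((a : K) + (b : K)) < 1
    exact (Valuation.map_add _ _ _).trans_lt (max_lt ha hb)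
  zero_mem' := by
    change v.valuation K (0 : K) < 1
    rw [map_zero]; exact zero_lt_one
  smul_mem' := by
    intro a b hb
    change v.valuation K ((a : K) * (b : K)) < 1
    rw [map_mul]
    exact (mul_le_of_le_one_left' (val_le_one_of_SI hv a.2)).trans_lt hb

/-- the valuation is additive -/
theorem ordH_mul (v : HeightOneSpectrum (𝓞 K)) (x y : Kˣ) :
    ordH K v (Additive.ofMul (x * y)) = ordH K v (Additive.ofMul x) +
      ordH K v (Additive.ofMul y) := by
  rw [ofMul_mul, map_add]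

/-- **generators of the primes of `𝓞_K[1/N]`** -/
theorem exists_genV {N : ℕ} (hpid : IsPrincipalIdealRing (SI N K))
    {v : HeightOneSpectrum (𝓞 K)} (hv : GoodV N v) :
    ∃ x : Kˣ, (x : K) ∈ SI N K ∧ ordH K v (Additive.ofMul x) = 1 ∧
      ∀ w ≠ v, GoodV N w → ordH K w (Additive.ofMul x) = 0 := by
  obtain ⟨x, hx⟩ := hpid.principal (idV v hv)
  rw [Ideal.submodule_span_eq] at hx
  -- integral elements of `v`
  have key : ∀ y : 𝓞 K, y ∈ v.asIdeal → x ∣ OtoSI K N y := by
    intro y hy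
    rw [← Ideal.mem_span_singleton, ← hx]
    exact (v.valuation_lt_one_iff_mem y).2 hy
  have hxv : v.valuation K (x : K) < 1 := by
    have : x ∈ idV v hv := by rw [hx]; exact Ideal.mem_span_singleton_self x
    exact this
  have hx0 : (x : K) ≠ 0 := by
    intro h0
    obtain ⟨y, hy, hy0⟩ := Submodule.exists_mem_ne_zero_of_ne_bot v.ne_bot
    obtain ⟨z, hz⟩ := key y hy
    have h1 : (y : K) = (x : K) * z := congrArg Subtype.val hz
    rw [h0, zero_mul] at h1
    exact hy0 (RingOfIntegers.ext h1)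
  let X : Kˣ := Units.mk0 (x : K) hx0
  -- comparison
  have cmp : ∀ (y : 𝓞 K) (hy : y ∈ v.asIdeal) (Y : Kˣ) (hY : (Y : K) = y) (w),
      GoodV N w → ordH K w (Additive.ofMul X) ≤ ordH K w (Additive.ofMul Y) := by
    intro y hy Y hY w hw
    obtain ⟨z, hz⟩ := key y hy
    have h1 : (Y : K) = (x : K) * z := by rw [hY]; exact congrArg Subtype.val hz
    have hz0 : (z : K) ≠ 0 := by
      intro h0
      rw [h0, mul_zero] at h1
      exact Y.ne_zero h1
    have h2 : Y = X * Units.mk0 (z : K) hz0 := Units.ext h1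
    rw [h2, ordH_mul]
    have := ordH_nonneg_of_SI hw (x := Units.mk0 (z : K) hz0) z.2
    omega
  refine ⟨X, x.2, ?_, ?_⟩
  · have h1 : 0 < ordH K v (Additive.ofMul X) := ordH_pos_iff.2 hxv
    obtain ⟨y, hy⟩ := v.intValuation_exists_uniformizer
    have hy0 : (y : K) ≠ 0 := by
      intro h0
      have : y = 0 := RingOfIntegers.ext h0
      rw [this, map_zero] at hy
      exact (WithZero.exp_ne_zero hy.symm)
    have hyv : ordH K v (Additive.ofMul (Units.mk0 (y : K) hy0)) = 1 := by
      rw [ordH_eq_iff]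
      exact (v.valuation_of_algebraMap y).trans hy
    have hym : y ∈ v.asIdeal := by
      apply (v.valuation_lt_one_iff_mem (K := K) y).1
      rw [v.valuation_of_algebraMap, hy, ← WithZero.exp_zero, WithZero.exp_lt_exp]
      norm_num
    have := cmp y hym (Units.mk0 (y : K) hy0) rfl v hv
    omega
  · intro w hw hwN
    have h1 : 0 ≤ ordH K w (Additive.ofMul X) := ordH_nonneg_of_SI hwN x.2
    have h2 : ¬ v.asIdeal ≤ w.asIdeal := by
      intro hle
      have := v.isMaximal.eq_of_le w.isPrime.ne_top hle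
      exact hw (HeightOneSpectrum.ext this.symm)
    obtain ⟨y, hy, hyw⟩ := SetLike.not_le_iff_exists.1 h2
    have hy0 : (y : K) ≠ 0 := by
      intro h0
      apply hyw
      have : y = 0 := RingOfIntegers.ext h0
      rw [this]; exact zero_mem _
    have h3 := cmp y hy (Units.mk0 (y : K) hy0) rfl w hwN
    have h4 : ordH K w (Additive.ofMul (Units.mk0 (y : K) hy0)) = 0 := by
      have h5 : ¬ 0 < ordH K w (Additive.ofMul (Units.mk0 (y : K) hy0)) := by
        rw [ordH_pos_iff]
        exact fun h6 => hyw ((w.valuation_lt_one_iff_mem y).1 h6)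
      have h6 : 0 ≤ ordH K w (Additive.ofMul (Units.mk0 (y : K) hy0)) :=
        ordH_nonneg (val_le_one_of_int y.2)
      omega
    omega

/-- **the place of a prime element of `𝓞_K[1/N]`** -/
theorem exists_place_of_prime {N : ℕ} (hN : 0 < N) (hpid : IsPrincipalIdealRing (SI N K))
    {P : SI N K} (hP : Prime P) {X : Kˣ} (hX : (X : K) = P) :
    ∃ v, GoodV N v ∧ ordH K v (Additive.ofMul X) = 1 ∧
      ∀ w ≠ v, GoodV N w → ordH K w (Additive.ofMul X) = 0 := by
  have h1 : ∃ v, GoodV N v ∧ 0 < ordH K v (Additive.ofMul X) := by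
    by_contra hcon
    push Not at hcon
    apply hP.not_isUnit
    have h2 : ((X⁻¹ : Kˣ) : K) ∈ SI N K := by
      apply mem_SI_of_ordH hN
      intro v hv
      have := hcon v hv
      have e : ordH K v (Additive.ofMul X⁻¹) = -ordH K v (Additive.ofMul X) := by
        rw [ofMul_inv, map_neg]
      omega
    refine IsUnit.of_mul_eq_one ⟨_, h2⟩ (Subtype.ext ?_)
    change (P : K) * ((X⁻¹ : Kˣ) : K) = 1
    rw [← hX, Units.mul_inv]
  obtain ⟨v, hv, hv0⟩ := h1
  obtain ⟨x, hx, hxv, hxw⟩ := exists_genV hpid hv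
  have h2 : ((X * x⁻¹ : Kˣ) : K) ∈ SI N K := by
    apply mem_SI_of_ordH hN
    intro w hw
    rw [ordH_mul, ofMul_inv, map_neg]
    by_cases h : w = v
    · subst h; omega
    · rw [hxw w h hw]
      have := ordH_nonneg_of_SI hw (x := X) (by rw [hX]; exact P.2)
      omega
  -- `P = x * (P / x)`
  have h3 : P = ⟨_, hx⟩ * ⟨_, h2⟩ := by
    apply Subtype.ext
    change (P : K) = (x : K) * ((X * x⁻¹ : Kˣ) : K)
    rw [← hX, ← Units.val_mul, mul_comm x, inv_mul_cancel_right]
  have hnx : ¬ IsUnit (⟨(x : K), hx⟩ : SI N K) := by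
    intro hu
    obtain ⟨y, hy⟩ := hu.exists_right_inv
    have hy' : (x : K) * (y : K) = 1 := congrArg Subtype.val hy
    have hy0 : (y : K) ≠ 0 := by
      intro h0; rw [h0, mul_zero] at hy'; exact zero_ne_one hy'
    have e : x * Units.mk0 (y : K) hy0 = 1 := Units.ext hy'
    have e2 := ordH_mul v x (Units.mk0 (y : K) hy0)
    rw [e, ofMul_one, map_zero, hxv] at e2
    have := ordH_nonneg_of_SI hv (x := Units.mk0 (y : K) hy0) y.2
    omega
  have hu2 : IsUnit (⟨((X * x⁻¹ : Kˣ) : K), h2⟩ : SI N K) :=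
    (hP.irreducible.isUnit_or_isUnit h3).resolve_left hnx
  obtain ⟨y, hy⟩ := hu2.exists_right_inv
  have hy' : ((X * x⁻¹ : Kˣ) : K) * (y : K) = 1 := congrArg Subtype.val hy
  have hy0 : (y : K) ≠ 0 := by
    intro h0; rw [h0, mul_zero] at hy'; exact zero_ne_one hy'
  have e : X * x⁻¹ * Units.mk0 (y : K) hy0 = 1 := Units.ext hy'
  have h5 : ∀ w, GoodV N w → ordH K w (Additive.ofMul X) = ordH K w (Additive.ofMul x) := by
    intro w hw
    have e2 := ordH_mul w (X * x⁻¹) (Units.mk0 (y : K) hy0)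
    rw [e, ofMul_one, map_zero, ordH_mul, ofMul_inv, map_neg] at e2
    have h6 := ordH_nonneg_of_SI hw (x := Units.mk0 (y : K) hy0) y.2
    have h7 := ordH_nonneg_of_SI hw h2
    rw [ordH_mul, ofMul_inv, map_neg] at h7
    omega
  exact ⟨v, hv, by rw [h5 v hv, hxv], fun w hw hwN => by rw [h5 w hwN, hxw w hw hwN]⟩

end

end Fermat.Agent.LT.NT
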