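import Fermat.Agent.LT.NT.PsiOut
import Fermat.Agent.LT.NT.SPl

set_option autoImplicit false
set_option linter.unusedSectionVars false

/-!
# The multiplicative function attached to the quartic character
-/

noncomputable section

namespace Fermat.Agent.LT.NT

open Matrix Fermat.Agent.LTEnd NumberField Module WeierstrassCurve IsDedekindDomain
open Fermat.Agent.CFT Fermat.Agent.LT.T4
open scoped MatrixGroups Pointwise

section gen

variable {K : Type*} [Field K] [NumberField K]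

open Classical in
/-- the exponent function -/
def expV (N : ℕ) (ψ : HeightOneSpectrum (𝓞 K) → ℂˣ) (x : Kˣ) (w : HeightOneSpectrum (𝓞 K)) : ℂˣ :=
  if GoodV N w then ψ w ^ (ordH K w (Additive.ofMul x)) else 1

theorem expV_support (N : ℕ) (ψ : HeightOneSpectrum (𝓞 K) → ℂˣ) (x : Kˣ) :
    (Function.mulSupport (expV N ψ x)).Finite := by
  refine (finite_ordH_ne_zero (Additive.ofMul x)).subset fun w hw => ?_
  rw [Function.mem_mulSupport] at hw
  intro h0
  apply hw
  rw [expV, h0, zpow_zero, ite_self]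

/-- the multiplicative function attached to values at the good primes -/
def mulV (N : ℕ) (ψ : HeightOneSpectrum (𝓞 K) → ℂˣ) : Kˣ →* ℂˣ where
  toFun x := ∏ᶠ w, expV N ψ x w
  map_one' := by
    apply finprod_eq_one_of_forall_eq_one
    intro w
    rw [expV, ofMul_one, map_zero, zpow_zero, ite_self]
  map_mul' x y := by
    rw [← finprod_mul_distrib (expV_support N ψ x) (expV_support N ψ y)]
    refine finprod_congr fun w => ?_
    rw [expV, expV, expV]
    split_ifs
    · rw [ordH_mul, _root_.zpow_add]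
    · rw [mul_one]

theorem mulV_apply (N : ℕ) (ψ : HeightOneSpectrum (𝓞 K) → ℂˣ) (x : Kˣ) :
    mulV N ψ x = ∏ᶠ w, expV N ψ x w := rfl

theorem mulV_eq_one {N : ℕ} {ψ : HeightOneSpectrum (𝓞 K) → ℂˣ} {x : Kˣ}
    (h : ∀ w, GoodV N w → ordH K w (Additive.ofMul x) = 0) : mulV N ψ x = 1 := by
  rw [mulV_apply]
  apply finprod_eq_one_of_forall_eq_one
  intro w
  rw [expV]
  split_ifs with hw
  · rw [h w hw, zpow_zero]
  · rfl

theorem mulV_single {N : ℕ} {ψ : HeightOneSpectrum (𝓞 K) → ℂˣ} {x : Kˣ}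
    {w : HeightOneSpectrum (𝓞 K)} (hw : GoodV N w) (h1 : ordH K w (Additive.ofMul x) = 1)
    (h : ∀ w' ≠ w, GoodV N w' → ordH K w' (Additive.ofMul x) = 0) : mulV N ψ x = ψ w := by
  rw [mulV_apply, finprod_eq_single _ w]
  · rw [expV, if_pos hw, h1, zpow_one]
  · intro w' hw'
    rw [expV]
    split_ifs with h2
    · rw [h w' hw' h2, zpow_zero]
    · rfl

theorem mulV_unit {N : ℕ} {ψ : HeightOneSpectrum (𝓞 K) → ℂˣ} {x : Kˣ}
    (h : (x : K) ∈ SI N K) (h' : ((x⁻¹ : Kˣ) : K) ∈ SI N K) : mulV N ψ x = 1 := by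
  apply mulV_eq_one
  intro w hw
  have h1 := ordH_nonneg_of_SI hw h
  have h2 := ordH_nonneg_of_SI hw h'
  rw [ofMul_inv, map_neg] at h2
  omega

theorem norm_mulV {N : ℕ} {ψ : HeightOneSpectrum (𝓞 K) → ℂˣ}
    (h : ∀ w, GoodV N w → ‖((ψ w : ℂˣ) : ℂ)‖ = 1) (x : Kˣ) :
    ‖((mulV N ψ x : ℂˣ) : ℂ)‖ = 1 := by
  rw [mulV_apply]
  apply finprod_induction (fun z : ℂˣ => ‖(z : ℂ)‖ = 1)
  · simp
  · intro a b ha hb
    rw [Units.val_mul, norm_mul, ha, hb, mul_one]
  · intro w
    rw [expV]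
    split_ifs with hw
    · rw [Units.val_zpow_eq_zpow_val, norm_zpow, h w hw, _root_.one_zpow]
    · simp

/-- the extension by zero -/
def mulZ (N : ℕ) (ψ : HeightOneSpectrum (𝓞 K) → ℂˣ) : K →*₀ ℂ where
  toFun x := by
    classical
    exact if h : x = 0 then 0 else ((mulV N ψ (Units.mk0 x h) : ℂˣ) : ℂ)
  map_zero' := dif_pos rfl
  map_one' := by
    rw [dif_neg one_ne_zero]
    have : Units.mk0 (1 : K) one_ne_zero = 1 := Units.ext rfl
    rw [this, map_one, Units.val_one]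
  map_mul' x y := by
    by_cases hx : x = 0
    · rw [dif_pos (by rw [hx, zero_mul]), dif_pos hx, zero_mul]
    by_cases hy : y = 0
    · rw [dif_pos (by rw [hy, mul_zero]), dif_pos hy, mul_zero]
    rw [dif_neg (mul_ne_zero hx hy), dif_neg hx, dif_neg hy, ← Units.val_mul, ← map_mul]
    congr 2
    exact Units.ext rfl

theorem mulZ_apply (N : ℕ) (ψ : HeightOneSpectrum (𝓞 K) → ℂˣ) {x : K} (h : x ≠ 0) :
    mulZ N ψ x = ((mulV N ψ (Units.mk0 x h) : ℂˣ) : ℂ) := dif_neg h

/-- congruence -/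
theorem near_of_LI {N : ℕ} (hN : 0 < N) {k : ℕ} {w : HeightOneSpectrum (𝓞 K)} (hw : ¬ GoodV N w)
    {y : K} (hy : y ∈ LI N K) : Psi.Near w k (1 + (N : K) ^ k * y) := by
  have hNK : (N : K) ≠ 0 := by exact_mod_cast hN.ne'
  have h2 : w.valuation K (N : K) ≤ WithZero.exp (-1 : ℤ) := by
    let z : Kˣ := Units.mk0 (N : K) hNK
    have h3 : w.valuation K (z : K) < 1 := val_nat_lt_one hw
    change w.valuation K (z : K) ≤ _
    rw [← ordH_pos_iff] at h3
    rw [valuation_eq_exp, WithZero.exp_le_exp]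
    omega
  have hy1 : w.valuation K y ≤ 1 := by
    obtain ⟨m, hm, hmy⟩ := hy
    have h3 := val_le_one_of_int (v := w) hmy
    have h4 : GoodV m w := by
      intro h5
      rw [GoodV, not_not] at hw
      apply w.isPrime.ne_top
      rw [Ideal.eq_top_iff_one]
      obtain ⟨a, b, hab⟩ := Nat.isCoprime_iff_coprime.2 hm
      have h6 : (1 : 𝓞 K) = (a : 𝓞 K) * (m : 𝓞 K) + (b : 𝓞 K) * (N : 𝓞 K) := by
        have := congrArg (fun z : ℤ => (z : 𝓞 K)) hab
        push_cast at this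
        exact this.symm
      rw [h6]
      exact add_mem (Ideal.mul_mem_left _ _ h5) (Ideal.mul_mem_left _ _ hw)
    rwa [map_mul, val_nat_eq_one h4, one_mul] at h3
  rw [Psi.Near, add_sub_cancel_left, map_mul, map_pow]
  calc w.valuation K (N : K) ^ k * w.valuation K y
      ≤ (WithZero.exp (-1 : ℤ)) ^ k * 1 := by gcongr
    _ = WithZero.exp (-(k : ℤ)) := by
        rw [mul_one, ← WithZero.exp_nsmul]; congr 1; simp

end gen

section gal

variable {L M : Type*} [Field L] [NumberField L] [Field M] [NumberField M] [Algebra L M]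

theorem placeSmul_mul (g h : Gal(M/L)) (w : HeightOneSpectrum (𝓞 M)) :
    placeSmul (g * h) w = placeSmul g (placeSmul h w) :=
  HeightOneSpectrum.ext (mul_smul g h w.asIdeal)

theorem placeSmul_one (w : HeightOneSpectrum (𝓞 M)) : placeSmul (1 : Gal(M/L)) w = w :=
  HeightOneSpectrum.ext (one_smul _ w.asIdeal)

/-- the permutation of the places -/
def placeEquiv (g : Gal(M/L)) : HeightOneSpectrum (𝓞 M) ≃ HeightOneSpectrum (𝓞 M) where
  toFun := placeSmul g
  invFun := placeSmul g⁻¹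
  left_inv w := by rw [← placeSmul_mul, inv_mul_cancel, placeSmul_one]
  right_inv w := by rw [← placeSmul_mul, mul_inv_cancel, placeSmul_one]

theorem mem_placeSmul {g : Gal(M/L)} {w : HeightOneSpectrum (𝓞 M)} {x : 𝓞 M} :
    x ∈ (placeSmul g w).asIdeal ↔ g⁻¹ • x ∈ w.asIdeal := by
  change x ∈ g • w.asIdeal ↔ _
  rw [Ideal.mem_pointwise_smul_iff_inv_smul_mem]

theorem goodV_placeSmul {N : ℕ} {g : Gal(M/L)} {w : HeightOneSpectrum (𝓞 M)} :
    GoodV N (placeSmul g w) ↔ GoodV N w := by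
  rw [GoodV, GoodV, mem_placeSmul]
  have h : g⁻¹ • (N : 𝓞 M) = N := by
    apply RingOfIntegers.ext
    change g⁻¹ (algebraMap (𝓞 M) M (N : 𝓞 M)) = algebraMap (𝓞 M) M (N : 𝓞 M)
    rw [map_natCast, map_natCast]
  rw [h]

theorem mulV_gal (N : ℕ) (ψ : HeightOneSpectrum (𝓞 M) → ℂˣ) (g : Gal(M/L)) (x : Mˣ) :
    mulV N ψ (Units.map (g : M →* M) x) = mulV N (fun w => ψ (placeSmul g w)) x := by
  rw [mulV_apply, mulV_apply, ← finprod_comp_equiv (placeEquiv g)]
  refine finprod_congr fun w => ?_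
  change expV N ψ (Units.map (g : M →* M) x) (placeSmul g w) = _
  rw [expV, expV]
  by_cases hw : GoodV N w
  · rw [if_pos (goodV_placeSmul.2 hw), if_pos hw, ← sg_apply, ordH_sg]
  · rw [if_neg (fun h => hw (goodV_placeSmul.1 h)), if_neg hw]

theorem goodV_under {N : ℕ} {w : HeightOneSpectrum (𝓞 M)} : GoodV N (under L w) ↔ GoodV N w := by
  rw [GoodV, GoodV]
  have h : (N : 𝓞 L) ∈ (under L w).asIdeal ↔ (N : 𝓞 M) ∈ w.asIdeal := by
    change (N : 𝓞 L) ∈ w.asIdeal.under (𝓞 L) ↔ _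
    rw [Ideal.mem_comap, map_natCast]
  rw [h]

end gal

end Fermat.Agent.LT.NT
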