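import Fermat.Agent.LT.NT.LU
import Fermat.Agent.LT.NT.Inst
import Fermat.Agent.LT.Psi.Near
import Fermat.Agent.CFT.GalPlaces

set_option autoImplicit false

/-!
# The quartic character attached to `u ∈ Q₈`: the output of the block PSI
-/

noncomputable section

namespace Fermat.Agent.LT.NT

open Matrix Fermat.Agent.LTEnd NumberField Module WeierstrassCurve IsDedekindDomain
open Fermat.Agent.CFT (ordH placeSmul)
open scoped MatrixGroups

local notation "Qbar" => AlgebraicClosure ℚ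
local notation "Γℚ" => (AlgebraicClosure ℚ ≃ₐ[ℚ] AlgebraicClosure ℚ)
local notation "G3" => GL (Fin 2) (ZMod 3)

open Classical in
/-- **The output of PSI**: a quartic Hecke character `ψ` of `LF u ρ`, given by its values at the
primes outside `S`. -/
structure PsiOut (ρ : Γℚ →* G3) (u : G3) [hu : Ord4 u] [NumberField (EF ρ)]
    [NumberField (LF u ρ)] where
  ψ : HeightOneSpectrum (𝓞 (LF u ρ)) → ℂˣ
  S : Finset (HeightOneSpectrum (𝓞 (LF u ρ)))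
  k : ℕ
  recip : ∀ x : (LF u ρ)ˣ, (∀ w ∈ S, Psi.Near w k (x : LF u ρ)) →
    ∏ᶠ w : HeightOneSpectrum (𝓞 (LF u ρ)),
      (if w ∈ S then 1 else ψ w ^ (ordH (LF u ρ) w (Additive.ofMul x))) = 1
  one : ∀ w ∉ S, ∀ A φ, IsFrobV (LF u ρ) w A φ → ρ φ = 1 → ψ w = 1
  neg : ∀ w ∉ S, ∀ A φ, IsFrobV (LF u ρ) w A φ → ρ φ = -1 → ψ w = -1
  four : ∀ w ∉ S, ∀ A φ, IsFrobV (LF u ρ) w A φ → ρ φ ≠ 1 → ρ φ ≠ -1 → ψ w ^ 2 = -1
  conj : ∀ c : Gal(LF u ρ/EF ρ), c ≠ 1 → ∀ w ∉ S, ψ w * ψ (placeSmul c w) = 1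

end Fermat.Agent.LT.NT
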