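import Fermat.Agent.LT.NT.LU

set_option autoImplicit false

/-!
# The two quadratic characters of `Q₈` attached to `u`
-/

noncomputable section

namespace Fermat.Agent.LT.NT

open Matrix Fermat.Agent.LTEnd
open scoped MatrixGroups

local notation "G3" => GL (Fin 2) (ZMod 3)
local notation "M3" => Matrix (Fin 2) (Fin 2) (ZMod 3)

open Classical in
/-- the character of `Q₈` with kernel `⟨u⟩` -/
def qch (u : G3) (g : G3) : ZMod 2 := if g ∈ Subgroup.zpowers u then 0 else 1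

theorem qch_eq_zero_iff (u g : G3) : qch u g = 0 ↔ g ∈ Subgroup.zpowers u := by
  classical
  rw [qch]
  split_ifs with h
  · exact ⟨fun _ => h, fun _ => rfl⟩
  · exact ⟨fun h1 => absurd h1 (by decide), fun h1 => absurd h1 h⟩

theorem qch_eq_one_iff (u g : G3) : qch u g = 1 ↔ g ∉ Subgroup.zpowers u := by
  rw [← qch_eq_zero_iff]
  generalize qch u g = s
  revert s
  decide

theorem index_zpowers_subgroupOf (u : G3) [Ord4 u] :
    ((Subgroup.zpowers u).subgroupOf Q8).index = 2 := by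
  have h1 := ((Subgroup.zpowers u).subgroupOf Q8).index_mul_card
  have h2 : Nat.card ((Subgroup.zpowers u).subgroupOf Q8) = Nat.card (Subgroup.zpowers u) :=
    Nat.card_congr (Subgroup.subgroupOfEquivOfLe (Ord4.le u)).toEquiv
  rw [h2, Ord4.card u, card_Q8] at h1
  omega

theorem qch_mul (u : G3) [Ord4 u] {g h : G3} (hg : g ∈ Q8) (hh : h ∈ Q8) :
    qch u (g * h) = qch u g + qch u h := by
  have key : g * h ∈ Subgroup.zpowers u ↔ (g ∈ Subgroup.zpowers u ↔ h ∈ Subgroup.zpowers u) := by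
    have h1 := Subgroup.mul_mem_iff_of_index_two (index_zpowers_subgroupOf u) (a := ⟨g, hg⟩)
      (b := ⟨h, hh⟩)
    simpa only [Subgroup.mem_subgroupOf, Subgroup.coe_mul] using h1
  rw [← qch_eq_zero_iff, ← qch_eq_zero_iff, ← qch_eq_zero_iff] at key
  generalize qch u (g * h) = r at key
  generalize qch u g = s at key
  generalize qch u h = t at key
  revert r s t
  decide

/-- elements of `Q₈` outside `⟨u⟩` have order four -/
theorem ord4_of_notMem (u : G3) [Ord4 u] {g : G3} (hg : g ∈ Q8) (h : g ∉ Subgroup.zpowers u) :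
    Ord4 g where
  mem := hg
  ne_one := by rintro rfl; exact h (one_mem _)
  ne_neg := by rintro rfl; exact h (neg_one_mem_zpowers u)

theorem notMem_symm (u v : G3) [Ord4 u] [Ord4 v] (h : v ∉ Subgroup.zpowers u) :
    u ∉ Subgroup.zpowers v := by
  intro hu
  have h1 : Subgroup.zpowers u ≤ Subgroup.zpowers v := by
    rw [Subgroup.zpowers_le]; exact hu
  have h2 : Subgroup.zpowers u = Subgroup.zpowers v :=
    Subgroup.eq_of_le_of_card_ge h1 (by rw [Ord4.card u, Ord4.card v])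
  apply h
  rw [h2]
  exact Subgroup.mem_zpowers v

theorem inter_zpowers (u v : G3) [Ord4 u] [Ord4 v] (h : v ∉ Subgroup.zpowers u) {g : G3}
    (hg : g ∈ Subgroup.zpowers u) (hg' : g ∈ Subgroup.zpowers v) : g = 1 ∨ g = -1 := by
  have h1 := notMem_symm u v h
  rcases Ord4.mem_cases u hg with rfl | rfl | rfl | rfl
  · exact Or.inl rfl
  · exact absurd hg' h1
  · exact Or.inr rfl
  · exfalso
    apply h1
    have := mul_mem (neg_one_mem_zpowers v) hg'
    rwa [neg_one_mul, neg_neg] at this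

/-- **The characters of `Q₈`.** -/
theorem exists_qchars (u : G3) [Ord4 u] : ∃ u' : G3, Ord4 u' ∧ u' ∉ Subgroup.zpowers u ∧
    (∀ g ∈ Q8, ∀ h ∈ Q8, qch u (g * h) = qch u g + qch u h) ∧
    (∀ g ∈ Q8, ∀ h ∈ Q8, qch u' (g * h) = qch u' g + qch u' h) ∧
    (∀ g, qch u g = 0 ↔ g ∈ Subgroup.zpowers u) ∧
    (∀ g ∈ Q8, qch u g = 0 → qch u' g = 0 → g = 1 ∨ g = -1) ∧
    (∀ g ∈ Q8, ¬ (qch u g = 0 ∧ qch u' g = 0) → g * g = -1) ∧
    (∀ s t : ZMod 2, ∃ g ∈ Q8, qch u g = s ∧ qch u' g = t) := by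
  obtain ⟨v, hv, hv'⟩ := exists_notMem_zpowers u
  have h4 : Ord4 v := ord4_of_notMem u hv hv'
  have huv := notMem_symm u v hv'
  refine ⟨v, h4, hv', fun g hg h hh => qch_mul u hg hh, fun g hg h hh => qch_mul v hg hh,
    qch_eq_zero_iff u, fun g _ h1 h2 => ?_, fun g hg h1 => ?_, fun s t => ?_⟩
  · rw [qch_eq_zero_iff] at h1 h2
    exact inter_zpowers u v hv' h1 h2
  · rw [← pow_two]
    refine sq_eq_neg_one hg ?_ ?_
    · rintro rfl
      exact h1 ⟨(qch_eq_zero_iff _ _).2 (one_mem _), (qch_eq_zero_iff _ _).2 (one_mem _)⟩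
    · rintro rfl
      exact h1 ⟨(qch_eq_zero_iff _ _).2 (neg_one_mem_zpowers u),
        (qch_eq_zero_iff _ _).2 (neg_one_mem_zpowers v)⟩
  · have hu : u ∈ Q8 := Ord4.mem
    have e1 : qch u u = 0 := (qch_eq_zero_iff _ _).2 (Subgroup.mem_zpowers u)
    have e2 : qch v u = 1 := (qch_eq_one_iff _ _).2 huv
    have e3 : qch u v = 1 := (qch_eq_one_iff _ _).2 hv'
    have e4 : qch v v = 0 := (qch_eq_zero_iff _ _).2 (Subgroup.mem_zpowers v)
    have key : ∀ a : ZMod 2, a = 0 ∨ a = 1 := by decide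
    rcases key s with rfl | rfl <;> rcases key t with rfl | rfl
    · exact ⟨1, one_mem _, (qch_eq_zero_iff _ _).2 (one_mem _), (qch_eq_zero_iff _ _).2 (one_mem _)⟩
    · exact ⟨u, hu, e1, e2⟩
    · exact ⟨v, hv, e3, e4⟩
    · exact ⟨u * v, mul_mem hu hv, by rw [qch_mul u hu hv, e1, e3, zero_add],
        by rw [qch_mul v hu hv, e2, e4, add_zero]⟩

end Fermat.Agent.LT.NT
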