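import Fermat.Agent.LT.T4.SInt

set_option autoImplicit false
set_option linter.unusedSectionVars false

/-!
# `𝓞_K[1/N]` for highly divisible `N`: principal ideal domain, trace duality, units
-/

namespace Fermat.Agent.LT.NT

open NumberField Fermat.Agent.LT.T4 nonZeroDivisors Module

section

variable {K : Type*} [Field K] [NumberField K]

theorem natInv_mem_SI {N a : ℕ} (hN : 0 < N) (ha : a ∣ N) : (a : K)⁻¹ ∈ SI N K := by
  obtain ⟨b, hb⟩ := ha
  have hNK : (N : K) ≠ 0 := by exact_mod_cast hN.ne'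
  have hNK' : (N : K) = a * b := by rw [hb]; push_cast; ring
  have ha0 : (a : K) ≠ 0 := by
    rintro h
    rw [h, zero_mul] at hNK'
    exact hNK hNK'
  refine ⟨1, ?_⟩
  have e : (N : K) ^ 1 * (a : K)⁻¹ = b := by
    rw [pow_one, hNK']
    field_simp
  rw [e]
  exact isIntegral_natCast' b

theorem mem_SI_of_mul {N m : ℕ} (hm : m ∣ N) {x : K} (hx : IsIntegral ℤ ((m : K) * x)) :
    x ∈ SI N K := by
  obtain ⟨b, hb⟩ := hm
  refine ⟨1, ?_⟩
  have e : (N : K) ^ 1 * x = b * ((m : K) * x) := by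
    rw [pow_one, hb]
    push_cast
    ring
  rw [e]
  exact (isIntegral_natCast' b).mul hx

/-- any finite set of elements is integral away from `N` -/
theorem exists_mem_SI (S : Finset K) : ∃ N0 : ℕ, 0 < N0 ∧ ∀ N : ℕ, N0 ∣ N → ∀ x ∈ S, x ∈ SI N K := by
  classical
  induction S using Finset.induction_on with
  | empty => exact ⟨1, one_pos, fun N _ x hx => absurd hx (Finset.notMem_empty x)⟩
  | insert a S _ ih =>
    obtain ⟨N1, h1, h2⟩ := ih
    obtain ⟨m, hm, hx⟩ := exists_nat_integral a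
    refine ⟨N1 * m, Nat.mul_pos h1 (Nat.pos_of_ne_zero hm), fun N hN x hx' => ?_⟩
    rcases Finset.mem_insert.1 hx' with rfl | h
    · exact mem_SI_of_mul ((Dvd.intro_left N1 rfl).trans hN) hx
    · exact h2 N ((Dvd.intro m rfl).trans hN) x h

variable (K)

/-- the inclusion `𝓞_K → 𝓞_K[1/N]` -/
def OtoSI (N : ℕ) : 𝓞 K →+* SI N K where
  toFun x := ⟨x, SI_of_isIntegral x.2⟩
  map_one' := rfl
  map_mul' _ _ := rfl
  map_zero' := rfl
  map_add' _ _ := rfl

@[simp] theorem OtoSI_coe (N : ℕ) (x : 𝓞 K) : (OtoSI K N x : K) = x := rfl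

/-- **`𝓞_K[1/N]` is a principal ideal domain** for highly divisible `N`. -/
theorem exists_pid : ∃ N0 : ℕ, 0 < N0 ∧ ∀ N : ℕ, 0 < N → N0 ∣ N →
    IsPrincipalIdealRing (SI N K) := by
  classical
  have hsurj := ClassGroup.mk0_surjective (R := 𝓞 K)
  choose I hI using hsurj
  have hfin : Finite (ClassGroup (𝓞 K)) := inferInstance
  have : Fintype (ClassGroup (𝓞 K)) := Fintype.ofFinite _
  have hpos : ∀ c, 0 < Ideal.absNorm (I c : Ideal (𝓞 K)) := fun c =>
    Nat.pos_of_ne_zero fun h => nonZeroDivisors.ne_zero (I c).2 (Ideal.absNorm_eq_zero_iff.1 h)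
  refine ⟨∏ c, Ideal.absNorm (I c : Ideal (𝓞 K)), Finset.prod_pos fun c _ => hpos c, ?_⟩
  intro N hN hdvd
  refine ⟨fun J => ?_⟩
  by_cases hJ : J = ⊥
  · rw [hJ]; exact bot_isPrincipal
  obtain ⟨y, hy, hy0⟩ := Submodule.exists_mem_ne_zero_of_ne_bot hJ
  have hNK : (N : K) ≠ 0 := by exact_mod_cast hN.ne'
  obtain ⟨J0, hJ0m⟩ : ∃ J0 : Ideal (𝓞 K), ∀ z, z ∈ J0 ↔ OtoSI K N z ∈ J :=
    ⟨J.comap (OtoSI K N), fun z => Iff.rfl⟩
  -- multiples by powers of `N`
  have hmul : ∀ y ∈ J, ∃ (k : ℕ) (z : 𝓞 K), (z : K) = (N : K) ^ k * (y : K) ∧ z ∈ J0 := by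
    intro y hy
    obtain ⟨k, hk⟩ := y.2
    let z : 𝓞 K := ⟨_, hk⟩
    refine ⟨k, z, rfl, ?_⟩
    rw [hJ0m]
    have e : OtoSI K N z = (N : SI N K) ^ k * y := by
      apply Subtype.ext
      push_cast
      rfl
    rw [e]
    exact J.mul_mem_left _ hy
  have hJ0 : J0 ≠ ⊥ := by
    obtain ⟨k, z, hz, hz'⟩ := hmul y hy
    intro h
    rw [h, Ideal.mem_bot] at hz'
    rw [hz'] at hz
    apply hy0
    apply Subtype.ext
    have h2 : (N : K) ^ k ≠ 0 := pow_ne_zero k hNK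
    have h3 : (N : K) ^ k * (y : K) = 0 := by rw [← hz]; rfl
    exact (mul_eq_zero.1 h3).resolve_left h2
  have hJm := mem_nonZeroDivisors_of_ne_zero hJ0
  set c := (ClassGroup.mk0 (⟨J0, hJm⟩ : (Ideal (𝓞 K))⁰))⁻¹ with hc
  have hprin : (J0 * (I c : Ideal (𝓞 K))).IsPrincipal := by
    have h1 : J0 * (I c : Ideal (𝓞 K)) ∈ (Ideal (𝓞 K))⁰ := mul_mem hJm (I c).2
    rw [← ClassGroup.mk0_eq_one_iff h1]
    have h2 : (⟨_, h1⟩ : (Ideal (𝓞 K))⁰) = ⟨J0, hJm⟩ * I c := rfl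
    rw [h2, map_mul, hI, hc, mul_inv_cancel]
  obtain ⟨x, hx⟩ := hprin
  rw [Ideal.submodule_span_eq] at hx
  refine ⟨OtoSI K N x, ?_⟩
  rw [Ideal.submodule_span_eq]
  apply le_antisymm
  · intro y hy
    obtain ⟨k, z, hz, hz'⟩ := hmul y hy
    have h1 : z * (Ideal.absNorm (I c : Ideal (𝓞 K)) : 𝓞 K) ∈ Ideal.span {x} := by
      rw [← hx]
      exact Ideal.mul_mem_mul hz' (Ideal.absNorm_mem _)
    obtain ⟨t, ht⟩ := Ideal.mem_span_singleton'.1 h1
    rw [Ideal.mem_span_singleton']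
    have ha : (Ideal.absNorm (I c : Ideal (𝓞 K)) : K)⁻¹ ∈ SI N K :=
      natInv_mem_SI hN ((Finset.dvd_prod_of_mem _ (Finset.mem_univ c)).trans hdvd)
    have hb : ((N : K)⁻¹) ^ k ∈ SI N K := pow_mem (inv_mem_SI hN) k
    have ha0 : (Ideal.absNorm (I c : Ideal (𝓞 K)) : K) ≠ 0 := by exact_mod_cast (hpos c).ne'
    refine ⟨OtoSI K N t * ⟨_, ha⟩ * ⟨_, hb⟩, Subtype.ext ?_⟩
    have ht' : (t : K) * x = z * (Ideal.absNorm (I c : Ideal (𝓞 K)) : K) := by
      have := congrArg (fun w : 𝓞 K => (w : K)) ht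
      simpa using this
    change (t : K) * (Ideal.absNorm (I c : Ideal (𝓞 K)) : K)⁻¹ * ((N : K)⁻¹) ^ k * x = y
    rw [hz] at ht'
    have hk0 : (N : K) ^ k ≠ 0 := pow_ne_zero k hNK
    rw [inv_pow]
    field_simp
    linear_combination ht'
  · rw [Ideal.span_singleton_le_iff_mem]
    refine (hJ0m x).1 ?_
    have h2 : x ∈ J0 * (I c : Ideal (𝓞 K)) := by
      rw [hx]; exact Ideal.mem_span_singleton_self x
    exact (Ideal.mul_le_left : J0 * (I c : Ideal (𝓞 K)) ≤ J0) h2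

/-- **the trace dual** -/
theorem exists_dualN : ∃ N0 : ℕ, 0 < N0 ∧ ∀ N : ℕ, N0 ∣ N → ∀ x : K,
    (∀ y : K, IsIntegral ℤ y → ∃ n : ℤ, Algebra.trace ℚ K (x * y) = n) → x ∈ SI N K := by
  classical
  let b := integralBasis K
  let d := (Algebra.traceForm ℚ K).dualBasis (traceForm_nondegenerate ℚ K) b
  obtain ⟨N0, h0, h1⟩ := exists_mem_SI (Finset.univ.image d)
  refine ⟨N0, h0, fun N hN x hx => ?_⟩
  have h2 : ∀ i, ∃ n : ℤ, Algebra.traceForm ℚ K x (b i) = n := fun i => by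
    rw [Algebra.traceForm_apply]
    refine hx _ ?_
    rw [integralBasis_apply]
    exact (RingOfIntegers.basis K i).2
  choose n hn using h2
  have h3 : x = ∑ i, (n i : K) * d i := by
    conv_lhs => rw [← d.sum_repr x]
    refine Finset.sum_congr rfl fun i _ => ?_
    rw [LinearMap.BilinForm.dualBasis_repr_apply, hn i, Algebra.smul_def]
    simp
  rw [h3]
  refine sum_mem fun i _ => mul_mem (SI_of_isIntegral (isIntegral_intCast' _)) ?_
  exact h1 N hN _ (Finset.mem_image_of_mem d (Finset.mem_univ i))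

end

end Fermat.Agent.LT.NT
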