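import Fermat.Agent.LT.NT.PsiFun
import Fermat.Agent.LT.NT.Pre
import Fermat.Agent.LT.T4.Coef

set_option autoImplicit false
set_option linter.unusedSectionVars false

/-!
# The instance of `T4D` for `EF ρ`, `LF u ρ`
-/

noncomputable section

namespace Fermat.Agent.LT.NT

open Matrix Fermat.Agent.LTEnd NumberField Module WeierstrassCurve IsDedekindDomain
open Fermat.Agent.CFT Fermat.Agent.LT.T4 Fermat.Agent.LT.Theta
open scoped MatrixGroups Pointwise

local notation "Qbar" => AlgebraicClosure ℚ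
local notation "Γℚ" => (AlgebraicClosure ℚ ≃ₐ[ℚ] AlgebraicClosure ℚ)
local notation "G3" => GL (Fin 2) (ZMod 3)
local notation "M3" => Matrix (Fin 2) (Fin 2) (ZMod 3)

/-- the square root generating a quadratic extension -/
theorem exists_delta {E L : Type*} [Field E] [NumberField E] [Field L] [NumberField L]
    [Algebra E L] (q : QD E L) :
    ∃ (δ : L) (D : E), D ≠ 0 ∧ δ ^ 2 = algebraMap E L D ∧ q.c δ = -δ := by
  obtain ⟨x, hx⟩ := q.c_ne
  refine ⟨x - q.c x, -Algebra.norm E (x - q.c x), ?_, ?_, ?_⟩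
  · rw [neg_ne_zero, Algebra.norm_ne_zero_iff, sub_ne_zero]
    exact fun h => hx h.symm
  · rw [map_neg, q.norm_eq, map_sub, q.c_c]
    ring
  · rw [map_sub, q.c_c]
    ring

section

variable {ρ : Γℚ →* G3} {u : G3} [hu : Ord4 u] [NumberField (EF ρ)] [NumberField (LF u ρ)]
  (P : PsiOut ρ u)

/-- the conditions on the level -/
structure LevN (N : ℕ) : Prop where
  pos : 0 < N
  pidE : IsPrincipalIdealRing (SI N (EF ρ))
  pidL : IsPrincipalIdealRing (SI N (LF u ρ))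
  two : ((2 : EF ρ))⁻¹ ∈ SI N (EF ρ)
  dual : ∀ x : EF ρ, (∀ y : EF ρ, IsIntegral ℤ y → ∃ n : ℤ, Algebra.trace ℚ (EF ρ) (x * y) = n) →
    x ∈ SI N (EF ρ)
  S : ∀ w ∈ P.S, ¬ GoodV N w
  unr : ∀ p : ℕ, p.Prime → ¬ p ∣ N → UnrAt ρ p

theorem goodV_iff {F : Type*} [Field F] [NumberField F] [Algebra F Qbar] {N : ℕ}
    {v : HeightOneSpectrum (𝓞 F)} : GoodV N v ↔ ¬ resChar v ∣ N := by
  rw [GoodV, natCast_mem_iff]

/-- existence of levels, with prescribed units -/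
theorem exists_level_N (hρ : Continuous ρ) (S : Finset (EF ρ)) :
    ∃ N0 : ℕ, 0 < N0 ∧ ∀ N : ℕ, 0 < N → N0 ∣ N → LevN P N ∧ ∀ x ∈ S, x ∈ SI N (EF ρ) := by
  classical
  obtain ⟨N1, h1, h1'⟩ := exists_pid (EF ρ)
  obtain ⟨N2, h2, h2'⟩ := exists_pid (LF u ρ)
  obtain ⟨N3, h3, h3'⟩ := exists_dualN (EF ρ)
  obtain ⟨N4, h4, h4'⟩ := exists_mem_SI S
  obtain ⟨N5, h5, h5'⟩ := exists_unr' hρ
  let N6 : ℕ := ∏ w ∈ P.S, resChar w
  have h6 : 0 < N6 := Finset.prod_pos fun w _ => (resChar_prime w).pos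
  refine ⟨2 * N1 * N2 * N3 * N4 * N5 * N6, ?_, ?_⟩
  · have h5p := Nat.pos_of_ne_zero h5
    positivity
  intro N hN hdvd
  have d6 : N6 ∣ N := (Dvd.intro_left _ rfl).trans hdvd
  have d : 2 * N1 * N2 * N3 * N4 * N5 ∣ N := (Dvd.intro _ rfl).trans hdvd
  have d5 : N5 ∣ N := (Dvd.intro_left _ rfl).trans d
  have d' : 2 * N1 * N2 * N3 * N4 ∣ N := (Dvd.intro _ rfl).trans d
  have d4 : N4 ∣ N := (Dvd.intro_left _ rfl).trans d'
  have d'' : 2 * N1 * N2 * N3 ∣ N := (Dvd.intro _ rfl).trans d'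
  have d3 : N3 ∣ N := (Dvd.intro_left _ rfl).trans d''
  have d''' : 2 * N1 * N2 ∣ N := (Dvd.intro _ rfl).trans d''
  have d2 : N2 ∣ N := (Dvd.intro_left _ rfl).trans d'''
  have d1' : 2 * N1 ∣ N := (Dvd.intro _ rfl).trans d'''
  have d1 : N1 ∣ N := (Dvd.intro_left _ rfl).trans d1'
  have d0 : 2 ∣ N := (Dvd.intro _ rfl).trans d1'
  refine ⟨⟨hN, h1' N hN d1, h2' N hN d2, ?_, h3' N d3, ?_, ?_⟩, h4' N d4⟩
  · have := natInv_mem_SI (K := EF ρ) hN d0
    simpa using this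
  · intro w hw
    rw [goodV_iff, not_not]
    exact (Finset.dvd_prod_of_mem _ hw).trans d6
  · intro p hp hpN
    exact h5' p hp fun h => hpN (h.trans d5)

variable {P} {N : ℕ}

theorem LevN.notMem (h : LevN P N) {w : HeightOneSpectrum (𝓞 (LF u ρ))} (hw : GoodV N w) :
    w ∉ P.S := fun h' => h.S w h' hw

theorem LevN.unrV (h : LevN P N) {F : Type*} [Field F] [NumberField F] [Algebra F Qbar]
    {v : HeightOneSpectrum (𝓞 F)} (hv : GoodV N v) : UnrAt ρ (resChar v) :=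
  h.unr _ (resChar_prime v) (goodV_iff.1 hv)

theorem exists_frob {F : Type*} [Field F] [NumberField F] [Algebra F Qbar]
    (v : HeightOneSpectrum (𝓞 F)) : ∃ A φ, IsFrobV F v A φ := by
  obtain ⟨A, hA⟩ := exists_place v
  obtain ⟨φ, hφ⟩ := exists_isFrobV hA
  exact ⟨A, φ, hφ⟩

theorem LevN.norm_psi (h : LevN P N) (w : HeightOneSpectrum (𝓞 (LF u ρ))) (hw : GoodV N w) :
    ‖((P.ψ w : ℂˣ) : ℂ)‖ = 1 := by
  obtain ⟨A, φ, hφ⟩ := exists_frob w
  by_cases h1 : ρ φ = 1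
  · rw [P.one w (h.notMem hw) A φ hφ h1]; simp
  by_cases h2 : ρ φ = -1
  · rw [P.neg w (h.notMem hw) A φ hφ h2]; simp
  have h3 := P.four w (h.notMem hw) A φ hφ h1 h2
  have h4 : ‖((P.ψ w : ℂˣ) : ℂ)‖ ^ 2 = 1 := by
    rw [← norm_pow, ← Units.val_pow_eq_pow_val, h3]; simp
  nlinarith [norm_nonneg ((P.ψ w : ℂˣ) : ℂ)]

/-- `psi (c x) psi x = 1` -/
theorem LevN.mulV_c (h : LevN P N) {c : Gal(LF u ρ/EF ρ)} (hc : c ≠ 1) (x : (LF u ρ)ˣ) :
    mulV N P.ψ (Units.map (c : LF u ρ →* LF u ρ) x) * mulV N P.ψ x = 1 := by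
  rw [mulV_gal, mulV_apply, mulV_apply, ← finprod_mul_distrib (expV_support N _ x)
    (expV_support N _ x)]
  apply finprod_eq_one_of_forall_eq_one
  intro w
  rw [expV, expV]
  by_cases hw : GoodV N w
  · rw [if_pos hw, if_pos hw, ← _root_.mul_zpow, mul_comm (P.ψ (placeSmul c w)),
      P.conj c hc w (h.notMem hw), _root_.one_zpow]
  · rw [if_neg hw, if_neg hw, mul_one]

/-- reciprocity -/
theorem LevN.mulV_cong (h : LevN P N) {y : LF u ρ} (hy : y ∈ LI N (LF u ρ)) {x : (LF u ρ)ˣ}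
    (hx : (x : LF u ρ) = 1 + (N : LF u ρ) ^ (P.k + 1) * y) : mulV N P.ψ x = 1 := by
  classical
  have hnear : ∀ w : HeightOneSpectrum (𝓞 (LF u ρ)), ¬ GoodV N w →
      Psi.Near w (P.k + 1) (x : LF u ρ) := fun w hw => by
    rw [hx]; exact near_of_LI h.pos hw hy
  have h1 := P.recip x fun w hw => Psi.near_mono (Nat.le_succ _) (hnear w (h.S w hw))
  rw [mulV_apply, ← h1]
  refine finprod_congr fun w => ?_
  rw [expV]
  by_cases hw : GoodV N w
  · rw [if_pos hw, if_neg (h.notMem hw)]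
  · rw [if_neg hw]
    split_ifs
    · rfl
    · have h2 : ordH (LF u ρ) w (Additive.ofMul x) = 0 := by
        rw [ordH_eq_zero_iff]
        exact (hnear w hw).val_eq (Nat.le_add_left 1 _)
      rw [h2, zpow_zero]

omit [NumberField (LF u ρ)] in
theorem sq_of_notMem {g : G3} (hg : g ∈ Q8) (hg' : g ∉ Subgroup.zpowers u) : g ^ 2 = -1 :=
  sq_eq_neg_one hg (fun h => hg' (by rw [h]; exact one_mem _))
    (fun h => hg' (by rw [h]; exact neg_one_mem_zpowers u))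

theorem hEL (hρ : Continuous ρ) :
    ∀ σ ∈ GF (EF ρ), σ ∈ GF (LF u ρ) ↔ ρ σ ∈ Subgroup.zpowers u :=
  fun _ _ => mem_GF_fixF hρ

/-- inert primes -/
theorem LevN.psi_inertV (h : LevN P N) (hρ : Continuous ρ) (hs : Function.Surjective ρ)
    {w : HeightOneSpectrum (𝓞 (LF u ρ))} (hw : GoodV N w)
    (hcard : Nat.card {w' : HeightOneSpectrum (𝓞 (LF u ρ)) //
      w'.asIdeal.LiesOver (under (EF ρ) w).asIdeal} = 1) : P.ψ w = -1 := by
  have := isGalois_EL u hρ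
  have hv : GoodV N (under (EF ρ) w) := goodV_under.2 hw
  have hun := h.unrV hv
  obtain ⟨A, hA⟩ := exists_place w
  have hAv := below_fib (under_liesOver (L := EF ρ) w) hA
  obtain ⟨φ, hφ⟩ := exists_isFrobV hAv
  obtain ⟨ψ, hψ⟩ := exists_isFrobV hA
  have hφQ : ρ φ ∈ Q8 := (mem_GF_fixF hρ).1 hφ.fix
  have h2 := finrank_EL u hρ hs
  have hnot : ρ φ ∉ Subgroup.zpowers u := by
    intro hmem
    have h3 := card_fib_of_mem (hEL hρ) hun hφ hmem
    rw [hcard, h2] at h3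
    omega
  have h3 := card_fib_mul (hEL hρ) (v := under (EF ρ) w) (w := w) hun
  rw [hcard, h2, one_mul] at h3
  have h4 := absNorm_eq_pow (v := under (EF ρ) w) (w := w)
  rw [h3] at h4
  have h5 := hφ.tower hun hψ h4
  rw [sq_of_notMem hφQ hnot] at h5
  exact P.neg w (h.notMem hw) A ψ hψ h5

end

section ram

variable {L M : Type*} [Field L] [NumberField L] [Field M] [NumberField M] [Algebra L M]

theorem ordH_pos_of_alg {w : HeightOneSpectrum (𝓞 M)} {x : Lˣ}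
    (hx : ordH L (under L w) (Additive.ofMul x) ≠ 0) :
    ordH M w (Additive.ofMul (Units.map (algebraMap L M : L →* M) x)) ≠ 0 := by
  rw [ordH_algebraMap]
  refine mul_ne_zero ?_ hx
  intro h0
  -- a rational prime
  obtain ⟨p, hp⟩ : ∃ p : ℕ, p ≠ 0 ∧ (p : 𝓞 M) ∈ w.asIdeal := by
    refine ⟨Ideal.absNorm w.asIdeal, ?_, Ideal.absNorm_mem _⟩
    rw [Ne, Ideal.absNorm_eq_zero_iff]
    exact w.ne_bot
  have hpL : (p : L) ≠ 0 := by exact_mod_cast hp.1
  have h1 := ordH_algebraMap w (Units.mk0 (p : L) hpL)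
  rw [h0, zero_mul, ordH_eq_zero_iff] at h1
  have h2 : w.valuation M ((Units.map (algebraMap L M : L →* M) (Units.mk0 (p : L) hpL) : Mˣ) : M)
      < 1 := by
    have h3 := (w.valuation_lt_one_iff_mem (K := M) (p : 𝓞 M)).2 hp.2
    have h4 : ((Units.map (algebraMap L M : L →* M) (Units.mk0 (p : L) hpL) : Mˣ) : M) =
        algebraMap (𝓞 M) M (p : 𝓞 M) := by
      change algebraMap L M (p : L) = _
      rw [map_natCast, map_natCast]
    rw [h4]
    exact h3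
  rw [h1] at h2
  exact lt_irrefl _ h2

theorem under_of_liesOver {w : HeightOneSpectrum (𝓞 M)} {v : HeightOneSpectrum (𝓞 L)}
    (h : w.asIdeal.LiesOver v.asIdeal) : under L w = v :=
  HeightOneSpectrum.ext h.over.symm

end ram

section

variable {ρ : Γℚ →* G3} {u : G3} [hu : Ord4 u] [NumberField (EF ρ)] [NumberField (LF u ρ)]
  {P : PsiOut ρ u} {N : ℕ}

/-- the unit of a nonzero element -/
def toU {K : Type*} [Field K] {N : ℕ} (x : SI N K) (hx : x ≠ 0) : Kˣ :=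
  Units.mk0 (x : K) (coe_ne_zero hx)

theorem LevN.mulV_inert (h : LevN P N) (hρ : Continuous ρ) (hs : Function.Surjective ρ)
    {π : SI N (EF ρ)} (hπ : Prime (inc N (EF ρ) (LF u ρ) π)) {X : (LF u ρ)ˣ}
    (hX : (X : LF u ρ) = algebraMap (EF ρ) (LF u ρ) π) : mulV N P.ψ X = -1 := by
  obtain ⟨w, hw, hw1, hw2⟩ := exists_place_of_prime h.pos h.pidL hπ (X := X) hX
  rw [mulV_single hw hw1 hw2]
  apply h.psi_inertV hρ hs hw
  have hπ0 : (π : EF ρ) ≠ 0 := by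
    intro h0
    apply X.ne_zero
    rw [hX, h0, map_zero]
  have hXe : X = Units.map (algebraMap (EF ρ) (LF u ρ) : EF ρ →* LF u ρ) (Units.mk0 _ hπ0) :=
    Units.ext hX
  have hv0 : ordH (EF ρ) (under (EF ρ) w) (Additive.ofMul (Units.mk0 (π : EF ρ) hπ0)) ≠ 0 := by
    intro h0
    rw [hXe, ordH_algebraMap, h0, mul_zero] at hw1
    exact zero_ne_one hw1
  have huniq : ∀ w' : HeightOneSpectrum (𝓞 (LF u ρ)),
      w'.asIdeal.LiesOver (under (EF ρ) w).asIdeal → w' = w := by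
    intro w' hw'
    by_contra hne
    have e := under_of_liesOver hw'
    have hgood : GoodV N w' := by
      rw [← goodV_under (L := EF ρ), e, goodV_under]; exact hw
    have h1 := hw2 w' hne hgood
    rw [hXe] at h1
    exact ordH_pos_of_alg (by rw [e]; exact hv0) h1
  rw [Nat.card_eq_one_iff_unique]
  refine ⟨⟨fun a b => Subtype.ext ((huniq a.1 a.2).trans (huniq b.1 b.2).symm)⟩, ⟨⟨w, ?_⟩⟩⟩
  exact under_liesOver w

/-- split primes -/
theorem LevN.mulV_split (h : LevN P N) (q : QD (EF ρ) (LF u ρ)) {π : SI N (EF ρ)}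
    {R : SI N (LF u ρ)} (hR : R ≠ 0) (hRn : Associated (nS N (EF ρ) (LF u ρ) R) π)
    {X : (LF u ρ)ˣ} (hX : (X : LF u ρ) = algebraMap (EF ρ) (LF u ρ) π) :
    mulV N P.ψ X = 1 := by
  obtain ⟨t, ht⟩ := hRn
  have hR0 : (R : LF u ρ) ≠ 0 := coe_ne_zero hR
  let r : (LF u ρ)ˣ := Units.mk0 _ hR0
  let s : (LF u ρ)ˣ := Units.map (algebraMap (EF ρ) (LF u ρ) : EF ρ →* LF u ρ)
    (Units.map ((SI N (EF ρ)).subtype : SI N (EF ρ) →* EF ρ) t)
  have hXe : X = Units.map (q.c : LF u ρ →* LF u ρ) r * r * s := by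
    apply Units.ext
    rw [hX, ← ht]
    have h1 : algebraMap (EF ρ) (LF u ρ) ((nS N (EF ρ) (LF u ρ) R : SI N (EF ρ)) : EF ρ) =
        (R : LF u ρ) * q.c (R : LF u ρ) := q.norm_eq _
    change algebraMap (EF ρ) (LF u ρ) (((nS N (EF ρ) (LF u ρ) R : SI N (EF ρ)) : EF ρ) *
      ((t : SI N (EF ρ)) : EF ρ)) = q.c (R : LF u ρ) * (R : LF u ρ) *
        algebraMap (EF ρ) (LF u ρ) ((t : SI N (EF ρ)) : EF ρ)
    rw [map_mul, h1]
    ring
  have hs1 : mulV N P.ψ s = 1 := by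
    apply mulV_unit
    · exact incl_mem_SI (t : SI N (EF ρ)).2
    · exact incl_mem_SI ((t⁻¹ : (SI N (EF ρ))ˣ) : SI N (EF ρ)).2
  rw [hXe, map_mul, map_mul, hs1, mul_one]
  exact h.mulV_c (Ne.symm q.one_ne_c) r

/-- **existence of primes with Frobenius `u`** -/
theorem exists_prime_u (hρ : Continuous ρ) (hs : Function.Surjective ρ) (N : ℕ) (hN : 0 < N) :
    ∃ w : HeightOneSpectrum (𝓞 (LF u ρ)), GoodV N w ∧ ∃ A φ, IsFrobV (LF u ρ) w A φ ∧
      ρ φ = u := by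
  obtain ⟨a, ha⟩ := hs u
  obtain ⟨p, hp, hpB, A, hA, φ, hφ, hφg⟩ := exists_frob_coset (ker_isOpen hρ) a N
  have hφρ : ρ φ = u := by
    have h1 : ρ (φ * a⁻¹) = 1 := hφg
    rw [map_mul, map_inv, ha, mul_inv_eq_one] at h1
    exact h1
  have hfix : φ ∈ GF (LF u ρ) := by
    rw [mem_GF_fixF hρ, hφρ]
    exact Subgroup.mem_zpowers u
  let w : HeightOneSpectrum (𝓞 (LF u ρ)) := belowV (LF u ρ) A hp hA
  have hw : Frob.below (𝓞 (LF u ρ)) A = w.asIdeal := rfl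
  have hres : resChar w = p := resChar_eq_of_below hw hp hA
  have h1 := absNorm_le_of_fix hp.one_lt hφ hfix hw
  have h2 : Ideal.absNorm w.asIdeal = p := by
    obtain ⟨f, hf, h3⟩ := exists_absNorm_eq w
    rw [hres] at h3
    rw [h3] at h1 ⊢
    have h4 : f = 1 := by
      by_contra hne
      have h5 : p ^ 1 < p ^ f := Nat.pow_lt_pow_right hp.one_lt (by omega)
      rw [pow_one] at h5
      omega
    rw [h4, pow_one]
  refine ⟨w, ?_, A, φ, ⟨hfix, hw, by rw [h2]; exact hφ⟩, hφρ⟩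
  rw [goodV_iff, hres]
  exact fun hd => absurd (Nat.le_of_dvd hN hd) (by omega)

end

end Fermat.Agent.LT.NT
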