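import Fermat.Agent.LT.NT.T4J

set_option autoImplicit false

/-!
# The Proposition `T4DInst` of the final chain from the quartic character
-/

noncomputable section

namespace Fermat.Agent.LT.NT

open Matrix Fermat.Agent.LTEnd NumberField Module WeierstrassCurve IsDedekindDomain
open Fermat.Agent.CFT Fermat.Agent.LT.T4 Fermat.Agent.LT.Theta FLT.ExplicitLift
open scoped MatrixGroups Pointwise

local notation "Qbar" => AlgebraicClosure ℚ
local notation "Γℚ" => (AlgebraicClosure ℚ ≃ₐ[ℚ] AlgebraicClosure ℚ)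
local notation "G3" => GL (Fin 2) (ZMod 3)
local notation "MZ" => Matrix (Fin 2) (Fin 2) (ℤ√(-2))

variable {ρ : Γℚ →* G3} {u : G3} [hu : Ord4 u] [NumberField (EF ρ)] [NumberField (LF u ρ)]
variable {Ψ : G3 →* GL (Fin 2) (ℤ√(-2))} {ι : ℤ√(-2) →+* ℂ}

/-- **The instances of `T4D` and their Hecke eigenvalues**, for all levels divisible by `N0`. -/
theorem t4dInst_of_psiOut (P : PsiOut ρ u) (hρ : Continuous ρ) (hs : Function.Surjective ρ)
    (hΨ : ∀ g, Matrix.GeneralLinearGroup.map red (Ψ g) = g) :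
    ∃ N0 : ℕ, 0 < N0 ∧ ∀ N : ℕ, 0 < N → N0 ∣ N → ∃ T : T4.T4D (EF ρ) (LF u ρ), T.N = N ∧
      T.k0 = P.k + 1 ∧ T.psi = mulZ N P.ψ ∧
      ∀ (w : HeightOneSpectrum (𝓞 (EF ρ))), ((N : ℕ) : 𝓞 (EF ρ)) ∉ w.asIdeal →
        ∀ π : T4.SI T.N (EF ρ), Prime π → w.valuation (EF ρ) (π : EF ρ) = WithZero.exp (-1 : ℤ) →
          ∀ (A : ValuationSubring Qbar) (f : Γℚ), IsFrobV (EF ρ) w A f →
            T.IsLam π (ι (Ψ (ρ f) : MZ).trace) := by
  obtain ⟨τ, hτ, hτ'⟩ := exists_notMem u hs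
  obtain ⟨N0, h0, h1⟩ := exists_levT P (qdL u hρ hs hτ hτ') hρ
  refine ⟨N0, h0, fun N hN hd => ?_⟩
  have h := h1 N hN hd
  refine ⟨h.t4d hρ hs, rfl, rfl, rfl, fun w hw π hπ hπw A f hf => ?_⟩
  have h2 : ordH (EF ρ) w (Additive.ofMul (toU (N := N) π hπ.ne_zero)) = 1 := by
    rw [ordH_eq_iff]
    exact hπw
  exact h.isLam hρ hs hΨ hw hf hπ (by intro h3; rw [h2] at h3; exact one_ne_zero h3)

end Fermat.Agent.LT.NT
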