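import Fermat.Agent.LT.NT.T4I
import Fermat.Agent.LT.Top.Lam

set_option autoImplicit false
set_option linter.unusedSectionVars false

/-!
# The instance of `T4D`, and its Hecke eigenvalues
-/

noncomputable section

namespace Fermat.Agent.LT.NT

open Matrix Fermat.Agent.LTEnd NumberField Module WeierstrassCurve IsDedekindDomain
open Fermat.Agent.CFT Fermat.Agent.LT.T4 Fermat.Agent.LT.Theta FLT.ExplicitLift
open scoped MatrixGroups Pointwise

local notation "Qbar" => AlgebraicClosure ℚ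
local notation "Γℚ" => (AlgebraicClosure ℚ ≃ₐ[ℚ] AlgebraicClosure ℚ)
local notation "G3" => GL (Fin 2) (ZMod 3)
local notation "M3" => Matrix (Fin 2) (Fin 2) (ZMod 3)
local notation "MZ" => Matrix (Fin 2) (Fin 2) (ℤ√(-2))

variable {ρ : Γℚ →* G3} {u : G3} [hu : Ord4 u] [NumberField (EF ρ)] [NumberField (LF u ρ)]

section

variable (q : QD (EF ρ) (LF u ρ))

/-- the square root -/
def dlt : LF u ρ := (exists_delta q).choose

/-- its square -/
def Dlt : EF ρ := (exists_delta q).choose_spec.choose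

theorem Dlt_ne : Dlt q ≠ 0 := (exists_delta q).choose_spec.choose_spec.1

theorem dlt_sq : dlt q ^ 2 = algebraMap (EF ρ) (LF u ρ) (Dlt q) :=
  (exists_delta q).choose_spec.choose_spec.2.1

theorem c_dlt : q.c (dlt q) = -dlt q := (exists_delta q).choose_spec.choose_spec.2.2

end

/-- the level conditions including the units -/
structure LevT (P : PsiOut ρ u) (q : QD (EF ρ) (LF u ρ)) (N : ℕ) : Prop extends LevN P N where
  D_mem : Dlt q ∈ SI N (EF ρ)
  D_inv : (Dlt q)⁻¹ ∈ SI N (EF ρ)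

theorem exists_levT (P : PsiOut ρ u) (q : QD (EF ρ) (LF u ρ)) (hρ : Continuous ρ) :
    ∃ N0 : ℕ, 0 < N0 ∧ ∀ N : ℕ, 0 < N → N0 ∣ N → LevT P q N := by
  classical
  obtain ⟨N0, h0, h1⟩ := exists_level_N P hρ {Dlt q, (Dlt q)⁻¹}
  refine ⟨N0, h0, fun N hN hd => ?_⟩
  obtain ⟨h2, h3⟩ := h1 N hN hd
  exact { toLevN := h2
          D_mem := h3 _ (by simp)
          D_inv := h3 _ (by simp) }

variable {P : PsiOut ρ u} {q : QD (EF ρ) (LF u ρ)} {N : ℕ}

/-- the data without the character -/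
def LevT.pre (h : LevT P q N) : Pre (EF ρ) (LF u ρ) where
  q := q
  N := N
  hN := h.pos
  pidE := h.pidE
  pidL := h.pidL
  two := h.two
  δ := dlt q
  D := Dlt q
  D_mem := h.D_mem
  D_inv := h.D_inv
  D_ne := Dlt_ne q
  δ_sq := dlt_sq q
  c_δ := c_dlt q

theorem mk0_map {x : LF u ρ} (hx : x ≠ 0) (c : LF u ρ ≃ₐ[EF ρ] LF u ρ) (hc : c x ≠ 0) :
    Units.mk0 (c x) hc = Units.map (c : LF u ρ →* LF u ρ) (Units.mk0 x hx) := Units.ext rfl

/-- **The instance of `T4D`.** -/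
def LevT.t4d (h : LevT P q N) (hρ : Continuous ρ) (hs : Function.Surjective ρ) :
    T4D (EF ρ) (LF u ρ) where
  q := q
  N := N
  hN := h.pos
  pidE := h.pidE
  pidL := h.pidL
  two := h.two
  dual := h.dual
  δ := dlt q
  D := Dlt q
  D_mem := h.D_mem
  D_inv := h.D_inv
  D_ne := Dlt_ne q
  δ_sq := dlt_sq q
  c_δ := c_dlt q
  psi := mulZ N P.ψ
  psi_unit := by
    intro x hx hx1 hx2
    rw [mulZ_apply N P.ψ hx, mulV_unit (x := Units.mk0 x hx) hx1
      (by rw [Units.val_inv_eq_inv_val]; exact hx2), Units.val_one]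
  k0 := P.k + 1
  psi_cong := by
    intro y hy h0
    rw [mulZ_apply N P.ψ h0, h.mulV_cong hy rfl, Units.val_one]
  psi_c := by
    intro x hx
    have hc : q.c x ≠ 0 := by rwa [Ne, map_eq_zero]
    rw [mulZ_apply N P.ψ hc, mulZ_apply N P.ψ hx, mk0_map hx, ← Units.val_mul,
      h.mulV_c (Ne.symm q.one_ne_c), Units.val_one]
  psi_norm := by
    intro x hx
    rw [mulZ_apply N P.ψ hx]
    exact norm_mulV h.norm_psi _
  psi_split := by
    intro π hπ hx
    have hn : ¬ Prime (inc N (EF ρ) (LF u ρ) π) := fun hp => h.pre.not_exists_of_prime hp hx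
    obtain ⟨R, hR, hR'⟩ := h.pre.split_of_not_prime hπ hn
    have h0 : algebraMap (EF ρ) (LF u ρ) (π : EF ρ) ≠ 0 := by
      rw [Ne, map_eq_zero]; exact coe_ne_zero hπ.ne_zero
    rw [mulZ_apply N P.ψ h0, h.mulV_split q hR.ne_zero hR' rfl, Units.val_one]
  psi_inert := by
    intro π hπ hx
    have hp := h.pre.prime_of_not_exists hπ hx
    have h0 : algebraMap (EF ρ) (LF u ρ) (π : EF ρ) ≠ 0 := by
      rw [Ne, map_eq_zero]; exact coe_ne_zero hπ.ne_zero
    rw [mulZ_apply N P.ψ h0, h.mulV_inert hρ hs hp rfl]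
    simp
  psi_ne := by
    obtain ⟨w, hw, A, φ, hφ, hφu⟩ := exists_prime_u (u := u) hρ hs N h.pos
    obtain ⟨x, hx, hx1, hx2⟩ := exists_genV h.pidL hw
    refine ⟨x, x.ne_zero, ?_⟩
    have h1 : Units.mk0 (x : LF u ρ) x.ne_zero = x := Units.ext rfl
    have h4 := P.four w (h.notMem hw) A φ hφ (by rw [hφu]; exact hu.ne_one)
      (by rw [hφu]; exact hu.ne_neg)
    rw [mulZ_apply N P.ψ x.ne_zero, h1, mulV_single hw hx1 hx2, ← Units.val_pow_eq_pow_val, h4]
    simp only [Units.val_neg, Units.val_one]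
    norm_num

theorem LevT.t4d_N (h : LevT P q N) (hρ : Continuous ρ) (hs : Function.Surjective ρ) :
    (h.t4d hρ hs).N = N := rfl

theorem LevT.t4d_k0 (h : LevT P q N) (hρ : Continuous ρ) (hs : Function.Surjective ρ) :
    (h.t4d hρ hs).k0 = P.k + 1 := rfl

theorem LevT.t4d_psi (h : LevT P q N) (hρ : Continuous ρ) (hs : Function.Surjective ρ) :
    (h.t4d hρ hs).psi = mulZ N P.ψ := rfl

/-! ### the Hecke eigenvalues -/

section lam

variable {Ψ : G3 →* GL (Fin 2) (ℤ√(-2))} {ι : ℤ√(-2) →+* ℂ}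

theorem tr_conj (g x : G3) : (Ψ (x * g * x⁻¹) : MZ).trace = (Ψ g : MZ).trace := by
  rw [map_mul, map_mul, Units.val_mul, Units.val_mul, Matrix.trace_mul_comm, ← mul_assoc,
    ← Units.val_mul, ← map_mul, inv_mul_cancel, map_one, Units.val_one, one_mul]

theorem tr_of_notMem (hΨ : ∀ g, Matrix.GeneralLinearGroup.map red (Ψ g) = g) {g : G3}
    (hg : g ∈ Q8) (h1 : g ≠ 1) (h2 : g ≠ -1) : ι (Ψ g : MZ).trace = 0 := by
  refine Top.tr_ord4 hΨ ((mem_Q8 g).1 hg).1 ?_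
  rw [← pow_two]
  exact sq_eq_neg_one hg h1 h2

/-- places of `LF` above `v` for a prime `π` at `v` -/
theorem under_eq_of_prime (h : LevN P N) {π : SI N (EF ρ)} (hπ : Prime π)
    {v : HeightOneSpectrum (𝓞 (EF ρ))} (hv : GoodV N v)
    (hπv : ordH (EF ρ) v (Additive.ofMul (toU π hπ.ne_zero)) ≠ 0)
    {w : HeightOneSpectrum (𝓞 (LF u ρ))} (hw : GoodV N w)
    (hw0 : ordH (LF u ρ) w (Additive.ofMul (Units.map
      (algebraMap (EF ρ) (LF u ρ) : EF ρ →* LF u ρ) (toU π hπ.ne_zero))) ≠ 0) :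
    under (EF ρ) w = v := by
  obtain ⟨v0, hv0, hv1, hv2⟩ := exists_place_of_prime h.pos h.pidE hπ
    (X := toU π hπ.ne_zero) rfl
  have e1 : v = v0 := by
    by_contra hne
    exact hπv (hv2 v hne hv)
  have e2 : under (EF ρ) w = v0 := by
    by_contra hne
    apply hw0
    rw [ordH_algebraMap, hv2 _ hne (goodV_under.2 hw), mul_zero]
  rw [e1, e2]

/-- factorisation of a split prime -/
theorem exists_factor (q : QD (EF ρ) (LF u ρ)) {π : SI N (EF ρ)} (hπ : π ≠ 0)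
    {R : SI N (LF u ρ)} (hR : R ≠ 0) (hRn : Associated (nS N (EF ρ) (LF u ρ) R) π) :
    ∃ s : (LF u ρ)ˣ, (s : LF u ρ) ∈ SI N (LF u ρ) ∧ ((s⁻¹ : (LF u ρ)ˣ) : LF u ρ) ∈ SI N (LF u ρ) ∧
      Units.map (algebraMap (EF ρ) (LF u ρ) : EF ρ →* LF u ρ) (toU π hπ) =
        Units.map (q.c : LF u ρ →* LF u ρ) (toU R hR) * toU R hR * s := by
  obtain ⟨t, ht⟩ := hRn
  refine ⟨Units.map (algebraMap (EF ρ) (LF u ρ) : EF ρ →* LF u ρ)
    (Units.map ((SI N (EF ρ)).subtype : SI N (EF ρ) →* EF ρ) t), ?_, ?_, ?_⟩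
  · exact incl_mem_SI (t : SI N (EF ρ)).2
  · exact incl_mem_SI ((t⁻¹ : (SI N (EF ρ))ˣ) : SI N (EF ρ)).2
  · apply Units.ext
    have h1 : algebraMap (EF ρ) (LF u ρ) ((nS N (EF ρ) (LF u ρ) R : SI N (EF ρ)) : EF ρ) =
        (R : LF u ρ) * q.c (R : LF u ρ) := q.norm_eq _
    have h2 : ((π : SI N (EF ρ)) : EF ρ) =
        ((nS N (EF ρ) (LF u ρ) R : SI N (EF ρ)) : EF ρ) * ((t : SI N (EF ρ)) : EF ρ) := by
      rw [← ht]; rfl
    change algebraMap (EF ρ) (LF u ρ) ((π : SI N (EF ρ)) : EF ρ) =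
      q.c (R : LF u ρ) * (R : LF u ρ) * algebraMap (EF ρ) (LF u ρ) ((t : SI N (EF ρ)) : EF ρ)
    rw [h2, map_mul, h1]
    ring

/-- a place of `LF` above a split prime is moved by `c` -/
theorem LevT.placeSmul_ne (h : LevT P q N) {π : SI N (EF ρ)} (hπ : Prime π)
    {R : SI N (LF u ρ)} (hRn : Associated (nS N (EF ρ) (LF u ρ) R) π)
    {w : HeightOneSpectrum (𝓞 (LF u ρ))} (hw : GoodV N w)
    (hw0 : w.valuation (LF u ρ) (algebraMap (EF ρ) (LF u ρ) (π : EF ρ)) < 1) :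
    placeSmul q.c w ≠ w := by
  intro hcw
  obtain ⟨x, z, hz⟩ := h.pre.exists_of_split hπ hRn
  have hz' : (x : EF ρ) ^ 2 - Dlt q = (π : EF ρ) * (z : EF ρ) := congrArg Subtype.val hz
  let V := w.valuation (LF u ρ)
  have h1 : ∀ y : LF u ρ, V (q.c y) = V y := by
    intro y
    have := valuation_smul q.c w y
    rw [hcw] at this
    exact this
  have h2 : V (algebraMap (EF ρ) (LF u ρ) x - dlt q) *
      V (algebraMap (EF ρ) (LF u ρ) x + dlt q) < 1 := by
    rw [← map_mul]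
    have e : (algebraMap (EF ρ) (LF u ρ) x - dlt q) * (algebraMap (EF ρ) (LF u ρ) x + dlt q) =
        algebraMap (EF ρ) (LF u ρ) (π : EF ρ) * algebraMap (EF ρ) (LF u ρ) (z : EF ρ) := by
      rw [← map_mul, ← hz', map_sub, map_pow, ← dlt_sq q]
      ring
    rw [e, map_mul]
    exact (mul_le_of_le_one_right' (val_le_one_of_SI hw (incl_mem_SI z.2))).trans_lt hw0
  have h3 : V (algebraMap (EF ρ) (LF u ρ) x + dlt q) =
      V (algebraMap (EF ρ) (LF u ρ) x - dlt q) := by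
    rw [← h1 (algebraMap (EF ρ) (LF u ρ) x - dlt q), map_sub, q.c.commutes, c_dlt, sub_neg_eq_add]
  rw [h3] at h2
  have h4 : V (algebraMap (EF ρ) (LF u ρ) x - dlt q) < 1 := by
    by_contra hge
    rw [not_lt] at hge
    exact absurd h2 (not_lt.2 (one_le_mul hge hge))
  have h5 : V (2 * dlt q) < 1 := by
    have e : 2 * dlt q = (algebraMap (EF ρ) (LF u ρ) x + dlt q) -
        (algebraMap (EF ρ) (LF u ρ) x - dlt q) := by ring
    rw [e]
    exact (Valuation.map_sub _ _ _).trans_lt (max_lt (by rw [h3]; exact h4) h4)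
  obtain ⟨t, ht⟩ := (h.pre.isUnit_two.mul h.pre.isUnit_δS).exists_right_inv
  have ht' : 2 * dlt q * (t : LF u ρ) = 1 := congrArg Subtype.val ht
  have h6 : V (2 * dlt q) * V (t : LF u ρ) = 1 := by rw [← map_mul, ht', map_one]
  have h7 : V (2 * dlt q) * V (t : LF u ρ) < 1 :=
    (mul_le_of_le_one_right' (val_le_one_of_SI hw t.2)).trans_lt h5
  exact absurd h6 h7.ne

theorem LevT.isLam (h : LevT P q N) (hρ : Continuous ρ) (hs : Function.Surjective ρ)
    (hΨ : ∀ g, Matrix.GeneralLinearGroup.map red (Ψ g) = g)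
    {v : HeightOneSpectrum (𝓞 (EF ρ))} (hv : GoodV N v) {A : ValuationSubring Qbar} {φ : Γℚ}
    (hφ : IsFrobV (EF ρ) v A φ) {π : SI N (EF ρ)} (hπ : Prime π)
    (hπv : ordH (EF ρ) v (Additive.ofMul (toU π hπ.ne_zero)) ≠ 0) :
    (h.t4d hρ hs).IsLam π (ι (Ψ (ρ φ) : MZ).trace) := by
  have := isGalois_EL u hρ
  have h2 := finrank_EL u hρ hs
  have hun := h.unrV hv
  have hφQ : ρ φ ∈ Q8 := (mem_GF_fixF hρ).1 hφ.fix
  by_cases hp : Prime (inc N (EF ρ) (LF u ρ) π)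
  · right
    refine ⟨hp, ?_⟩
    let X : (LF u ρ)ˣ := Units.map (algebraMap (EF ρ) (LF u ρ) : EF ρ →* LF u ρ)
      (toU π hπ.ne_zero)
    obtain ⟨w, hw, hw1, hw2⟩ := exists_place_of_prime h.pos h.pidL hp (X := X) rfl
    have hvw : under (EF ρ) w = v := under_eq_of_prime h.toLevN hπ hv hπv hw (by rw [hw1]; norm_num)
    have hnot : ρ φ ∉ Subgroup.zpowers u := by
      intro hmem
      have h3 := card_fib_of_mem (hEL hρ) hun hφ hmem
      rw [h2] at h3
      have huniq : ∀ w' : HeightOneSpectrum (𝓞 (LF u ρ)),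
          w'.asIdeal.LiesOver v.asIdeal → w' = w := by
        intro w' hw'
        by_contra hne
        have e := under_of_liesOver hw'
        have hgood : GoodV N w' := by rw [← goodV_under (L := EF ρ), e]; exact hv
        exact ordH_pos_of_alg (by rw [e]; exact hπv) (hw2 w' hne hgood)
      have h4 : Nat.card {w' : HeightOneSpectrum (𝓞 (LF u ρ)) //
          w'.asIdeal.LiesOver v.asIdeal} ≤ 1 := by
        have : Subsingleton {w' : HeightOneSpectrum (𝓞 (LF u ρ)) //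
          w'.asIdeal.LiesOver v.asIdeal} :=
          ⟨fun a b => Subtype.ext ((huniq a.1 a.2).trans (huniq b.1 b.2).symm)⟩
        exact Finite.card_le_one_iff_subsingleton.2 this
      omega
    exact tr_of_notMem hΨ hφQ (fun h1 => hnot (by rw [h1]; exact one_mem _))
      (fun h1 => hnot (by rw [h1]; exact neg_one_mem_zpowers u))
  · left
    obtain ⟨R, hR, hR'⟩ : ∃ R : SI N (LF u ρ), Prime R ∧
      Associated (nS N (EF ρ) (LF u ρ) R) π := h.pre.split_of_not_prime hπ hp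
    refine ⟨R, hR, hR', ?_⟩
    let r : (LF u ρ)ˣ := toU R hR.ne_zero
    obtain ⟨w, hw, hw1, hw2⟩ := exists_place_of_prime h.pos h.pidL hR (X := r) rfl
    obtain ⟨s, hs1, hs2, hX⟩ := exists_factor q hπ.ne_zero hR.ne_zero hR'
    have hs0 : ordH (LF u ρ) w (Additive.ofMul s) = 0 := by
      have a1 := ordH_nonneg_of_SI hw hs1
      have a2 := ordH_nonneg_of_SI hw hs2
      rw [ofMul_inv, map_neg] at a2
      omega
    have hc0 : 0 ≤ ordH (LF u ρ) w (Additive.ofMul (Units.map (q.c : LF u ρ →* LF u ρ) r)) :=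
      ordH_nonneg_of_SI hw (aut_mem_SI q.c R.2)
    have hX1 : 0 < ordH (LF u ρ) w (Additive.ofMul (Units.map
        (algebraMap (EF ρ) (LF u ρ) : EF ρ →* LF u ρ) (toU π hπ.ne_zero))) := by
      rw [hX, ordH_mul, ordH_mul, hs0]
      have e : ordH (LF u ρ) w (Additive.ofMul (toU R hR.ne_zero)) = 1 := hw1
      rw [e]
      change 0 < ordH (LF u ρ) w (Additive.ofMul (Units.map (q.c : LF u ρ →* LF u ρ) r)) + 1 + 0
      omega
    have hvw : under (EF ρ) w = v := under_eq_of_prime h.toLevN hπ hv hπv hw hX1.ne'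
    have hne := h.placeSmul_ne hπ hR' hw (by
      rw [ordH_pos_iff] at hX1
      exact hX1)
    obtain ⟨A', hA'⟩ := exists_place w
    have hlo : w.asIdeal.LiesOver v.asIdeal := by rw [← hvw]; exact under_liesOver w
    have hA'v := below_fib hlo hA'
    obtain ⟨φ', hφ'⟩ := exists_isFrobV hA'v
    obtain ⟨ψ', hψ'⟩ := exists_isFrobV hA'
    have hmem : ρ φ' ∈ Subgroup.zpowers u := by
      by_contra hnot
      have h3 := card_fib_of_notMem (hEL hρ) (by rw [h2]; exact Nat.prime_two) hun hφ' hnot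
      rw [Nat.card_eq_one_iff_unique] at h3
      obtain ⟨hsub, -⟩ := h3
      apply hne
      have hlo2 : (placeSmul q.c w).asIdeal.LiesOver v.asIdeal := by
        rw [← hvw, ← under_placeSmul q.c w]; exact under_liesOver _
      exact congrArg Subtype.val (Subsingleton.elim
        (⟨placeSmul q.c w, hlo2⟩ : {w' : HeightOneSpectrum (𝓞 (LF u ρ)) //
          w'.asIdeal.LiesOver v.asIdeal}) ⟨w, hlo⟩)
    have hNw : Ideal.absNorm w.asIdeal = Ideal.absNorm v.asIdeal :=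
      (absNorm_eq_iff (hEL hρ) hun hφ' hA').mpr hmem
    have hρψ : ρ ψ' = ρ φ' := by
      have := hφ'.tower hun hψ' (f := 1) (by rw [hNw, pow_one])
      rwa [pow_one] at this
    obtain ⟨τ, -, hτ⟩ := hφ'.conj hun hφ
    have htr : ι (Ψ (ρ φ) : MZ).trace = ι (Ψ (ρ ψ') : MZ).trace := by
      rw [hτ, tr_conj, hρψ]
    -- the values of psi
    have hv1 : mulV N P.ψ r = P.ψ w := mulV_single hw hw1 hw2
    have hv2 : mulV N P.ψ (Units.map (q.c : LF u ρ →* LF u ρ) r) = (P.ψ w)⁻¹ := by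
      rw [eq_inv_iff_mul_eq_one, ← hv1]
      exact h.mulV_c (Ne.symm q.one_ne_c) r
    have hR0 : (R : LF u ρ) ≠ 0 := coe_ne_zero hR.ne_zero
    have hcR0 : q.c (R : LF u ρ) ≠ 0 := by rwa [Ne, map_eq_zero]
    have e1 : (h.t4d hρ hs).psi (R : LF u ρ) = ((P.ψ w : ℂˣ) : ℂ) := by
      rw [h.t4d_psi, mulZ_apply N P.ψ hR0, ← hv1]; rfl
    have e2 : (h.t4d hρ hs).psi ((h.t4d hρ hs).q.c (R : LF u ρ)) =
        (((P.ψ w)⁻¹ : ℂˣ) : ℂ) := by
      rw [h.t4d_psi]
      change mulZ N P.ψ (q.c (R : LF u ρ)) = _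
      rw [mulZ_apply N P.ψ hcR0, ← hv2]; rfl
    rw [e1, e2, htr]
    have hψQ : ρ ψ' ∈ Q8 := zpowers_le_Q8 hu.mem ((mem_GF_fixF hρ).1 hψ'.fix)
    by_cases c1 : ρ ψ' = 1
    · rw [P.one w (h.notMem hw) A' ψ' hψ' c1, c1, Top.tr_one]
      simp only [inv_one, Units.val_one]; norm_num
    by_cases c2 : ρ ψ' = -1
    · rw [P.neg w (h.notMem hw) A' ψ' hψ' c2, c2, Top.tr_neg_one hΨ]
      simp only [inv_neg, inv_one, Units.val_neg, Units.val_one]; norm_num
    rw [tr_of_notMem hΨ hψQ c1 c2]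
    have h4 := P.four w (h.notMem hw) A' ψ' hψ' c1 c2
    have h5 : (P.ψ w)⁻¹ = -P.ψ w := by
      rw [inv_eq_iff_mul_eq_one, mul_neg, ← pow_two, h4, neg_neg]
    rw [h5, Units.val_neg, add_neg_cancel]

end lam

end Fermat.Agent.LT.NT
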